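import Fermat.Agent.Bridge.Expansion
import Fermat.Agent.Galois.Places
import Mathlib.NumberTheory.ModularForms.CongruenceSubgroups
import Mathlib.FieldTheory.IsAlgClosed.Basic

/-!
# Weight zero level `N` functions: basic definitions for Deligne–Serre

* `Fn N`: holomorphic `Γ(N)`-invariant functions on `ℍ`, meromorphic at every cusp.
* `Tw N δ`: the same with a multiplier `δ : Γ(N) →* ℂ`.
* `cexp N F g`: the Laurent expansion of `F ∘ g` in `exp (2 π i τ / N)`.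
* `IsAlgFn`, `IsIntFn A`: algebraic, resp. `A`-integral, expansions at every cusp; `redExp` reduces.
-/

set_option autoImplicit false

noncomputable section

open scoped MatrixGroups
open UpperHalfPlane CongruenceSubgroup

namespace FLTA.DeligneSerre

open FLTA.Bridge (Hol GrowthInfty HolInfty expansion)

local notation "Qb" => AlgebraicClosure ℚ

/-- A fixed embedding of the algebraic closure of `ℚ` in `ℂ`. -/
def iota : Qb →+* ℂ :=
  (IsAlgClosed.lift (M := ℂ) (R := ℚ) (S := Qb)).toRingHom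

/-- Holomorphic functions with multiplier `δ` on `Γ(N)`, meromorphic at all cusps. -/
def Tw (N : ℕ) (δ : Gamma N →* ℂ) : Submodule ℂ (ℍ → ℂ) where
  carrier := {F | F ∈ Hol ∧ (∀ (γ : Gamma N) (τ : ℍ), F ((γ : SL(2, ℤ)) • τ) = δ γ * F τ) ∧
    ∀ g : SL(2, ℤ), GrowthInfty (fun τ : ℍ => F (g • τ))}
  zero_mem' := ⟨zero_mem _, fun γ τ => by simp, fun g => GrowthInfty.const 0⟩
  add_mem' ha hb := ⟨add_mem ha.1 hb.1,
    fun γ τ => by simp only [Pi.add_apply]; rw [ha.2.1 γ τ, hb.2.1 γ τ, mul_add],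
    fun g => (ha.2.2 g).add (hb.2.2 g)⟩
  smul_mem' c F hF := ⟨Hol.smul_mem hF.1 c,
    fun γ τ => by simp only [Pi.smul_apply, smul_eq_mul]; rw [hF.2.1 γ τ]; ring,
    fun g => (GrowthInfty.const c).mul (hF.2.2 g)⟩

/-- Holomorphic `Γ(N)`-invariant functions, meromorphic at all cusps. -/
def Fn (N : ℕ) : Subalgebra ℂ (ℍ → ℂ) where
  carrier := {F | F ∈ Hol ∧ (∀ γ ∈ Gamma N, ∀ τ : ℍ, F (γ • τ) = F τ) ∧
    ∀ g : SL(2, ℤ), GrowthInfty (fun τ : ℍ => F (g • τ))}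
  mul_mem' ha hb := ⟨mul_mem ha.1 hb.1,
    fun γ hγ τ => congrArg₂ (· * ·) (ha.2.1 γ hγ τ) (hb.2.1 γ hγ τ),
    fun g => (ha.2.2 g).mul (hb.2.2 g)⟩
  add_mem' ha hb := ⟨add_mem ha.1 hb.1,
    fun γ hγ τ => congrArg₂ (· + ·) (ha.2.1 γ hγ τ) (hb.2.1 γ hγ τ),
    fun g => (ha.2.2 g).add (hb.2.2 g)⟩
  algebraMap_mem' c := ⟨Subalgebra.algebraMap_mem _ c, fun _ _ _ => rfl,
    fun _ => GrowthInfty.const c⟩

theorem mem_tw_one_iff {N : ℕ} {F : ℍ → ℂ} : F ∈ Tw N 1 ↔ F ∈ Fn N := by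
  refine ⟨fun h => ⟨h.1, fun γ hγ τ => by simpa using h.2.1 ⟨γ, hγ⟩ τ, h.2.2⟩,
    fun h => ⟨h.1, fun γ τ => by simpa using h.2.1 γ γ.2 τ, h.2.2⟩⟩

theorem mul_mem_tw {N : ℕ} {δ ε : Gamma N →* ℂ} {F G : ℍ → ℂ} (hF : F ∈ Tw N δ)
    (hG : G ∈ Tw N ε) : F * G ∈ Tw N (δ * ε) :=
  ⟨mul_mem hF.1 hG.1, fun γ τ => by
    simp only [Pi.mul_apply, hF.2.1 γ τ, hG.2.1 γ τ, MonoidHom.mul_apply]; ring,
    fun g => (hF.2.2 g).mul (hG.2.2 g)⟩

/-- `δ` kills every conjugate in `Γ(N)` of a power of `T`. -/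
def ParTriv (N : ℕ) (δ : Gamma N →* ℂ) : Prop :=
  ∀ (γ : Gamma N) (g : SL(2, ℤ)) (m : ℤ),
    (γ : SL(2, ℤ)) = g * ModularGroup.T ^ m * g⁻¹ → δ γ = 1

open Classical in
/-- Laurent expansion of `F ∘ g` in `exp (2 π i τ / N)` (junk value `0`). -/
def cexp (N : ℕ) (F : ℍ → ℂ) (g : SL(2, ℤ)) : LaurentSeries ℂ :=
  if hN : N ≠ 0 then
    haveI : NeZero N := ⟨hN⟩
    if h : (fun τ : ℍ => F (g • τ)) ∈ HolInfty N then expansion N ⟨_, h⟩ else 0
  else 0

/-- All expansions have algebraic coefficients. -/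
def IsAlgFn (N : ℕ) (F : ℍ → ℂ) : Prop :=
  ∀ (g : SL(2, ℤ)) (k : ℤ), ∃ a : Qb, iota a = (cexp N F g).coeff k

/-- All expansions have `A`-integral coefficients. -/
def IsIntFn (A : ValuationSubring Qb) (N : ℕ) (F : ℍ → ℂ) : Prop :=
  ∀ (g : SL(2, ℤ)) (k : ℤ), ∃ a : A, iota (a : Qb) = (cexp N F g).coeff k

theorem IsIntFn.isAlgFn {A : ValuationSubring Qb} {N : ℕ} {F : ℍ → ℂ} (h : IsIntFn A N F) :
    IsAlgFn N F := fun g k => by obtain ⟨a, ha⟩ := h g k; exact ⟨a, ha⟩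

open Classical in
/-- Reduction of a complex number in `iota A` modulo the maximal ideal (junk value `0`). -/
def redC (A : ValuationSubring Qb) (z : ℂ) : IsLocalRing.ResidueField A :=
  if h : ∃ a : A, iota (a : Qb) = z then IsLocalRing.residue A h.choose else 0

theorem redC_iota (A : ValuationSubring Qb) (a : A) :
    redC A (iota (a : Qb)) = IsLocalRing.residue A a := by
  have h : ∃ b : A, iota (b : Qb) = iota (a : Qb) := ⟨a, rfl⟩
  rw [redC, dif_pos h]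
  exact congrArg _ (Subtype.ext (iota.injective h.choose_spec))

theorem redC_zero (A : ValuationSubring Qb) : redC A 0 = 0 := by
  have := redC_iota A 0
  rwa [ZeroMemClass.coe_zero, map_zero, map_zero] at this

/-- Coefficientwise reduction of the expansion at `g ∞`. -/
def redExp (A : ValuationSubring Qb) (N : ℕ) (F : ℍ → ℂ) (g : SL(2, ℤ)) :
    LaurentSeries (IsLocalRing.ResidueField A) :=
  HahnSeries.map (cexp N F g)
    ({ toFun := redC A, map_zero' := redC_zero A } : ZeroHom ℂ (IsLocalRing.ResidueField A))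

/-- An algebraic constant times an integral series whose leading coefficient is a unit. -/
def UnitSeries (S : LaurentSeries ℂ) : Prop :=
  ∃ c : Qb, c ≠ 0 ∧ (∀ k : ℤ, ∃ a : Qb, IsIntegral ℤ a ∧ iota (c * a) = S.coeff k) ∧
    ∃ a b : Qb, IsIntegral ℤ a ∧ IsIntegral ℤ b ∧ a * b = 1 ∧ iota (c * a) = S.coeff S.order

/-- `g' ≡ diag(1, u)⁻¹ g diag(1, u)` modulo `N`. -/
def GalConj (N u : ℕ) (g g' : SL(2, ℤ)) : Prop :=
  (g'.1 0 0 : ZMod N) = (g.1 0 0 : ZMod N) ∧ (g'.1 0 1 : ZMod N) = u * (g.1 0 1 : ZMod N) ∧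
    u * (g'.1 1 0 : ZMod N) = (g.1 1 0 : ZMod N) ∧ (g'.1 1 1 : ZMod N) = (g.1 1 1 : ZMod N)

end FLTA.DeligneSerre
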