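import Fermat.Agent.DeligneSerre.Level.UnitForm
import Fermat.Prelude.Def_FLTPrelim_Modularity

/-!
# A weight one form congruent to `1`

A constant multiple of `℘'(u) / (℘(u) - ℘(2 u))` at the division point `u = 1 / ℓ`.
-/

set_option autoImplicit false

noncomputable section

open scoped MatrixGroups ModularForm
open UpperHalfPlane CongruenceSubgroup ModularFormClass

namespace FLTA.DeligneSerre

open FLTA.Bridge (HolInfty expansion expansionFun)
open ModularCurve (coeffMap)

local notation "Qb" => AlgebraicClosure ℚ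
local notation "Zb" => integralClosure ℤ (AlgebraicClosure ℚ)

section Bounded

variable {N : ℕ} [NeZero N] {v w : Fin 2 → ℤ}

theorem ofPowerSeries_order_le {R : Type*} [Semiring R] {c : ℕ → R} {m : ℕ} (h : c m ≠ 0) :
    (HahnSeries.ofPowerSeries ℤ R (PowerSeries.mk c)).order ≤ m :=
  HahnSeries.order_le_of_coeff_ne_zero (by simpa [HahnSeries.ofPowerSeries_apply_coeff] using h)

/-- Boundedness, when the denominator has a nonzero coefficient no later than the numerator. -/
theorem torU_isBounded (hv : VecNondeg N v) (hw : VecNondeg N w) (h : ¬ VecEq N v w) {m : ℕ}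
    (hd : diffCoeff N v w m ≠ 0) (hy : ∀ j < m, yCoeff N v j = 0) :
    IsBoundedAtImInfty (torU N v w) := by
  have hmem := (torU_holInfty hv hw h).2
  rw [show torU N v w = ((⟨torU N v w, hmem⟩ : HolInfty N) : ℍ → ℂ) from rfl,
    FLTA.Bridge.isBoundedAtImInfty_iff_order]
  have hX : expansion N ⟨torU N v w, hmem⟩ * expansion N ⟨_, diff_mem_holInfty hv hw⟩ =
      expansion N ⟨_, torY_mem_holInfty hv⟩ := by
    rw [← map_mul]
    refine congrArg _ (Subtype.ext (funext fun τ => ?_))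
    exact div_mul_cancel₀ _ (sub_ne_zero.mpr (torX_ne hv hw h τ))
  rcases eq_or_ne (expansion N ⟨torU N v w, hmem⟩) 0 with h0 | h0
  · rw [h0, HahnSeries.order_zero]
  have hD0 : expansion N ⟨_, diff_mem_holInfty hv hw⟩ ≠ 0 :=
    (leadSeries_diff hv hw h).unitExp.ne_zero
  have hord := HahnSeries.order_mul h0 hD0
  rw [hX] at hord
  have hY0 : expansion N ⟨_, torY_mem_holInfty hv⟩ ≠ 0 := hX ▸ mul_ne_zero h0 hD0
  have h1 : (expansion N ⟨_, diff_mem_holInfty hv hw⟩).order ≤ m := by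
    rw [expansion_diff hv hw]; exact ofPowerSeries_order_le hd
  have h2 : (m : ℤ) ≤ (expansion N ⟨_, torY_mem_holInfty hv⟩).order := by
    by_contra hlt
    rw [not_le] at hlt
    refine hY0 (HahnSeries.coeff_order_eq_zero.mp ?_)
    set o := (expansion N ⟨_, torY_mem_holInfty hv⟩).order
    rw [expansion_torY hv]
    rcases lt_or_ge o 0 with ho | ho
    · exact ModularCurve.ofPowerSeries_coeff_of_neg _ ho
    · obtain ⟨j, hj⟩ := Int.eq_ofNat_of_zero_le ho
      rw [hj, HahnSeries.ofPowerSeries_apply_coeff, PowerSeries.coeff_mk, hy j (by omega)]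
  omega

/-- The distance of a class to zero. -/
def zdist (a : ZMod N) : ℕ := min a.val (-a).val

theorem lt_zdist_ne (a : ZMod N) (j : ℕ) (hj : j < zdist a) :
    (j : ZMod N) ≠ a ∧ (j : ZMod N) ≠ -a := by
  rw [zdist, lt_min_iff] at hj
  have hv : ((j : ZMod N)).val = j := ZMod.val_natCast_of_lt (lt_trans hj.1 a.val_lt)
  exact ⟨fun h => by rw [← h, hv] at hj; omega, fun h => by rw [← h, hv] at hj; omega⟩

theorem zdist_eq (a : ZMod N) : (zdist a : ZMod N) = a ∨ (zdist a : ZMod N) = -a := by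
  rcases le_total a.val (-a).val with h | h
  · left; rw [zdist, min_eq_left h, ZMod.natCast_zmod_val]
  · right; rw [zdist, min_eq_right h, ZMod.natCast_zmod_val]

theorem zdist_pos {a : ZMod N} (ha : a ≠ 0) : 0 < zdist a := by
  rw [zdist, lt_min_iff]
  exact ⟨Nat.pos_of_ne_zero (fun h => ha ((ZMod.val_eq_zero a).mp h)),
    Nat.pos_of_ne_zero (fun h => ha (neg_eq_zero.mp ((ZMod.val_eq_zero (-a)).mp h)))⟩

theorem zetaC_zpowMod_ne_zero (x : ZMod N) : zpowMod (zetaC N) x ≠ 0 :=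
  norm_ne_zero_iff.mp (by rw [norm_zpowMod_zetaC]; norm_num)

theorem torCoeff_zdist_ne_zero (a b : ZMod N) (ha : a ≠ 0) (h2 : a ≠ -a) :
    torCoeff (zetaC N) 1 a b (zdist a) ≠ 0 := by
  rw [torCoeff_of_le _ 1 a b (fun j _ hj => lt_zdist_ne a j hj) le_rfl,
    if_pos ⟨rfl, zdist_pos ha⟩]
  rcases zdist_eq a with h | h
  · rw [if_pos h, if_neg (fun h' => h2 (h.symm.trans h'))]
    simpa using zetaC_zpowMod_ne_zero b
  · rw [if_neg (fun h' => h2 (h'.symm.trans h)), if_pos h]
    simpa using zetaC_zpowMod_ne_zero (-b)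

end Bounded

variable {ℓ : ℕ}

theorem natCast_ne_zero_of_lt {n : ℕ} (hn : n ≠ 0) (h : n < ℓ) : (n : ZMod ℓ) ≠ 0 := by
  rw [ne_eq, ZMod.natCast_eq_zero_iff]
  exact fun hd => absurd (Nat.le_of_dvd (Nat.pos_of_ne_zero hn) hd) (by omega)

theorem two_nsmul_nondeg [Fact ℓ.Prime] (h5 : 5 ≤ ℓ) {v : Fin 2 → ℤ} (hv : VecNondeg ℓ v) :
    VecNondeg ℓ (2 • v) := by
  intro h
  refine hv fun i => ?_
  have h' := h i
  simp only [Pi.smul_apply, nsmul_eq_mul, Nat.cast_ofNat] at h'
  rcases (Nat.prime_iff_prime_int.mp (Fact.out : ℓ.Prime)).dvd_mul.mp h' with h2 | h2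
  · exact absurd (Int.le_of_dvd (by norm_num) h2) (by omega)
  · exact h2

theorem not_vecEq_double [Fact ℓ.Prime] (h5 : 5 ≤ ℓ) {v : Fin 2 → ℤ} (hv : VecNondeg ℓ v) :
    ¬ VecEq ℓ v (2 • v) := by
  rintro (h | h)
  · refine hv fun i => ?_
    simpa [two_mul] using h i
  · refine hv fun i => ?_
    have h' : (ℓ : ℤ) ∣ 3 * v i := by
      convert! h i using 1
      simp only [Pi.smul_apply, nsmul_eq_mul, Nat.cast_ofNat]; ring
    rcases (Nat.prime_iff_prime_int.mp (Fact.out : ℓ.Prime)).dvd_mul.mp h' with h3 | h3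
    · exact absurd (Int.le_of_dvd (by norm_num) h3) (by omega)
    · exact h3

theorem torU_double_isBounded [Fact ℓ.Prime] (h5 : 5 ≤ ℓ) {v : Fin 2 → ℤ} (hv : VecNondeg ℓ v) :
    IsBoundedAtImInfty (torU ℓ v (2 • v)) := by
  have hw := two_nsmul_nondeg h5 hv
  have hne := not_vecEq_double h5 hv
  set a := (v 0 : ZMod ℓ) with hadef
  have ha2 : (((2 • v) 0 : ℤ) : ZMod ℓ) = 2 * a := by simp [hadef]
  by_cases h0 : a = 0
  · refine torU_isBounded hv hw hne (m := 0) ?_ (fun j hj => absurd hj (by omega))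
    have hb := snd_ne_zero hv h0
    have hb2 := snd_ne_zero hw (show ((2 • v) 0 : ZMod ℓ) = 0 by rw [ha2, h0, mul_zero])
    rw [diffCoeff, if_pos rfl, torCoeff_zero, torCoeff_zero, sub_zero, add_zero, constX, constX,
      if_pos h0, if_pos (by rw [ha2, h0, mul_zero]), ← iota_rowF, ← iota_rowF, ← map_sub,
      map_ne_zero]
    set et := (zr (v 1 : ZMod ℓ) : Qb) with het
    have e2 : (zr (((2 • v) 1 : ℤ) : ZMod ℓ) : Qb) = et ^ 2 := by
      have : (((2 • v) 1 : ℤ) : ZMod ℓ) = (v 1 : ZMod ℓ) + (v 1 : ZMod ℓ) := by simp; ring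
      rw [this, zr_add, het]; push_cast; ring
    have h1 : (1 : Qb) - et ≠ 0 := one_sub_zr_ne hb
    have h2 : (1 : Qb) - et ^ 2 ≠ 0 := by rw [← e2]; exact one_sub_zr_ne hb2
    have het0 : et ≠ 0 := (NUnit.of_isUnit (N := ℓ) (isUnit_zr _)).1
    rw [e2, sub_ne_zero, ne_eq, div_eq_div_iff (pow_ne_zero 2 h1) (pow_ne_zero 2 h2)]
    intro he
    have h3 : et * (1 - et) ^ 2 * (1 + et + et ^ 2) = 0 := by linear_combination he
    have h3' : (1 : Qb) + et + et ^ 2 = 0 := by
      rcases mul_eq_zero.mp h3 with h | h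
      · exact absurd h (mul_ne_zero het0 (pow_ne_zero 2 h1))
      · exact h
    have h4 : zr ((v 1 : ZMod ℓ) + (v 1 : ZMod ℓ) + (v 1 : ZMod ℓ)) = 1 := by
      refine Subtype.ext ?_
      rw [zr_add, zr_add]
      push_cast
      rw [← het]
      linear_combination (et - 1) * h3'
    rw [zr_eq_one_iff] at h4
    have h5' : (3 : ZMod ℓ) * (v 1 : ZMod ℓ) = 0 := by linear_combination h4
    rcases mul_eq_zero.mp h5' with h | h
    · exact natCast_ne_zero_of_lt (ℓ := ℓ) (n := 3) (by norm_num) (by omega) (by exact_mod_cast h)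
    · exact hb h
  · have h2 : (2 : ZMod ℓ) ≠ 0 := by
      exact_mod_cast natCast_ne_zero_of_lt (ℓ := ℓ) (n := 2) (by norm_num) (by omega)
    have h3 : (3 : ZMod ℓ) ≠ 0 := by
      exact_mod_cast natCast_ne_zero_of_lt (ℓ := ℓ) (n := 3) (by norm_num) (by omega)
    have ha' : a ≠ -a := fun h => mul_ne_zero h2 h0 (by linear_combination h)
    have h2a : (2 * a) ≠ 0 := mul_ne_zero h2 h0
    have h2a' : 2 * a ≠ -(2 * a) := fun h => mul_ne_zero h2 h2a (by linear_combination h)
    have hd : zdist a ≠ zdist (2 * a) := by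
      intro h
      rcases zdist_eq a with e | e <;> rcases zdist_eq (2 * a) with e' | e' <;>
        rw [← h, e] at e'
      · exact h0 (by linear_combination -e')
      · exact mul_ne_zero h3 h0 (by linear_combination e')
      · exact mul_ne_zero h3 h0 (by linear_combination -e')
      · exact h0 (by linear_combination e')
    refine torU_isBounded hv hw hne (m := min (zdist a) (zdist (2 * a))) ?_ (fun j hj => ?_)
    · have hne0 : min (zdist a) (zdist (2 * a)) ≠ 0 :=
        (lt_min (zdist_pos h0) (zdist_pos h2a)).ne'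
      rw [diffCoeff, if_neg hne0, zero_add, ha2]
      rcases lt_or_gt_of_ne hd with hlt | hlt
      · rw [min_eq_left hlt.le, torCoeff_of_le _ 1 (2 * a) _
          (fun j _ hj => lt_zdist_ne _ j hj) hlt.le, if_neg (fun h => by omega), sub_zero]
        exact torCoeff_zdist_ne_zero a _ h0 ha'
      · rw [min_eq_right hlt.le, torCoeff_of_le _ 1 a _
          (fun j _ hj => lt_zdist_ne _ j hj) hlt.le, if_neg (fun h => by omega), zero_sub,
          neg_ne_zero]
        exact torCoeff_zdist_ne_zero _ _ h2a h2a'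
    · have hj' : j < zdist a := lt_of_lt_of_le hj (min_le_left _ _)
      rw [yCoeff, constY, if_neg h0, ite_self, zero_add, torCoeff_of_le _ 2 a _
        (fun j _ hj => lt_zdist_ne _ j hj) hj'.le, if_neg (fun h => by omega)]

section Reduction

variable {A : ValuationSubring Qb}

/-- A constant times a series reducing to `1`. -/
theorem exists_unit_tail (c : Qb) (hc : c ≠ 0) (T : ℕ → Zb) (h0 : T 0 = 0)
    (hT : ∀ m, c⁻¹ * (T m : Qb) ∈ A.nonunits) :
    ∃ S : LaurentSeries A, IsUnit S ∧ coeffMap (IsLocalRing.residue A) S = 1 ∧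
      HahnSeries.ofPowerSeries ℤ ℂ
          (PowerSeries.mk fun m => (if m = 0 then iota c else 0) + intC (T m)) =
        HahnSeries.C (iota c) * coeffMap (iotaA A) S := by
  let t : ℕ → A := fun m => ⟨c⁻¹ * (T m : Qb), A.nonunits_subset (hT m)⟩
  let s : ℕ → A := fun m => (if m = 0 then 1 else 0) + t m
  refine ⟨HahnSeries.ofPowerSeries ℤ A (PowerSeries.mk s), ?_, ?_, ?_⟩
  · refine IsUnit.map _ (PowerSeries.isUnit_iff_constantCoeff.mpr ?_)
    rw [PowerSeries.constantCoeff_mk]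
    have ht0 : t 0 = 0 := Subtype.ext (by simp [t, h0])
    show IsUnit ((if (0 : ℕ) = 0 then (1 : A) else 0) + t 0)
    rw [if_pos rfl, ht0, add_zero]
    exact isUnit_one
  · rw [coeffMap_ofPowerSeries, ← map_one (HahnSeries.ofPowerSeries ℤ (IsLocalRing.ResidueField A))]
    congr 1
    ext m
    have ht : IsLocalRing.residue A (t m) = 0 :=
      (Galois.residue_eq_zero_iff_mem_nonunits (t m)).mpr (hT m)
    simp only [PowerSeries.coeff_mk, PowerSeries.coeff_one, s, map_add, ht, add_zero, apply_ite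
      (IsLocalRing.residue A), map_one, map_zero]
  · rw [coeffMap_ofPowerSeries]
    ext k
    rw [coeff_C_mul]
    by_cases hk : k < 0
    · rw [ModularCurve.ofPowerSeries_coeff_of_neg _ hk,
        ModularCurve.ofPowerSeries_coeff_of_neg _ hk, mul_zero]
    · obtain ⟨m, rfl⟩ := Int.eq_ofNat_of_zero_le (not_lt.mp hk)
      simp only [HahnSeries.ofPowerSeries_apply_coeff, PowerSeries.coeff_mk, s, t, map_add,
        apply_ite (iotaA A), map_one, map_zero, mul_add, mul_ite, mul_one, mul_zero]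
      congr 1
      show iota (T m : Qb) = iota c * iota (c⁻¹ * (T m : Qb))
      rw [← map_mul, ← mul_assoc, mul_inv_cancel₀ hc, one_mul]

variable [Fact ℓ.Prime]

theorem residue_zr (hA : A.LiesOverPrime ℓ) (x : ZMod ℓ) :
    IsLocalRing.residue A ⟨(zr x : Qb), Galois.mem_of_isIntegral (zr x).2⟩ = 1 := by
  rw [← map_one (IsLocalRing.residue A), Galois.residue_eq_iff_sub_mem_nonunits]
  refine Galois.sub_one_mem_nonunits_of_pow_prime_pow_eq_one Fact.out hA (k := 1) ?_
  have : zr x ^ ℓ = 1 := by rw [zr, zpowMod, ← pow_mul, mul_comm, pow_mul, zInt_pow, one_pow]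
  simpa using congrArg Subtype.val this

theorem residue_natCast_ne_zero (hA : A.LiesOverPrime ℓ) {n : ℕ} (hn : n ≠ 0) (h : n < ℓ) :
    (n : IsLocalRing.ResidueField A) ≠ 0 := by
  rw [← map_natCast (IsLocalRing.residue A), ne_eq, Galois.residue_eq_zero_iff_mem_nonunits]
  push_cast
  rw [Galois.natCast_mem_nonunits_iff Fact.out hA]
  exact fun hd => absurd (Nat.le_of_dvd (Nat.pos_of_ne_zero hn) hd) (by omega)

theorem div_mem_nonunits {num den : A} (hnum : IsLocalRing.residue A num = 0)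
    (hden : IsLocalRing.residue A den ≠ 0) : (num : Qb) / (den : Qb) ∈ A.nonunits := by
  obtain ⟨e, he⟩ := (IsLocalRing.residue_ne_zero_iff_isUnit den).mp hden |>.exists_right_inv
  rw [div_eq_mul_inv, inv_eq_of_mul_eq_one_right (congrArg Subtype.val he)]
  exact Galois.mul_mem_nonunits_of_mem ((Galois.residue_eq_zero_iff_mem_nonunits num).mp hnum) e.2

/-- The root of unity as an element of the place. -/
def zrA (A : ValuationSubring Qb) (x : ZMod ℓ) : A :=
  ⟨(zr x : Qb), Galois.mem_of_isIntegral (zr x).2⟩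

theorem coe_zrA (A : ValuationSubring Qb) (x : ZMod ℓ) : (zrA A x : Qb) = (zr x : Qb) := rfl

theorem coe_ne_zero_of_residue {x : A} (h : IsLocalRing.residue A x ≠ 0) : (x : Qb) ≠ 0 :=
  fun h0 => h (by rw [show x = 0 from Subtype.ext h0, map_zero])

/-- The expansion of `torU` at a division point of `μ_ℓ`. -/
theorem exists_expansion_reduces (h5 : 5 ≤ ℓ) (hA : A.LiesOverPrime ℓ) {d : ℤ}
    (hd : (d : ZMod ℓ) ≠ 0) (h : torU ℓ ![0, d] (2 • ![0, d]) ∈ HolInfty ℓ) :
    ∃ S : LaurentSeries A, coeffMap (IsLocalRing.residue A) S = 1 ∧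
      expansion ℓ ⟨_, h⟩ = HahnSeries.C (iota ((1 + (zr (d : ZMod ℓ) : Qb)) ^ 3 /
          ((1 - (zr (d : ZMod ℓ) : Qb)) * (1 + (zr (d : ZMod ℓ) : Qb) + (zr (d : ZMod ℓ) : Qb) ^ 2)))) *
        coeffMap (iotaA A) S := by
  set b := (d : ZMod ℓ) with hbdef
  set v : Fin 2 → ℤ := ![0, d] with hvdef
  have hv : VecNondeg ℓ v := fun h => hd ((ZMod.intCast_zmod_eq_zero_iff_dvd _ _).mpr
    (by simpa [hvdef] using h 1))
  have hw := two_nsmul_nondeg h5 hv
  have hne := not_vecEq_double h5 hv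
  have hv0 : (v 0 : ZMod ℓ) = 0 := by simp [hvdef]
  have hv1 : (v 1 : ZMod ℓ) = b := by simp [hvdef, hbdef]
  have hw0 : ((2 • v) 0 : ZMod ℓ) = 0 := by simp [hvdef]
  have hw1 : ((2 • v) 1 : ZMod ℓ) = b + b := by simp [hvdef, hbdef]; ring
  have h2 : (2 : ZMod ℓ) ≠ 0 := by
    exact_mod_cast natCast_ne_zero_of_lt (ℓ := ℓ) (n := 2) (by norm_num) (by omega)
  have hbb : b + b ≠ 0 := by rw [← two_mul]; exact mul_ne_zero h2 hd
  set et : Qb := (zr b : Qb) with het
  have e2 : (zr (b + b) : Qb) = et ^ 2 := by rw [zr_add, het]; push_cast; ring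
  have r1 : IsLocalRing.residue A (zrA A b) = 1 := residue_zr hA b
  have k2 : (2 : IsLocalRing.ResidueField A) ≠ 0 := by
    exact_mod_cast residue_natCast_ne_zero hA (n := 2) (by norm_num) (by omega : 2 < ℓ)
  have k3 : (3 : IsLocalRing.ResidueField A) ≠ 0 := by
    exact_mod_cast residue_natCast_ne_zero hA (n := 3) (by norm_num) (by omega : 3 < ℓ)
  have hp1 : IsLocalRing.residue A (zrA A b * (1 + zrA A b)) ≠ 0 := by
    rw [map_mul, map_add, map_one, r1, one_mul, one_add_one_eq_two]; exact k2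
  have hp3 : IsLocalRing.residue A (zrA A b * (1 + zrA A b + zrA A b ^ 2)) ≠ 0 := by
    rw [map_mul, map_add, map_add, map_pow, map_one, r1, one_mul, one_pow]
    convert! k3 using 1; ring
  have hm : (1 : Qb) - et ≠ 0 := one_sub_zr_ne hd
  have hm2 : (1 : Qb) - et ^ 2 ≠ 0 := by rw [← e2]; exact one_sub_zr_ne hbb
  have hp : et * (1 + et) ≠ 0 := coe_ne_zero_of_residue hp1
  have hq : et * (1 + et + et ^ 2) ≠ 0 := coe_ne_zero_of_residue hp3
  have het0 : et ≠ 0 := left_ne_zero_of_mul hp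
  have hp' : (1 : Qb) + et ≠ 0 := right_ne_zero_of_mul hp
  have hq' : (1 : Qb) + et + et ^ 2 ≠ 0 := right_ne_zero_of_mul hq
  set cy : Qb := et * (1 + et) / (1 - et) ^ 3 with hcy
  set cd : Qb := et * (1 + et + et ^ 2) / ((1 - et) * (1 + et)) ^ 2 with hcd
  have hcy0 : cy ≠ 0 := div_ne_zero hp (pow_ne_zero _ hm)
  have hcd0 : cd ≠ 0 := div_ne_zero hq (pow_ne_zero _ (mul_ne_zero hm hp'))
  obtain ⟨Sy, -, hSy, hSy'⟩ := exists_unit_tail (A := A) cy hcy0
    (fun m => torCoeff (zInt ℓ) 2 (0 : ZMod ℓ) b m) (torCoeff_zero _ _ _ _) (fun m => by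
      have hval : cy⁻¹ * ((torCoeff (zInt ℓ) 2 (0 : ZMod ℓ) b m : Zb) : Qb) =
          (((1 - zrA A b) ^ 3 * ⟨_, Galois.mem_of_isIntegral
            (torCoeff (zInt ℓ) 2 (0 : ZMod ℓ) b m).2⟩ : A) : Qb) /
            ((zrA A b * (1 + zrA A b) : A) : Qb) := by
        push_cast
        rw [coe_zrA, hcy, inv_div, div_mul_eq_mul_div]
      rw [hval]
      exact div_mem_nonunits (by rw [map_mul, map_pow, map_sub, map_one, r1]; simp) hp1)
  obtain ⟨Sd, hSdu, hSd, hSd'⟩ := exists_unit_tail (A := A) cd hcd0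
    (fun m => torCoeff (zInt ℓ) 1 (0 : ZMod ℓ) b m - torCoeff (zInt ℓ) 1 (0 : ZMod ℓ) (b + b) m)
    (by simp [torCoeff_zero]) (fun m => by
      have hval : cd⁻¹ * ((torCoeff (zInt ℓ) 1 (0 : ZMod ℓ) b m -
          torCoeff (zInt ℓ) 1 (0 : ZMod ℓ) (b + b) m : Zb) : Qb) =
          ((((1 - zrA A b) * (1 + zrA A b)) ^ 2 * ⟨_, Galois.mem_of_isIntegral
            (torCoeff (zInt ℓ) 1 (0 : ZMod ℓ) b m -
              torCoeff (zInt ℓ) 1 (0 : ZMod ℓ) (b + b) m).2⟩ : A) : Qb) /
            ((zrA A b * (1 + zrA A b + zrA A b ^ 2) : A) : Qb) := by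
        push_cast
        rw [coe_zrA, hcd, inv_div, div_mul_eq_mul_div]
      rw [hval]
      exact div_mem_nonunits (by rw [map_mul, map_pow, map_mul, map_sub, map_one, r1]; simp) hp3)
  have hY : expansion ℓ ⟨_, torY_mem_holInfty hv⟩ =
      HahnSeries.C (iota cy) * coeffMap (iotaA A) Sy := by
    rw [expansion_torY hv, ← hSy']
    refine congrArg _ (congrArg _ (funext fun m => ?_))
    rw [yCoeff, constY, if_pos hv0, hv0, hv1, intC_torCoeff, hcy, map_div₀, map_pow, map_sub,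
      map_mul, map_add, map_one, het, iota_zr, rowG]
  have hD : expansion ℓ ⟨_, diff_mem_holInfty hv hw⟩ =
      HahnSeries.C (iota cd) * coeffMap (iotaA A) Sd := by
    rw [expansion_diff hv hw, ← hSd']
    refine congrArg _ (congrArg _ (funext fun m => ?_))
    rw [diffCoeff, constX, constX, if_pos hv0, if_pos hw0, hv0, hv1, hw0, hw1, map_sub intC,
      intC_torCoeff, intC_torCoeff, ← iota_rowF, ← iota_rowF, ← map_sub, e2, hcd, ← het]
    congr 3
    rw [div_sub_div _ _ (pow_ne_zero 2 hm) (pow_ne_zero 2 hm2),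
      div_eq_div_iff (mul_ne_zero (pow_ne_zero 2 hm) (pow_ne_zero 2 hm2))
        (pow_ne_zero 2 (mul_ne_zero hm hp'))]
    ring
  obtain ⟨Sd', hinv⟩ := hSdu.exists_right_inv
  refine ⟨Sy * Sd', ?_, ?_⟩
  · rw [map_mul, hSy, one_mul]
    have := congrArg (coeffMap (IsLocalRing.residue A)) hinv
    rwa [map_mul, hSd, one_mul, map_one] at this
  · have hX : expansion ℓ ⟨_, h⟩ * expansion ℓ ⟨_, diff_mem_holInfty hv hw⟩ =
        expansion ℓ ⟨_, torY_mem_holInfty hv⟩ := by
      rw [← map_mul]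
      refine congrArg _ (Subtype.ext (funext fun τ => ?_))
      exact div_mul_cancel₀ _ (sub_ne_zero.mpr (torX_ne hv hw hne τ))
    have hD0 : expansion ℓ ⟨_, diff_mem_holInfty hv hw⟩ ≠ 0 :=
      (leadSeries_diff hv hw hne).unitExp.ne_zero
    refine mul_right_cancel₀ hD0 ?_
    rw [hX, hY, hD]
    have hconst : cy = (1 + et) ^ 3 / ((1 - et) * (1 + et + et ^ 2)) * cd := by
      rw [hcy, hcd, div_mul_div_comm, div_eq_div_iff (pow_ne_zero 3 hm)
        (mul_ne_zero (mul_ne_zero hm hq') (pow_ne_zero 2 (mul_ne_zero hm hp')))]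
      ring
    rw [hconst, map_mul iota, map_mul HahnSeries.C, map_mul (coeffMap (iotaA A))]
    have hone : coeffMap (iotaA A) Sd' * coeffMap (iotaA A) Sd = 1 := by
      rw [← map_mul, mul_comm, hinv, map_one]
    linear_combination -(HahnSeries.C (iota ((1 + et) ^ 3 / ((1 - et) * (1 + et + et ^ 2)))) *
      HahnSeries.C (iota cd) * coeffMap (iotaA A) Sy) * hone

end Reduction

theorem qCoeff_eq_coeff_expansion {N : ℕ} [NeZero N] {G : ℍ → ℂ} (h1 : G ∈ HolInfty 1)
    (hN : G ∈ HolInfty N) (hb : IsBoundedAtImInfty G) (n : ℕ) :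
    qCoeff G n = (expansion N ⟨G, hN⟩).coeff ((N : ℤ) * n) := by
  show _ = (expansionFun N G).coeff _
  have h := FLTA.Bridge.expansionFun_mul_period 1 N h1
  rw [one_mul] at h
  rw [h, ModularCurve.qExpand_coeff_mul, FLTA.Bridge.expansionFun_of_bounded 1 h1 hb,
    HahnSeries.ofPowerSeries_apply_coeff, qCoeff, Nat.cast_one]

theorem vecAct_double (v : Fin 2 → ℤ) (g : SL(2, ℤ)) : vecAct (2 • v) g = 2 • vecAct v g := by
  simp only [vecAct, Matrix.smul_vecMul]

theorem vecEq_double {N : ℕ} {v w : Fin 2 → ℤ} (h : ∀ i, (N : ℤ) ∣ v i - w i) :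
    VecEq N (2 • v) (2 • w) :=
  Or.inl fun i => by
    simpa [mul_sub] using (h i).mul_left 2

/-- For a prime `ℓ ≥ 5` and a place over `ℓ`: a form of weight one on `Γ₁(ℓ)`, congruent to `1`,
on which `Γ₀(ℓ)` acts modulo the place by the inverse of the lower right entry. -/
theorem exists_weightOne_congr_one {ℓ : ℕ} (hℓ : ℓ.Prime) (h5 : 5 ≤ ℓ)
    {A : ValuationSubring Qb} (hA : A.LiesOverPrime ℓ) :
    ∃ E : ModularForm (Gamma1 ℓ) 1, ∀ g ∈ Gamma0 ℓ, ∀ n : ℕ,
      ∃ a : A, iota (a : Qb) = qCoeff ((⇑E) ∣[(1 : ℤ)] g) n ∧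
        IsLocalRing.residue A a * ((g.1 1 1 : ℤ) : IsLocalRing.ResidueField A) =
          if n = 0 then 1 else 0 := by
  haveI := Fact.mk hℓ
  haveI : NeZero ℓ := ⟨hℓ.ne_zero⟩
  haveI := Galois.charP_residueField hℓ hA
  set v : Fin 2 → ℤ := ![0, 1] with hvdef
  have hv : VecNondeg ℓ v := fun h => by
    have := h 1
    simp only [hvdef, Matrix.cons_val_one, Matrix.cons_val_fin_one] at this
    exact absurd (Int.le_of_dvd one_pos this) (by omega)
  set z : Qb := (zr (1 : ZMod ℓ) : Qb) with hz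
  set κ : Qb := (1 - z) * (1 + z + z ^ 2) / (1 + z) ^ 3 with hκ
  have hmem : ∀ u : Fin 2 → ℤ, VecNondeg ℓ u → torU ℓ u (2 • u) ∈ HolInfty ℓ := fun u hu =>
    (torU_holInfty hu (two_nsmul_nondeg h5 hu) (not_vecEq_double h5 hu)).2
  have hslash : ∀ g : SL(2, ℤ), (iota κ • torU ℓ v (2 • v)) ∣[(1 : ℤ)] g =
      iota κ • torU ℓ (vecAct v g) (2 • vecAct v g) := fun g => by
    rw [ModularForm.SL_smul_slash, torU_slash, vecAct_double]
  let E : ModularForm (Gamma1 ℓ) 1 :=
    { toFun := iota κ • torU ℓ v (2 • v)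
      slash_action_eq' := by
        rintro γ ⟨g, hg, rfl⟩
        have h := hslash g
        rw [ModularForm.SL_slash] at h
        refine h.trans (congrArg (iota κ • ·) (torU_congr ?_ (vecEq_double ?_)))
        all_goals
          intro i
          rw [SetLike.mem_coe, Gamma1_mem] at hg
          refine (ZMod.intCast_zmod_eq_zero_iff_dvd _ _).mp ?_
          fin_cases i <;>
            simp [hvdef, vecAct, Matrix.vecMul, dotProduct, Fin.sum_univ_two, hg.2.2, hg.2.1]
      holo' := FLTA.Bridge.mem_hol_iff.mp (FLTA.Bridge.Hol.smul_mem (hmem v hv).1 _)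
      bdd_at_cusps' := fun {c} hc => by
        rw [Subgroup.IsArithmetic.isCusp_iff_isCusp_SL2Z] at hc
        rw [OnePoint.isBoundedAt_iff_forall_SL2Z hc]
        intro g _
        show IsBoundedAtImInfty ((iota κ • torU ℓ v (2 • v)) ∣[(1 : ℤ)] g)
        rw [hslash g]
        exact (torU_double_isBounded h5 (hv.act g)).const_mul_left (iota κ) }
  refine ⟨E, fun g hg n => ?_⟩
  rw [Gamma0_mem] at hg
  set d : ℤ := g 1 1 with hddef
  have hd : (d : ZMod ℓ) ≠ 0 := by
    intro hd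
    have hdet := congrArg (Int.cast : ℤ → ZMod ℓ) g.2
    rw [Matrix.det_fin_two] at hdet
    simp [hd, hg, hddef ▸ hd] at hdet
  set u : Fin 2 → ℤ := ![0, d] with hudef
  have hu : VecNondeg ℓ u := fun h => hd ((ZMod.intCast_zmod_eq_zero_iff_dvd _ _).mpr
    (by simpa [hudef] using h 1))
  have hvu : ∀ i, (ℓ : ℤ) ∣ vecAct v g i - u i := fun i => by
    refine (ZMod.intCast_zmod_eq_zero_iff_dvd _ _).mp ?_
    fin_cases i <;> simp [hvdef, hudef, hddef, vecAct, Matrix.vecMul, dotProduct,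
      Fin.sum_univ_two, hg]
  have hEg : (⇑E) ∣[(1 : ℤ)] g = iota κ • torU ℓ u (2 • u) := by
    show (iota κ • torU ℓ v (2 • v)) ∣[(1 : ℤ)] g = _
    rw [hslash g, torU_congr hvu (vecEq_double hvu)]
  have hUN := hmem u hu
  obtain ⟨S, hS, hSexp⟩ := exists_expansion_reduces h5 hA hd hUN
  have hper : Function.Periodic (torU ℓ u (2 • u) ∘ ofComplex) ((1 : ℕ) : ℂ) := by
    haveI : NeZero 1 := ⟨one_ne_zero⟩
    refine periodic_of_smul (N := 1) (fun τ => ?_)
    have hT := congrFun (torU_slash (N := ℓ) (v := u) (w := 2 • u) (ModularGroup.T ^ 1)) τ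
    have e1 : vecAct u (ModularGroup.T ^ 1) = u := by
      funext i
      fin_cases i <;> simp [hudef, vecAct, Matrix.vecMul, dotProduct, Fin.sum_univ_two,
        ModularGroup.coe_T]
    rw [vecAct_double, e1, ModularForm.SL_slash_apply] at hT
    have hden : denom ((ModularGroup.T ^ 1 : SL(2, ℤ)) : GL (Fin 2) ℝ) τ = 1 := by
      rw [ModularGroup.denom_apply]; simp [ModularGroup.coe_T]
    rwa [hden, one_zpow, mul_one] at hT
  have hU1 : torU ℓ u (2 • u) ∈ HolInfty 1 := ⟨hUN.1, hper, hUN.2.2⟩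
  -- the constant
  set et : Qb := (zr (d : ZMod ℓ) : Qb) with het
  set zA : A := zrA A (1 : ZMod ℓ) with hzA
  set etA : A := zrA A (d : ZMod ℓ) with hetA
  set e : ℕ := (d : ZMod ℓ).val with he
  have hr1 : IsLocalRing.residue A zA = 1 := residue_zr hA _
  have hr2 : IsLocalRing.residue A etA = 1 := residue_zr hA _
  have hke : ((e : ℕ) : IsLocalRing.ResidueField A) = (d : IsLocalRing.ResidueField A) := by
    rw [← Int.cast_natCast, CharP.intCast_eq_intCast (IsLocalRing.ResidueField A) ℓ]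
    refine (ZMod.intCast_eq_intCast_iff _ _ _).mp ?_
    rw [Int.cast_natCast, he, ZMod.natCast_zmod_val]
  set Num : A := (1 + zA + zA ^ 2) * (1 + etA) ^ 3 with hNum
  set Den : A := (1 + zA) ^ 3 * (∑ i ∈ Finset.range e, zA ^ i) * (1 + etA + etA ^ 2) with hDen
  have hresN : IsLocalRing.residue A Num = 24 := by
    simp only [hNum, map_mul, map_add, map_pow, map_one, hr1, hr2]; ring
  have hresD : IsLocalRing.residue A Den = 24 * (d : IsLocalRing.ResidueField A) := by
    simp only [hDen, map_mul, map_add, map_pow, map_one, map_sum, hr1, hr2, one_pow,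
      Finset.sum_const, Finset.card_range, nsmul_eq_mul, mul_one, hke]
    ring
  have k2 : (2 : IsLocalRing.ResidueField A) ≠ 0 := by
    exact_mod_cast residue_natCast_ne_zero hA (n := 2) (by norm_num) (by omega : 2 < ℓ)
  have k3 : (3 : IsLocalRing.ResidueField A) ≠ 0 := by
    exact_mod_cast residue_natCast_ne_zero hA (n := 3) (by norm_num) (by omega : 3 < ℓ)
  have k24 : (24 : IsLocalRing.ResidueField A) ≠ 0 := by
    rw [show (24 : IsLocalRing.ResidueField A) = 2 ^ 3 * 3 by norm_num]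
    exact mul_ne_zero (pow_ne_zero _ k2) k3
  have kd : (d : IsLocalRing.ResidueField A) ≠ 0 := by
    rw [← hke]
    exact residue_natCast_ne_zero hA (fun h => hd ((ZMod.val_eq_zero _).mp h)) (ZMod.val_lt _)
  have hDu : IsUnit Den := (IsLocalRing.residue_ne_zero_iff_isUnit Den).mp
    (by rw [hresD]; exact mul_ne_zero k24 kd)
  obtain ⟨Dinv, hDinv⟩ := hDu.exists_right_inv
  set x : A := Num * Dinv with hx
  have hxres : IsLocalRing.residue A x * (d : IsLocalRing.ResidueField A) = 1 := by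
    have h1 := congrArg (IsLocalRing.residue A) hDinv
    rw [map_mul, hresD, map_one] at h1
    rw [hx, map_mul, hresN]
    linear_combination h1
  have hxval : κ * ((1 + et) ^ 3 / ((1 - et) * (1 + et + et ^ 2))) = (x : Qb) := by
    have hone : (zr (1 : ZMod ℓ)) = zInt ℓ := by
      haveI : Fact (1 < ℓ) := ⟨hℓ.one_lt⟩
      rw [zr, zpowMod, ZMod.val_one, pow_one]
    have hgeom : (1 - z) * (∑ i ∈ Finset.range e, z ^ i) = 1 - et := by
      rw [mul_neg_geom_sum, hz, hone, het, zr, zpowMod]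
      push_cast
      rfl
    have hD := congrArg Subtype.val hDinv
    simp only [hDen] at hD
    push_cast at hD
    rw [hzA, hetA, coe_zrA, coe_zrA, ← hz, ← het] at hD
    have h1et : (1 : Qb) - et ≠ 0 := one_sub_zr_ne hd
    have hq : (1 : Qb) + et + et ^ 2 ≠ 0 := right_ne_zero_of_mul (left_ne_zero_of_mul_eq_one hD)
    have hzp : (1 : Qb) + z ≠ 0 := fun h => by simp [h] at hD
    simp only [hx, hNum]
    push_cast
    rw [hzA, hetA, coe_zrA, coe_zrA, ← hz, ← het, hκ, div_mul_div_comm,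
      div_eq_iff (mul_ne_zero (pow_ne_zero 3 hzp) (mul_ne_zero h1et hq))]
    linear_combination -((1 + z + z ^ 2) * (1 + et) ^ 3 * (1 - z)) * hD +
      ((1 + z + z ^ 2) * (1 + et) ^ 3 * (Dinv : Qb) * (1 + z) ^ 3 * (1 + et + et ^ 2)) * hgeom
  refine ⟨x * S.coeff ((ℓ : ℤ) * n), ?_, ?_⟩
  · rw [hEg, qCoeff_eq_coeff_expansion (N := ℓ) (Subalgebra.smul_mem _ hU1 _)
      (Subalgebra.smul_mem _ hUN _) (by
        have hb := torU_double_isBounded h5 hu
        exact hb.const_mul_left (iota κ))]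
    have hsm : expansion ℓ ⟨iota κ • torU ℓ u (2 • u), Subalgebra.smul_mem _ hUN _⟩ =
        HahnSeries.C (iota κ) * expansion ℓ ⟨_, hUN⟩ := by
      rw [show (⟨iota κ • torU ℓ u (2 • u), Subalgebra.smul_mem _ hUN _⟩ : HolInfty ℓ) =
        algebraMap ℂ (HolInfty ℓ) (iota κ) * ⟨_, hUN⟩ from Subtype.ext (Algebra.smul_def _ _),
        map_mul, AlgHom.commutes, ModularCurve.algebraMap_laurentSeries_eq_single]
      rfl
    rw [hsm, hSexp, ← mul_assoc, ← map_mul HahnSeries.C, ← map_mul iota, coeff_C_mul, hxval,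
      ModularCurve.coeffMap_coeff, iotaA_apply, ← map_mul]
    rfl
  · have hS' := congrArg (fun T : LaurentSeries (IsLocalRing.ResidueField A) =>
      T.coeff ((ℓ : ℤ) * n)) hS
    simp only [ModularCurve.coeffMap_coeff] at hS'
    rw [map_mul, hS', HahnSeries.coeff_one]
    rcases eq_or_ne n 0 with rfl | hn
    · simp [hxres]
    · simp [hn, hℓ.ne_zero]

end FLTA.DeligneSerre
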