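import Fermat.Agent.DeligneSerre.Level.BaseGalois

/-!
# The base curve of level `M = 2` or `3` and the structure of `Fn N`

* `BaseCusps`, `BaseZero`, `BaseFibre`, `BaseInvariant`: the curve `X(M)`, parameter `baseZ M`.
* `BaseSheets`: the sheets of `X(N) → X(M)` and the separability element.
* `BaseStructure`: consequences for `Fn N`.
* `BaseGalois`: Galois conjugation.
-/
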