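import Fermat.Agent.DeligneSerre.Level.Defs
import Fermat.Prelude.Def_ModularCurve_LaurentCoeff

/-!
# Algebra of expansions at all cusps

* `PerFn N`: functions all of whose translates by `SL(2, ℤ)` are in `HolInfty N`;
  `cexpHom g : PerFn N →ₐ[ℂ] LaurentSeries ℂ`.
* `intSeries A`, `algSeries`: Laurent series with `A`-integral, resp. algebraic, coefficients.
* `IntFn A N`, `AlgFn N`: the subrings of `PerFn N` they cut out; `redHom A N g` reduces.
-/

set_option autoImplicit false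

noncomputable section

open scoped MatrixGroups Topology
open UpperHalfPlane hiding I
open CongruenceSubgroup Function

namespace FLTA.DeligneSerre

open FLTA.Bridge (Hol GrowthInfty HolInfty expansion expansionFun)
open ModularCurve (coeffMap qExpand)

local notation "Qb" => AlgebraicClosure ℚ

theorem comp_smul_mem_hol' {F : ℍ → ℂ} (hF : F ∈ Hol) (g : SL(2, ℤ)) :
    (fun τ : ℍ => F (g • τ)) ∈ Hol := by
  exact FLTA.Bridge.comp_smul_mem_hol hF
    (Matrix.SpecialLinearGroup.toGLPos (Matrix.SpecialLinearGroup.map (Int.castRingHom ℝ) g))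

/-! ## Periodic functions -/

/-- Functions all of whose translates are holomorphic, `N`-periodic and meromorphic at `i∞`. -/
def PerFn (N : ℕ) [NeZero N] : Subalgebra ℂ (ℍ → ℂ) where
  carrier := {F | ∀ g : SL(2, ℤ), (fun τ : ℍ => F (g • τ)) ∈ HolInfty N}
  mul_mem' ha hb g := mul_mem (ha g) (hb g)
  add_mem' ha hb g := add_mem (ha g) (hb g)
  algebraMap_mem' c g := Subalgebra.algebraMap_mem _ c

variable {N : ℕ} [NeZero N] {F G : ℍ → ℂ}

theorem mem_perFn_iff :
    F ∈ PerFn N ↔ ∀ g : SL(2, ℤ), (fun τ : ℍ => F (g • τ)) ∈ HolInfty N := Iff.rfl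

theorem PerFn.comp (hF : F ∈ PerFn N) (h : SL(2, ℤ)) : (fun τ : ℍ => F (h • τ)) ∈ PerFn N :=
  fun g => by simpa only [← mul_smul] using hF (h * g)

theorem PerFn.mem_hol (hF : F ∈ PerFn N) : F ∈ Hol := by simpa using (hF 1).1

/-- Invariance under a translation gives periodicity. -/
theorem periodic_of_smul {H : ℍ → ℂ} (h : ∀ τ : ℍ, H ((ModularGroup.T ^ N) • τ) = H τ) :
    Periodic (H ∘ ofComplex) (N : ℂ) := by
  intro w
  by_cases hw : 0 < w.im
  · have hw' : 0 < (w + (N : ℂ)).im := by simpa using hw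
    simp only [comp_apply, ofComplex_apply_of_im_pos hw', ofComplex_apply_of_im_pos hw]
    have h2 := h ⟨w, hw⟩
    rw [← zpow_natCast, UpperHalfPlane.modular_T_zpow_smul] at h2
    refine Eq.trans (congrArg H (UpperHalfPlane.ext ?_)) h2
    simp [add_comm]
  · have hw' : (w + (N : ℂ)).im ≤ 0 := by simpa using not_lt.mp hw
    simp only [comp_apply, ofComplex_apply_of_im_nonpos hw',
      ofComplex_apply_of_im_nonpos (not_lt.mp hw)]

omit [NeZero N] in
theorem T_pow_mem_Gamma (N : ℕ) : ModularGroup.T ^ N ∈ Gamma N := by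
  have h : ((ModularGroup.T ^ N : SL(2, ℤ)) : Matrix (Fin 2) (Fin 2) ℤ) = !![1, (N : ℤ); 0, 1] := by
    rw [← zpow_natCast, ModularGroup.coe_T_zpow]
  rw [Gamma_mem, h]
  simp

theorem Tw.mem_perFn {δ : Gamma N →* ℂ} (hδ : ParTriv N δ) (hF : F ∈ Tw N δ) : F ∈ PerFn N := by
  intro g
  refine ⟨comp_smul_mem_hol' hF.1 g, periodic_of_smul fun τ => ?_, hF.2.2 g⟩
  have hm : g * ModularGroup.T ^ N * g⁻¹ ∈ Gamma N :=
    (Gamma_normal N).conj_mem _ (T_pow_mem_Gamma N) g
  have h := hF.2.1 ⟨_, hm⟩ (g • τ)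
  rw [hδ ⟨_, hm⟩ g N (by rw [zpow_natCast]), one_mul] at h
  simpa [← mul_smul, mul_assoc] using h

theorem parTriv_one (N : ℕ) : ParTriv N 1 := fun _ _ _ _ => rfl

theorem fn_le_perFn : Fn N ≤ PerFn N := fun _ hF =>
  Tw.mem_perFn (parTriv_one N) (mem_tw_one_iff.2 hF)

/-- `F ↦ F ∘ g`, into `HolInfty N`. -/
def transHom (g : SL(2, ℤ)) : PerFn N →ₐ[ℂ] HolInfty N where
  toFun F := ⟨fun τ => (F : ℍ → ℂ) (g • τ), F.2 g⟩
  map_one' := rfl
  map_mul' _ _ := rfl
  map_zero' := rfl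
  map_add' _ _ := rfl
  commutes' _ := rfl

/-- The expansion at `g ∞`, as an algebra map. -/
def cexpHom (g : SL(2, ℤ)) : PerFn N →ₐ[ℂ] LaurentSeries ℂ := (expansion N).comp (transHom g)

theorem cexp_of_mem {g : SL(2, ℤ)} (h : (fun τ : ℍ => F (g • τ)) ∈ HolInfty N) :
    cexp N F g = expansion N ⟨_, h⟩ := by
  rw [cexp, dif_pos (NeZero.ne N), dif_pos h]

theorem cexp_eq (hF : F ∈ PerFn N) (g : SL(2, ℤ)) : cexp N F g = cexpHom g ⟨F, hF⟩ :=
  cexp_of_mem (hF g)

theorem cexp_add (hF : F ∈ PerFn N) (hG : G ∈ PerFn N) (g : SL(2, ℤ)) :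
    cexp N (F + G) g = cexp N F g + cexp N G g := by
  rw [cexp_eq hF, cexp_eq hG, cexp_eq (add_mem hF hG), ← map_add]
  rfl

theorem cexp_mul (hF : F ∈ PerFn N) (hG : G ∈ PerFn N) (g : SL(2, ℤ)) :
    cexp N (F * G) g = cexp N F g * cexp N G g := by
  rw [cexp_eq hF, cexp_eq hG, cexp_eq (mul_mem hF hG), ← map_mul]
  rfl

theorem cexp_sub (hF : F ∈ PerFn N) (hG : G ∈ PerFn N) (g : SL(2, ℤ)) :
    cexp N (F - G) g = cexp N F g - cexp N G g := by
  rw [cexp_eq hF, cexp_eq hG, cexp_eq (sub_mem hF hG), ← map_sub]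
  rfl

theorem cexp_pow (hF : F ∈ PerFn N) (k : ℕ) (g : SL(2, ℤ)) :
    cexp N (F ^ k) g = cexp N F g ^ k := by
  rw [cexp_eq hF, cexp_eq (pow_mem hF k), ← map_pow]
  rfl

theorem cexp_smul (hF : F ∈ PerFn N) (c : ℂ) (g : SL(2, ℤ)) :
    cexp N (c • F) g = c • cexp N F g := by
  rw [cexp_eq hF, cexp_eq (Subalgebra.smul_mem _ hF c),
    show (⟨c • F, Subalgebra.smul_mem _ hF c⟩ : PerFn N) =
      algebraMap ℂ (PerFn N) c * ⟨F, hF⟩ from Subtype.ext (Algebra.smul_def c F),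
    map_mul, AlgHom.commutes, ModularCurve.algebraMap_laurentSeries_eq_single]
  ext k
  simp [HahnSeries.coeff_single_mul]

theorem cexp_zero (g : SL(2, ℤ)) : cexp N (0 : ℍ → ℂ) g = 0 := by
  rw [cexp_eq (zero_mem _), ← map_zero (cexpHom (N := N) g)]
  rfl

theorem cexp_one (g : SL(2, ℤ)) : cexp N (1 : ℍ → ℂ) g = 1 := by
  rw [cexp_eq (one_mem _), ← map_one (cexpHom (N := N) g)]
  rfl

omit [NeZero N] in
/-- `cexp N F g` only depends on `F ∘ g`. -/
theorem cexp_congr {g g' : SL(2, ℤ)}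
    (h : (fun τ : ℍ => F (g • τ)) = fun τ : ℍ => G (g' • τ)) : cexp N F g = cexp N G g' := by
  unfold cexp
  split_ifs with hN h1 h2 h2
  · exact congrArg _ (Subtype.ext h)
  · exact absurd (h ▸ h1) h2
  · exact absurd (h ▸ h2) h1
  all_goals rfl

omit [NeZero N] in
theorem cexp_comp (F : ℍ → ℂ) (h g : SL(2, ℤ)) :
    cexp N (fun τ : ℍ => F (h • τ)) g = cexp N F (h * g) :=
  cexp_congr (funext fun τ => by simp [mul_smul])

theorem cexpHom_injective (g : SL(2, ℤ)) : Injective (cexpHom (N := N) g) := by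
  intro a b h
  have h2 := congrArg Subtype.val (FLTA.Bridge.expansion_injective N h)
  refine Subtype.ext (funext fun τ => ?_)
  simpa [transHom, ← mul_smul] using congrFun h2 (g⁻¹ • τ)

theorem cexp_eq_zero_iff (hF : F ∈ PerFn N) (g : SL(2, ℤ)) : cexp N F g = 0 ↔ F = 0 := by
  rw [cexp_eq hF, map_eq_zero_iff _ (cexpHom_injective g)]
  exact ⟨fun h => congrArg Subtype.val h, fun h => Subtype.ext h⟩

theorem eq_of_cexp_eq (hF : F ∈ PerFn N) (hG : G ∈ PerFn N) {g : SL(2, ℤ)}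
    (h : cexp N F g = cexp N G g) : F = G := by
  rw [cexp_eq hF, cexp_eq hG] at h
  exact congrArg Subtype.val (cexpHom_injective g h)

theorem cexp_gamma_mul {δ : Gamma N →* ℂ} (hδ : ParTriv N δ) (hF : F ∈ Tw N δ) (γ : Gamma N)
    (g : SL(2, ℤ)) : cexp N F ((γ : SL(2, ℤ)) * g) = δ γ • cexp N F g := by
  have hm := Tw.mem_perFn hδ hF
  rw [← cexp_comp F (γ : SL(2, ℤ)) g,
    show (fun τ : ℍ => F ((γ : SL(2, ℤ)) • τ)) = δ γ • F from funext fun τ => hF.2.1 γ τ,
    cexp_smul hm]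

theorem cexp_gamma_mul_fn (hF : F ∈ Fn N) {γ : SL(2, ℤ)} (hγ : γ ∈ Gamma N) (g : SL(2, ℤ)) :
    cexp N F (γ * g) = cexp N F g := by
  simpa using cexp_gamma_mul (parTriv_one N) (mem_tw_one_iff.2 hF) ⟨γ, hγ⟩ g

theorem coeff_cexp_mul_T_zpow (hF : F ∈ PerFn N) (g : SL(2, ℤ)) (k : ℤ) (m : ℤ) :
    (cexp N F (g * ModularGroup.T ^ k)).coeff m =
      Complex.exp (2 * Real.pi * Complex.I * m * k / N) * (cexp N F g).coeff m := by
  rw [cexp_eq hF, cexp_eq hF]
  have h := FLTA.Bridge.coeff_expansion_translate N (hF g) (k : ℝ) m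
  rw [show ((k : ℝ) : ℂ) = (k : ℂ) by simp] at h
  show (expansionFun N fun τ : ℍ => F ((g * ModularGroup.T ^ k) • τ)).coeff m = _ *
    (expansionFun N fun τ : ℍ => F (g • τ)).coeff m
  rw [← h]
  congr 2
  funext τ
  rw [mul_smul, UpperHalfPlane.modular_T_zpow_smul]

theorem isBoundedAtImInfty_iff_cexp_order {g : SL(2, ℤ)} (hF : F ∈ PerFn N) :
    IsBoundedAtImInfty (fun τ : ℍ => F (g • τ)) ↔ 0 ≤ (cexp N F g).order := by
  rw [cexp_of_mem (hF g)]
  exact FLTA.Bridge.isBoundedAtImInfty_iff_order N ⟨_, hF g⟩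

theorem PerFn.mul_level {M : ℕ} [NeZero M] (k : ℕ) [NeZero k] (hk : N = M * k)
    (hF : F ∈ PerFn M) : F ∈ PerFn N := fun g => by
  refine ⟨(hF g).1, ?_, (hF g).2.2⟩
  simpa [hk, Nat.cast_mul, mul_comm] using (hF g).2.1.nat_mul k

theorem cexp_mul_level {M : ℕ} [NeZero M] (k : ℕ) [NeZero k] (hk : N = M * k)
    (hF : F ∈ PerFn M) (g : SL(2, ℤ)) : cexp N F g = qExpand ℂ k (cexp M F g) := by
  subst hk
  rw [cexp_of_mem (PerFn.mul_level k rfl hF g), cexp_of_mem (hF g)]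
  exact FLTA.Bridge.expansionFun_mul_period M k (hF g)

/-! ## Coefficient rings -/

/-- The composite `A ⊂ Qb → ℂ`. -/
def iotaA (A : ValuationSubring Qb) : A →+* ℂ := iota.comp A.subtype

theorem iotaA_apply (A : ValuationSubring Qb) (a : A) : iotaA A a = iota (a : Qb) := rfl

theorem iotaA_injective (A : ValuationSubring Qb) : Injective (iotaA A) :=
  iota.injective.comp Subtype.val_injective

/-- Series with coefficients in `iota A`. -/
def intSeries (A : ValuationSubring Qb) : Subring (LaurentSeries ℂ) :=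
  (coeffMap (iotaA A)).range

/-- Series with algebraic coefficients. -/
def algSeries : Subring (LaurentSeries ℂ) := (coeffMap iota).range

theorem mem_range_coeffMap_iff {R S : Type*} [CommRing R] [CommRing S] {f : R →+* S}
    (hf : Injective f) {x : LaurentSeries S} :
    x ∈ (coeffMap f).range ↔ ∀ k, ∃ a, f a = x.coeff k := by
  refine ⟨fun ⟨y, hy⟩ k => ⟨y.coeff k, by rw [← hy]; rfl⟩, fun h => ?_⟩
  choose a ha using h
  have hsub : Function.support a ⊆ x.support := fun k hk hx => hk (hf (by rw [ha k, hx, map_zero]))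
  exact ⟨⟨a, x.isPWO_support.mono hsub⟩, HahnSeries.ext (funext ha)⟩

theorem mem_intSeries_iff {A : ValuationSubring Qb} {S : LaurentSeries ℂ} :
    S ∈ intSeries A ↔ ∀ k, ∃ a : A, iota (a : Qb) = S.coeff k :=
  mem_range_coeffMap_iff (iotaA_injective A)

theorem mem_algSeries_iff {S : LaurentSeries ℂ} :
    S ∈ algSeries ↔ ∀ k, ∃ a : Qb, iota a = S.coeff k :=
  mem_range_coeffMap_iff iota.injective

theorem isIntFn_iff {A : ValuationSubring Qb} :
    IsIntFn A N F ↔ ∀ g, cexp N F g ∈ intSeries A := by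
  simp only [IsIntFn, mem_intSeries_iff]

theorem isAlgFn_iff : IsAlgFn N F ↔ ∀ g, cexp N F g ∈ algSeries := by
  simp only [IsAlgFn, mem_algSeries_iff]

theorem IsIntFn.comp {A : ValuationSubring Qb} (h : IsIntFn A N F) (g : SL(2, ℤ)) :
    IsIntFn A N (fun τ : ℍ => F (g • τ)) := fun g' k => by
  rw [cexp_comp]; exact h _ k

theorem IsAlgFn.comp (h : IsAlgFn N F) (g : SL(2, ℤ)) :
    IsAlgFn N (fun τ : ℍ => F (g • τ)) := fun g' k => by
  rw [cexp_comp]; exact h _ k

theorem redExp_comp (A : ValuationSubring Qb) (F : ℍ → ℂ) (h g : SL(2, ℤ)) :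
    redExp A N (fun τ : ℍ => F (h • τ)) g = redExp A N F (h * g) := by
  rw [redExp, redExp, cexp_comp]

/-- The subring of periodic functions with algebraic expansions. -/
def AlgFn (N : ℕ) [NeZero N] : Subring (ℍ → ℂ) where
  carrier := {F | F ∈ PerFn N ∧ IsAlgFn N F}
  mul_mem' ha hb := ⟨mul_mem ha.1 hb.1, isAlgFn_iff.2 fun g => by
    rw [cexp_mul ha.1 hb.1]; exact mul_mem (isAlgFn_iff.1 ha.2 g) (isAlgFn_iff.1 hb.2 g)⟩
  one_mem' := ⟨one_mem _, isAlgFn_iff.2 fun g => by rw [cexp_one]; exact one_mem _⟩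
  add_mem' ha hb := ⟨add_mem ha.1 hb.1, isAlgFn_iff.2 fun g => by
    rw [cexp_add ha.1 hb.1]; exact add_mem (isAlgFn_iff.1 ha.2 g) (isAlgFn_iff.1 hb.2 g)⟩
  zero_mem' := ⟨zero_mem _, isAlgFn_iff.2 fun g => by rw [cexp_zero]; exact zero_mem _⟩
  neg_mem' {x} ha := ⟨neg_mem ha.1, isAlgFn_iff.2 fun g => by
    rw [cexp_eq (neg_mem ha.1), show (⟨-x, neg_mem ha.1⟩ : PerFn N) = -⟨x, ha.1⟩ from rfl,
      map_neg, ← cexp_eq ha.1]
    exact neg_mem (isAlgFn_iff.1 ha.2 g)⟩

/-- The subring of periodic functions with `A`-integral expansions. -/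
def IntFn (A : ValuationSubring Qb) (N : ℕ) [NeZero N] : Subring (ℍ → ℂ) where
  carrier := {F | F ∈ PerFn N ∧ IsIntFn A N F}
  mul_mem' ha hb := ⟨mul_mem ha.1 hb.1, isIntFn_iff.2 fun g => by
    rw [cexp_mul ha.1 hb.1]; exact mul_mem (isIntFn_iff.1 ha.2 g) (isIntFn_iff.1 hb.2 g)⟩
  one_mem' := ⟨one_mem _, isIntFn_iff.2 fun g => by rw [cexp_one]; exact one_mem _⟩
  add_mem' ha hb := ⟨add_mem ha.1 hb.1, isIntFn_iff.2 fun g => by
    rw [cexp_add ha.1 hb.1]; exact add_mem (isIntFn_iff.1 ha.2 g) (isIntFn_iff.1 hb.2 g)⟩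
  zero_mem' := ⟨zero_mem _, isIntFn_iff.2 fun g => by rw [cexp_zero]; exact zero_mem _⟩
  neg_mem' {x} ha := ⟨neg_mem ha.1, isIntFn_iff.2 fun g => by
    rw [cexp_eq (neg_mem ha.1), show (⟨-x, neg_mem ha.1⟩ : PerFn N) = -⟨x, ha.1⟩ from rfl,
      map_neg, ← cexp_eq ha.1]
    exact neg_mem (isIntFn_iff.1 ha.2 g)⟩

theorem intFn_le_algFn (A : ValuationSubring Qb) : IntFn A N ≤ AlgFn N :=
  fun _ h => ⟨h.1, h.2.isAlgFn⟩

theorem const_mem_algFn (a : Qb) : algebraMap ℂ (ℍ → ℂ) (iota a) ∈ AlgFn N :=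
  ⟨Subalgebra.algebraMap_mem _ _, isAlgFn_iff.2 fun g => by
    rw [cexp_eq (Subalgebra.algebraMap_mem _ _),
      show (⟨algebraMap ℂ (ℍ → ℂ) (iota a), Subalgebra.algebraMap_mem _ _⟩ : PerFn N) =
        algebraMap ℂ (PerFn N) (iota a) from rfl, AlgHom.commutes,
      ModularCurve.algebraMap_laurentSeries_eq_single]
    exact ⟨HahnSeries.single 0 a, ModularCurve.coeffMap_single _ _ _⟩⟩

theorem const_mem_intFn {A : ValuationSubring Qb} (a : A) :
    algebraMap ℂ (ℍ → ℂ) (iota (a : Qb)) ∈ IntFn A N :=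
  ⟨Subalgebra.algebraMap_mem _ _, isIntFn_iff.2 fun g => by
    rw [cexp_eq (Subalgebra.algebraMap_mem _ _),
      show (⟨algebraMap ℂ (ℍ → ℂ) (iota (a : Qb)), Subalgebra.algebraMap_mem _ _⟩ : PerFn N) =
        algebraMap ℂ (PerFn N) (iota (a : Qb)) from rfl, AlgHom.commutes,
      ModularCurve.algebraMap_laurentSeries_eq_single]
    exact ⟨HahnSeries.single 0 a, ModularCurve.coeffMap_single _ _ _⟩⟩

theorem smul_mem_algFn {a : Qb} (hF : F ∈ AlgFn N) : iota a • F ∈ AlgFn N := by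
  have h := mul_mem (const_mem_algFn (N := N) a) hF
  rwa [← Algebra.smul_def] at h

theorem smul_mem_intFn {A : ValuationSubring Qb} (a : A) (hF : F ∈ IntFn A N) :
    iota (a : Qb) • F ∈ IntFn A N := by
  have h := mul_mem (const_mem_intFn (N := N) a) hF
  rwa [← Algebra.smul_def] at h

/-! ## Reduction -/

theorem redExp_eq_of_cexp {A : ValuationSubring Qb} {g : SL(2, ℤ)} {S : LaurentSeries A}
    (h : coeffMap (iotaA A) S = cexp N F g) :
    redExp A N F g = coeffMap (IsLocalRing.residue A) S := by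
  ext k
  show redC A ((cexp N F g).coeff k) = IsLocalRing.residue A (S.coeff k)
  rw [← h, ModularCurve.coeffMap_coeff, iotaA_apply, redC_iota]

/-- The series over `A` of an integral function. -/
def intExp (A : ValuationSubring Qb) (g : SL(2, ℤ)) (F : IntFn A N) : LaurentSeries A :=
  (isIntFn_iff.1 F.2.2 g).choose

theorem coeffMap_intExp (A : ValuationSubring Qb) (g : SL(2, ℤ)) (F : IntFn A N) :
    coeffMap (iotaA A) (intExp A g F) = cexp N (F : ℍ → ℂ) g :=
  (isIntFn_iff.1 F.2.2 g).choose_spec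

theorem coeffMap_injective {R S : Type*} [CommRing R] [CommRing S] {f : R →+* S}
    (hf : Injective f) : Injective (coeffMap f) := fun x y h =>
  HahnSeries.ext (funext fun k => hf (congrArg (fun z : LaurentSeries S => z.coeff k) h))

/-- The series over `A`, as a ring map. -/
def intExpHom (A : ValuationSubring Qb) (g : SL(2, ℤ)) : IntFn A N →+* LaurentSeries A where
  toFun := intExp A g
  map_one' := coeffMap_injective (iotaA_injective A) (by
    rw [coeffMap_intExp, map_one]; exact cexp_one g)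
  map_mul' a b := coeffMap_injective (iotaA_injective A) (by
    rw [coeffMap_intExp, map_mul, coeffMap_intExp, coeffMap_intExp]
    exact cexp_mul a.2.1 b.2.1 g)
  map_zero' := coeffMap_injective (iotaA_injective A) (by
    rw [coeffMap_intExp, map_zero]; exact cexp_zero g)
  map_add' a b := coeffMap_injective (iotaA_injective A) (by
    rw [coeffMap_intExp, map_add, coeffMap_intExp, coeffMap_intExp]
    exact cexp_add a.2.1 b.2.1 g)

/-- Reduction of the expansion at `g ∞`, as a ring map. -/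
def redHom (A : ValuationSubring Qb) (g : SL(2, ℤ)) :
    IntFn A N →+* LaurentSeries (IsLocalRing.ResidueField A) :=
  (coeffMap (IsLocalRing.residue A)).comp (intExpHom A g)

theorem redExp_eq_redHom (A : ValuationSubring Qb) (g : SL(2, ℤ)) (F : IntFn A N) :
    redExp A N (F : ℍ → ℂ) g = redHom A g F :=
  redExp_eq_of_cexp (coeffMap_intExp A g F)

theorem redExp_mul {A : ValuationSubring Qb} (hF : F ∈ IntFn A N) (hG : G ∈ IntFn A N)
    (g : SL(2, ℤ)) : redExp A N (F * G) g = redExp A N F g * redExp A N G g := by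
  have h := redExp_eq_redHom A g ((⟨F, hF⟩ : IntFn A N) * ⟨G, hG⟩)
  rw [map_mul, ← redExp_eq_redHom, ← redExp_eq_redHom] at h
  exact h

theorem redExp_pow {A : ValuationSubring Qb} (hF : F ∈ IntFn A N) (k : ℕ) (g : SL(2, ℤ)) :
    redExp A N (F ^ k) g = redExp A N F g ^ k := by
  have h := redExp_eq_redHom A g ((⟨F, hF⟩ : IntFn A N) ^ k)
  rw [map_pow, ← redExp_eq_redHom] at h
  exact h

theorem redExp_add {A : ValuationSubring Qb} (hF : F ∈ IntFn A N) (hG : G ∈ IntFn A N)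
    (g : SL(2, ℤ)) : redExp A N (F + G) g = redExp A N F g + redExp A N G g := by
  have h := redExp_eq_redHom A g ((⟨F, hF⟩ : IntFn A N) + ⟨G, hG⟩)
  rw [map_add, ← redExp_eq_redHom, ← redExp_eq_redHom] at h
  exact h

theorem redExp_sub {A : ValuationSubring Qb} (hF : F ∈ IntFn A N) (hG : G ∈ IntFn A N)
    (g : SL(2, ℤ)) : redExp A N (F - G) g = redExp A N F g - redExp A N G g := by
  have h := redExp_eq_redHom A g ((⟨F, hF⟩ : IntFn A N) - ⟨G, hG⟩)
  rw [map_sub, ← redExp_eq_redHom, ← redExp_eq_redHom] at h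
  exact h

end FLTA.DeligneSerre
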