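import Fermat.Agent.DeligneSerre.Level.Defs
import Mathlib.Analysis.SpecialFunctions.Elliptic.Weierstrass

/-!
# Weierstrass values at `N`-division points: definitions
-/

set_option autoImplicit false

noncomputable section

open scoped MatrixGroups Real
open UpperHalfPlane

namespace FLTA.DeligneSerre

/-- The periods `(1, τ)`. -/
def periodsTau (τ : ℍ) : PeriodPair where
  ω₁ := 1
  ω₂ := (τ : ℂ)
  indep := by
    rw [LinearIndependent.pair_iff]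
    intro s t h
    have him := congrArg Complex.im h
    simp [τ.im_pos.ne'] at him
    subst him
    simpa using h

/-- `℘(τ; (v₀ τ + v₁) / N) / (2 π i) ^ 2`. -/
def torX (N : ℕ) (v : Fin 2 → ℤ) (τ : ℍ) : ℂ :=
  (periodsTau τ).weierstrassP (((v 0 : ℂ) * τ + v 1) / N) / (2 * π * Complex.I) ^ 2

/-- `℘'(τ; (v₀ τ + v₁) / N) / (2 π i) ^ 3`. -/
def torY (N : ℕ) (v : Fin 2 → ℤ) (τ : ℍ) : ℂ :=
  (periodsTau τ).derivWeierstrassP (((v 0 : ℂ) * τ + v 1) / N) / (2 * π * Complex.I) ^ 3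

/-- `v` is nonzero modulo `N`. -/
def VecNondeg (N : ℕ) (v : Fin 2 → ℤ) : Prop := ¬ ∀ i, (N : ℤ) ∣ v i

/-- `v ≡ ± w` modulo `N`. -/
def VecEq (N : ℕ) (v w : Fin 2 → ℤ) : Prop :=
  (∀ i, (N : ℤ) ∣ v i - w i) ∨ (∀ i, (N : ℤ) ∣ v i + w i)

/-- Row vector times matrix. -/
def vecAct (v : Fin 2 → ℤ) (g : SL(2, ℤ)) : Fin 2 → ℤ :=
  Matrix.vecMul v (g : Matrix (Fin 2) (Fin 2) ℤ)

/-- `(x_a - x_b) / (x_c - x_d)`. -/
def torRatio (N : ℕ) (a b c d : Fin 2 → ℤ) (τ : ℍ) : ℂ :=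
  (torX N a τ - torX N b τ) / (torX N c τ - torX N d τ)

end FLTA.DeligneSerre
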