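import Fermat.Agent.DeligneSerre.Level.Torsion
import Fermat.Agent.DeligneSerre.Level.Series
import Fermat.Agent.DeligneSerre.Torsion.Compat

/-!
# The parameter `baseZ` of `X(M)`, `M = 2, 3`, at the cusps

`g ∞` and `g' ∞` give the same cusp of `Γ(M)` iff the lower left entry of `g⁻¹ g'` vanishes modulo
`M` (`CuspRel`).  `baseZ` has a simple pole at the cusp of `poleRep` and none at the others;
`cuspZ M r` is the translate of `baseZ` with its pole at the cusp of `r`.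
-/

set_option autoImplicit false

noncomputable section

open scoped MatrixGroups Real
open UpperHalfPlane hiding I
open CongruenceSubgroup

namespace FLTA.DeligneSerre

open FLTA.Bridge (HolInfty expansion expansionFun)

/-- The parameter of `X(M)`, `M = 2, 3`: `(x₁₁ - x₀₁) / (x₁₀ - x₀₁)`. -/
def baseZ (M : ℕ) : ℍ → ℂ := torRatio M ![1, 1] ![0, 1] ![1, 0] ![0, 1]

/-- The same level `M` functions with the roles of the cusps permuted by `g`. -/
def baseZAt (M : ℕ) (g : SL(2, ℤ)) : ℍ → ℂ := fun τ => baseZ M (g • τ)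

/-- A representative of the cusp where `baseZ` has its pole. -/
def poleRep : SL(2, ℤ) := ⟨!![1, 0; -1, 1], by simp [Matrix.det_fin_two_of]⟩

/-- A representative of the fourth cusp in level `3`. -/
def thirdRep : SL(2, ℤ) := ⟨!![1, 0; 1, 1], by simp [Matrix.det_fin_two_of]⟩

/-- The translate of `baseZ` with its pole at the cusp of `r`. -/
def cuspZ (M : ℕ) (r : SL(2, ℤ)) : ℍ → ℂ := baseZAt M (poleRep * r⁻¹)

/-- `g ∞` and `g' ∞` are the same cusp of `Γ(M)` (for `M ≤ 3`). -/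
def CuspRel (M : ℕ) (g g' : SL(2, ℤ)) : Prop := ((g⁻¹ * g').1 1 0 : ZMod M) = 0

/-- The cusps where `baseZ` is finite. -/
def cuspReps (M : ℕ) : Finset SL(2, ℤ) :=
  letI := Classical.decEq SL(2, ℤ)
  if M = 2 then {1, ModularGroup.S} else {1, ModularGroup.S, thirdRep}

theorem cuspZ_poleRep (M : ℕ) : cuspZ M poleRep = baseZ M := by
  funext τ
  simp [cuspZ, baseZAt]

/-- The order at infinity of `x_a - x_b`, in terms of `a 0`, `b 0`. -/
def epsOrd {M : ℕ} (x y : ZMod M) : ℤ := if x = 0 ∨ y = 0 then 0 else 1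

/-! ## Combinatorics modulo `M` -/

section Combinatorics

variable {M : ℕ}

theorem cast_mul_apply_one_zero (g g' : SL(2, ℤ)) :
    (((g⁻¹ * g').1 1 0 : ℤ) : ZMod M) =
      -(g.1 1 0 : ZMod M) * g'.1 0 0 + (g.1 0 0 : ZMod M) * g'.1 1 0 := by
  rw [Matrix.SpecialLinearGroup.coe_mul, Matrix.SpecialLinearGroup.coe_inv,
    Matrix.adjugate_fin_two]
  simp [Matrix.mul_apply, Fin.sum_univ_two]

theorem cast_det_eq_one (g : SL(2, ℤ)) :
    (g.1 0 0 : ZMod M) * g.1 1 1 - (g.1 0 1 : ZMod M) * g.1 1 0 = 1 := by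
  have h := g.2
  rw [Matrix.det_fin_two] at h
  exact_mod_cast congrArg (Int.cast : ℤ → ZMod M) h

theorem cuspRel_iff {g g' : SL(2, ℤ)} :
    CuspRel M g g' ↔
      -(g.1 1 0 : ZMod M) * g'.1 0 0 + (g.1 0 0 : ZMod M) * g'.1 1 0 = 0 := by
  rw [CuspRel, cast_mul_apply_one_zero]

theorem cuspRel_symm {g g' : SL(2, ℤ)} : CuspRel M g g' ↔ CuspRel M g' g := by
  rw [cuspRel_iff, cuspRel_iff]
  constructor <;> intro h <;> linear_combination -h

theorem cuspRel_one {g : SL(2, ℤ)} : CuspRel M 1 g ↔ (g.1 1 0 : ZMod M) = 0 := by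
  simp [cuspRel_iff]

theorem cuspRel_self (g : SL(2, ℤ)) : CuspRel M g g := by
  simp [CuspRel]

theorem cuspRel_poleRep {g : SL(2, ℤ)} :
    CuspRel M poleRep g ↔ (g.1 0 0 : ZMod M) + g.1 1 0 = 0 := by
  simp [cuspRel_iff, poleRep]

theorem cuspRel_S {g : SL(2, ℤ)} : CuspRel M ModularGroup.S g ↔ (g.1 0 0 : ZMod M) = 0 := by
  simp [cuspRel_iff, ModularGroup.coe_S]

theorem cuspRel_thirdRep {g : SL(2, ℤ)} :
    CuspRel M thirdRep g ↔ (g.1 1 0 : ZMod M) = g.1 0 0 := by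
  rw [cuspRel_iff]
  simp [thirdRep]
  constructor <;> intro h <;> linear_combination h

variable (hM : M = 2 ∨ M = 3)
include hM

theorem exists_cuspRep (g : SL(2, ℤ)) :
    CuspRel M poleRep g ∨ ∃ r ∈ cuspReps M, CuspRel M r g := by
  have hdet := cast_det_eq_one (M := M) g
  rw [cuspRel_poleRep]
  rcases hM with rfl | rfl
  · have h : ∀ a b c d : ZMod 2, a * d - b * c = 1 → a + c = 0 ∨ c = 0 ∨ a = 0 := by decide +kernel
    rcases h _ _ _ _ hdet with h | h | h
    · exact Or.inl h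
    · exact Or.inr ⟨1, by simp [cuspReps], cuspRel_one.2 h⟩
    · exact Or.inr ⟨ModularGroup.S, by simp [cuspReps], cuspRel_S.2 h⟩
  · have h : ∀ a b c d : ZMod 3, a * d - b * c = 1 →
        a + c = 0 ∨ c = 0 ∨ a = 0 ∨ c = a := by decide +kernel
    rcases h _ _ _ _ hdet with h | h | h | h
    · exact Or.inl h
    · exact Or.inr ⟨1, by simp [cuspReps], cuspRel_one.2 h⟩
    · exact Or.inr ⟨ModularGroup.S, by simp [cuspReps], cuspRel_S.2 h⟩
    · exact Or.inr ⟨thirdRep, by simp [cuspReps], cuspRel_thirdRep.2 h⟩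

theorem not_cuspRel_poleRep {r : SL(2, ℤ)} (hr : r ∈ cuspReps M) : ¬ CuspRel M poleRep r := by
  rw [cuspRel_poleRep]
  rcases hM with rfl | rfl
  · simp only [cuspReps, if_pos, Finset.mem_insert, Finset.mem_singleton] at hr
    rcases hr with rfl | rfl <;> simp [ModularGroup.coe_S]
  · simp only [cuspReps, show (3 : ℕ) ≠ 2 by norm_num, if_false, Finset.mem_insert,
      Finset.mem_singleton] at hr
    rcases hr with rfl | rfl | rfl <;> simp [ModularGroup.coe_S, thirdRep] <;> decide +kernel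

theorem not_cuspRel_of_ne {r r' : SL(2, ℤ)} (hr : r ∈ cuspReps M) (hr' : r' ∈ cuspReps M)
    (h : r ≠ r') : ¬ CuspRel M r r' := by
  rw [cuspRel_iff]
  rcases hM with rfl | rfl
  · simp only [cuspReps, if_pos, Finset.mem_insert, Finset.mem_singleton] at hr hr'
    rcases hr with rfl | rfl <;> rcases hr' with rfl | rfl <;>
      first
      | exact absurd rfl h
      | simp [ModularGroup.coe_S]
  · simp only [cuspReps, show (3 : ℕ) ≠ 2 by norm_num, if_false, Finset.mem_insert,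
      Finset.mem_singleton] at hr hr'
    rcases hr with rfl | rfl | rfl <;> rcases hr' with rfl | rfl | rfl <;>
      first
      | exact absurd rfl h
      | simp [ModularGroup.coe_S, thirdRep]

/-- Two translates with the same cusp differ by an element of `± Γ(M)` and a translation. -/
theorem CuspRel.exists_eq_mul {g g' : SL(2, ℤ)} (h : CuspRel M g g') :
    ∃ k : ℤ, g' * (g * ModularGroup.T ^ k)⁻¹ ∈ Gamma M ∨
      -(g' * (g * ModularGroup.T ^ k)⁻¹) ∈ Gamma M := by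
  set x : SL(2, ℤ) := g⁻¹ * g' with hx
  have hc : (x.1 1 0 : ZMod M) = 0 := h
  have hdet := cast_det_eq_one (M := M) x
  have key : ∃ (k : ℤ),
      ((x.1 0 0 : ZMod M) = 1 ∧ (x.1 1 1 : ZMod M) = 1 ∧ (x.1 0 1 : ZMod M) = k * x.1 1 1) ∨
      ((x.1 0 0 : ZMod M) = -1 ∧ (x.1 1 1 : ZMod M) = -1 ∧ (x.1 0 1 : ZMod M) = k * x.1 1 1) := by
    refine ⟨x.1 0 1 * x.1 1 1, ?_⟩
    push_cast
    rw [hc, mul_zero, sub_zero] at hdet
    rcases hM with rfl | rfl
    · have h2 : ∀ a b d : ZMod 2, a * d = 1 → a = 1 ∧ d = 1 ∧ b = b * d * d := by decide +kernel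
      exact Or.inl (h2 _ _ _ hdet)
    · have h3 : ∀ a b d : ZMod 3, a * d = 1 →
          (a = 1 ∧ d = 1 ∧ b = b * d * d) ∨ (a = -1 ∧ d = -1 ∧ b = b * d * d) := by decide +kernel
      exact h3 _ _ _ hdet
  obtain ⟨k, hk⟩ := key
  refine ⟨k, ?_⟩
  have hy : ((x * (ModularGroup.T ^ k)⁻¹ : SL(2, ℤ)) : Matrix (Fin 2) (Fin 2) ℤ) =
      !![x.1 0 0, -k * x.1 0 0 + x.1 0 1; x.1 1 0, -k * x.1 1 0 + x.1 1 1] := by
    rw [Matrix.SpecialLinearGroup.coe_mul, ← zpow_neg, ModularGroup.coe_T_zpow]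
    ext i j
    fin_cases i <;> fin_cases j <;> simp [Matrix.mul_apply, Fin.sum_univ_two, mul_comm]
  have hconj : g' * (g * ModularGroup.T ^ k)⁻¹ = g * (x * (ModularGroup.T ^ k)⁻¹) * g⁻¹ := by
    rw [hx]; group
  rw [hconj]
  rcases hk with ⟨ha, hd, hb⟩ | ⟨ha, hd, hb⟩
  · refine Or.inl ((Gamma_normal M).conj_mem _ ?_ g)
    rw [Gamma_mem, hy]
    simp [ha, hd, hb, hc]
  · refine Or.inr ?_
    rw [show -(g * (x * (ModularGroup.T ^ k)⁻¹) * g⁻¹) =
      g * -(x * (ModularGroup.T ^ k)⁻¹) * g⁻¹ by simp [mul_neg, neg_mul]]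
    refine (Gamma_normal M).conj_mem _ ?_ g
    rw [Gamma_mem, Matrix.SpecialLinearGroup.coe_neg, hy]
    simp [ha, hd, hb, hc]

theorem eq_one_or_neg_one {x : ZMod M} (hx : x ≠ 0) : x = 1 ∨ x = -1 := by
  revert x
  rcases hM with rfl | rfl <;> decide

theorem eq_or_eq_neg {x y : ZMod M} (hx : x ≠ 0) (hy : y ≠ 0) : x = y ∨ x = -y := by
  revert x y
  rcases hM with rfl | rfl <;> decide

theorem eq_and_eq_of_mul_eq {x x' y y' : ZMod M} (hx : x ≠ 0) (hy : y ≠ 0)
    (h : x * x' = y * y') : (x = y ∧ x' = y') ∨ (x = -y ∧ x' = -y') := by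
  revert x x' y y'
  rcases hM with rfl | rfl <;> decide

theorem epsOrd_sub_pole {a b c d : ZMod M} (hdet : a * d - b * c = 1) (h : a + c = 0) :
    epsOrd (a + c) c - epsOrd a c = -1 := by
  unfold epsOrd
  revert a b c d
  rcases hM with rfl | rfl <;> decide

theorem epsOrd_sub_nonneg {a c : ZMod M} (h : a + c ≠ 0) :
    0 ≤ epsOrd (a + c) c - epsOrd a c := by
  unfold epsOrd
  revert a c
  rcases hM with rfl | rfl <;> decide

end Combinatorics

/-! ## Twisting of expansions along a cusp -/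

theorem cexp_neg_cusp (N : ℕ) (F : ℍ → ℂ) (g : SL(2, ℤ)) : cexp N F (-g) = cexp N F g :=
  cexp_congr (funext fun τ => by rw [ModularGroup.SL_neg_smul])

theorem coeff_cexp_of_cuspRel {M : ℕ} [NeZero M] (hM : M = 2 ∨ M = 3) {F : ℍ → ℂ} (hF : F ∈ Fn M)
    {g g' : SL(2, ℤ)} (h : CuspRel M g g') :
    ∃ k : ℤ, ∀ m : ℤ, (cexp M F g').coeff m =
      Complex.exp (2 * Real.pi * Complex.I * m * k / M) * (cexp M F g).coeff m := by
  obtain ⟨k, hk⟩ := h.exists_eq_mul hM
  refine ⟨k, fun m => ?_⟩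
  rw [← coeff_cexp_mul_T_zpow (fn_le_perFn hF)]
  rcases hk with hk | hk
  · have := cexp_gamma_mul_fn hF hk (g * ModularGroup.T ^ k)
    rw [inv_mul_cancel_right] at this
    rw [this]
  · have := cexp_gamma_mul_fn hF hk (g * ModularGroup.T ^ k)
    rw [neg_mul, inv_mul_cancel_right, cexp_neg_cusp] at this
    rw [this]

theorem coeff_zero_cexp_of_cuspRel {M : ℕ} [NeZero M] (hM : M = 2 ∨ M = 3) {F : ℍ → ℂ}
    (hF : F ∈ Fn M) {g g' : SL(2, ℤ)} (h : CuspRel M g g') :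
    (cexp M F g').coeff 0 = (cexp M F g).coeff 0 := by
  obtain ⟨k, hk⟩ := coeff_cexp_of_cuspRel hM hF h
  simp [hk 0]

theorem coeff_eq_zero_iff_of_cuspRel {M : ℕ} [NeZero M] (hM : M = 2 ∨ M = 3) {F : ℍ → ℂ}
    (hF : F ∈ Fn M) {g g' : SL(2, ℤ)} (h : CuspRel M g g') (m : ℤ) :
    (cexp M F g').coeff m = 0 ↔ (cexp M F g).coeff m = 0 := by
  obtain ⟨k, hk⟩ := coeff_cexp_of_cuspRel hM hF h
  simp [hk m, Complex.exp_ne_zero]

/-! ## Orders of the differences of division values -/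

theorem order_eq_of_coeff {R : Type*} [Zero R] {x : LaurentSeries R} {n : ℤ}
    (h0 : ∀ m < n, x.coeff m = 0) (h1 : x.coeff n ≠ 0) : x.order = n := by
  have hx : x ≠ 0 := fun h => h1 (by simp [h])
  refine le_antisymm (HahnSeries.order_le_of_coeff_ne_zero h1) (not_lt.1 fun h => ?_)
  exact hx (HahnSeries.coeff_order_eq_zero.1 (h0 _ h))

theorem wp_mem_holInfty {M : ℕ} [NeZero M] (v : Torsion.Idx M) :
    Torsion.wp v ∈ HolInfty M ∧ IsBoundedAtImInfty (Torsion.wp v) := by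
  have hb : IsBoundedAtImInfty (Torsion.wp v) := by
    rw [← Torsion.coe_wpForm v]
    exact ModularFormClass.bdd_at_infty (Torsion.wpForm v)
  have hp : Function.Periodic (Torsion.wp v ∘ ofComplex) (M : ℂ) := by
    rw [← Torsion.coe_wpForm v]
    exact_mod_cast SlashInvariantFormClass.periodic_comp_ofComplex (Torsion.wpForm v)
      (h := (M : ℝ)) (by simp)
  exact ⟨⟨(Torsion.wpForm v).holo', hp, 0, by simpa using hb⟩, hb⟩

variable {M : ℕ} [NeZero M] (hM : M = 2 ∨ M = 3)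
include hM

omit hM in
theorem coeff_expansion_wp_sub {a b : Torsion.Idx M} (ha : a ≠ 0) (hb : b ≠ 0) (k : ℕ) :
    (expansionFun M (Torsion.wp a - Torsion.wp b)).coeff k =
      Torsion.xCoeff (Torsion.zeta M) a k - Torsion.xCoeff (Torsion.zeta M) b k := by
  obtain ⟨ha', hab⟩ := wp_mem_holInfty a
  obtain ⟨hb', hbb⟩ := wp_mem_holInfty b
  rw [FLTA.Bridge.expansionFun_of_bounded M (sub_mem ha' hb') (hab.sub hbb),
    UpperHalfPlane.qExpansion_sub (FLTA.Bridge.analyticAt_cuspFunction M ha' hab)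
      (FLTA.Bridge.analyticAt_cuspFunction M hb' hbb),
    HahnSeries.ofPowerSeries_apply_coeff, map_sub, Torsion.coeff_qExpansion_wp ha,
    Torsion.coeff_qExpansion_wp hb]
  ring

omit hM in
theorem isPrimitiveRoot_zeta : IsPrimitiveRoot (Torsion.zeta M) M := by
  simpa [Torsion.zeta] using Complex.isPrimitiveRoot_exp M (NeZero.ne M)

omit hM in
theorem xCoeff_zero_ne {v : Torsion.Idx M} (hv : v ≠ 0) (h0 : v 0 = 0) :
    Torsion.xCoeff (Torsion.zeta M) v 0 ≠ 0 := by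
  have h1 : v 1 ≠ 0 := fun h1 => hv (by ext i; fin_cases i <;> assumption)
  have hz := isPrimitiveRoot_zeta (M := M)
  have h2 : (1 : ℂ) - Torsion.zeta M ^ (v 1).val ≠ 0 := sub_ne_zero.2 (Ne.symm
    (hz.pow_ne_one_of_pos_of_lt (ZMod.val_ne_zero (v 1) |>.2 h1) (ZMod.val_lt _)))
  rw [Torsion.xCoeff, if_pos rfl, if_pos h0, Ring.inverse_eq_inv']
  exact mul_ne_zero (pow_ne_zero _ (hz.ne_zero (NeZero.ne M))) (inv_ne_zero (pow_ne_zero _ h2))

theorem xCoeff_one {v : Torsion.Idx M} (h0 : v 0 ≠ 0) :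
    Torsion.xCoeff (Torsion.zeta M) v 1 =
      (if M = 2 then 2 else 1) * Torsion.zeta M ^ (v 0 * v 1).val := by
  rw [Torsion.xCoeff, if_neg one_ne_zero, Nat.divisorsAntidiagonal_one, Finset.sum_singleton]
  simp only [Torsion.lamCoeff, Nat.cast_one, mul_one, one_pow, one_mul]
  have h01 : (1 : ZMod M) ≠ 0 := by
    have : Fact (1 < M) := ⟨by omega⟩
    exact one_ne_zero
  by_cases h2 : M = 2
  · have hneg : ∀ x : ZMod M, -x = x := by subst h2; exact fun x => ZMod.neg_eq_self_mod_two x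
    have h1 : v 0 = 1 := (eq_one_or_neg_one hM h0).elim id fun h => h.trans (hneg 1)
    simp [if_pos h2, h1, hneg, h01, two_mul]
  · have hne : (1 : ZMod M) ≠ -1 := by
      have h3 : M = 3 := hM.resolve_left h2
      subst h3
      intro h
      have h3 := congrArg ZMod.val h
      rw [ZMod.val_one, ZMod.val_neg_of_ne_zero, ZMod.val_one] at h3
      omega
    rcases eq_one_or_neg_one hM h0 with h | h <;> rw [h] <;> simp [if_neg h2, h01, hne]

theorem order_expansion_wp_sub {a b : Torsion.Idx M} (ha : a ≠ 0) (hb : b ≠ 0) (h1 : a ≠ b)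
    (h2 : a ≠ -b) :
    expansionFun M (Torsion.wp a - Torsion.wp b) ≠ 0 ∧
      (expansionFun M (Torsion.wp a - Torsion.wp b)).order = epsOrd (a 0) (b 0) := by
  obtain ⟨ha', hab⟩ := wp_mem_holInfty a
  obtain ⟨hb', hbb⟩ := wp_mem_holInfty b
  set S := expansionFun M (Torsion.wp a - Torsion.wp b) with hS
  have hneg : ∀ m < (0 : ℤ), S.coeff m = 0 := fun m hm => by
    rw [hS, FLTA.Bridge.expansionFun_of_bounded M (sub_mem ha' hb') (hab.sub hbb)]
    exact ModularCurve.ofPowerSeries_coeff_of_neg _ hm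
  have hz := isPrimitiveRoot_zeta (M := M)
  suffices h : (∀ m < epsOrd (a 0) (b 0), S.coeff m = 0) ∧ S.coeff (epsOrd (a 0) (b 0)) ≠ 0 from
    ⟨fun h0 => h.2 (by simp [h0]), order_eq_of_coeff h.1 h.2⟩
  have hx0 : ∀ v : Torsion.Idx M, v 0 ≠ 0 → Torsion.xCoeff (Torsion.zeta M) v 0 = 0 := fun v hv => by
    rw [Torsion.xCoeff, if_pos rfl, if_neg hv]
  have both : ¬ (a 0 = 0 ∧ b 0 = 0) := by
    rintro ⟨h3, h4⟩
    have ha1 : a 1 ≠ 0 := fun h => ha (by ext i; fin_cases i <;> assumption)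
    have hb1 : b 1 ≠ 0 := fun h => hb (by ext i; fin_cases i <;> assumption)
    rcases eq_or_eq_neg hM ha1 hb1 with h | h
    · exact h1 (by ext i; fin_cases i; · exact h3.trans h4.symm
                   exact h)
    · exact h2 (by ext i; fin_cases i; · simp [h3, h4]
                   exact h)
  by_cases h : a 0 = 0 ∨ b 0 = 0
  · rw [epsOrd, if_pos h]
    refine ⟨hneg, ?_⟩
    rw [hS, show (0 : ℤ) = ((0 : ℕ) : ℤ) from rfl, coeff_expansion_wp_sub ha hb]
    rcases h with h | h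
    · rw [hx0 b (fun h' => both ⟨h, h'⟩), sub_zero]
      exact xCoeff_zero_ne ha h
    · rw [hx0 a (fun h' => both ⟨h', h⟩), zero_sub, neg_ne_zero]
      exact xCoeff_zero_ne hb h
  · rw [epsOrd, if_neg h]
    simp only [not_or] at h
    refine ⟨fun m hm => ?_, ?_⟩
    · rcases eq_or_lt_of_le (show m ≤ 0 by omega) with rfl | hm'
      · rw [hS, show (0 : ℤ) = ((0 : ℕ) : ℤ) from rfl, coeff_expansion_wp_sub ha hb,
          hx0 a h.1, hx0 b h.2, sub_zero]
      · exact hneg m hm'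
    · rw [hS, show (1 : ℤ) = ((1 : ℕ) : ℤ) from rfl, coeff_expansion_wp_sub ha hb,
        xCoeff_one hM h.1, xCoeff_one hM h.2, ← mul_sub]
      refine mul_ne_zero (by split_ifs <;> norm_num) (sub_ne_zero.2 fun he => ?_)
      have h5 : a 0 * a 1 = b 0 * b 1 :=
        ZMod.val_injective M (hz.pow_inj (ZMod.val_lt _) (ZMod.val_lt _) he)
      rcases eq_and_eq_of_mul_eq hM h.1 h.2 h5 with ⟨e0, e1⟩ | ⟨e0, e1⟩
      · exact h1 (by ext i; fin_cases i <;> assumption)
      · exact h2 (by ext i; fin_cases i <;> assumption)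

/-! ## `baseZ` -/

omit [NeZero M] in
theorem vec_facts (g : SL(2, ℤ)) :
    VecNondeg M (vecAct ![1, 1] g) ∧ VecNondeg M (vecAct ![0, 1] g) ∧
      VecNondeg M (vecAct ![1, 0] g) ∧ ¬ VecEq M (vecAct ![1, 1] g) (vecAct ![0, 1] g) ∧
        ¬ VecEq M (vecAct ![1, 0] g) (vecAct ![0, 1] g) := by
  have hdet := cast_det_eq_one (M := M) g
  simp only [VecNondeg, VecEq, vecAct, ← ZMod.intCast_zmod_eq_zero_iff_dvd, Fin.forall_fin_two,
    Matrix.vecMul, dotProduct, Fin.sum_univ_two, Matrix.cons_val_zero, Matrix.cons_val_one,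
    one_mul, zero_mul, zero_add, add_zero, Int.cast_sub, Int.cast_add]
  generalize (g.1 0 0 : ZMod M) = a, (g.1 0 1 : ZMod M) = b, (g.1 1 0 : ZMod M) = c,
    (g.1 1 1 : ZMod M) = d at hdet ⊢
  revert a b c d
  rcases hM with rfl | rfl <;> decide +kernel

theorem baseZ_mem : baseZ M ∈ Fn M := by
  have h := vec_facts hM (1 : SL(2, ℤ))
  simp only [vecAct, Matrix.SpecialLinearGroup.coe_one, Matrix.vecMul_one] at h
  exact torRatio_mem h.1 h.2.1 h.2.2.1 h.2.1 h.2.2.2.2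

theorem baseZ_smul (γ : SL(2, ℤ)) (hγ : γ ∈ Gamma M) (τ : ℍ) : baseZ M (γ • τ) = baseZ M τ :=
  (baseZ_mem hM).2.1 γ hγ τ

omit hM in
theorem baseZAt_eq_torRatio (g : SL(2, ℤ)) : baseZAt M g =
    torRatio M (vecAct ![1, 1] g) (vecAct ![0, 1] g) (vecAct ![1, 0] g) (vecAct ![0, 1] g) :=
  funext fun τ => torRatio_comp g τ

theorem baseZAt_mem (g : SL(2, ℤ)) : baseZAt M g ∈ Fn M := by
  obtain ⟨h1, h2, h3, -, h5⟩ := vec_facts hM g
  rw [baseZAt_eq_torRatio]
  exact torRatio_mem h1 h2 h3 h2 h5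

theorem cuspZ_mem (r : SL(2, ℤ)) : cuspZ M r ∈ Fn M := baseZAt_mem hM _

omit [NeZero M] hM in
theorem cexp_baseZ (g : SL(2, ℤ)) : cexp M (baseZ M) g = cexp M (baseZAt M g) 1 := by
  conv_lhs => rw [← mul_one g]
  exact (cexp_comp (baseZ M) g 1).symm

theorem baseZ_isAlgFn : IsAlgFn M (baseZ M) := by
  have h := vec_facts hM (1 : SL(2, ℤ))
  simp only [vecAct, Matrix.SpecialLinearGroup.coe_one, Matrix.vecMul_one] at h
  exact torRatio_isAlgFn h.1 h.2.1 h.2.2.1 h.2.1 h.2.2.2.2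

theorem cexp_baseZ_ne_zero_and_order (g : SL(2, ℤ)) :
    cexp M (baseZ M) g ≠ 0 ∧ (cexp M (baseZ M) g).order =
      epsOrd ((g.1 0 0 : ZMod M) + (g.1 1 0 : ZMod M)) (g.1 1 0 : ZMod M) -
        epsOrd (g.1 0 0 : ZMod M) (g.1 1 0 : ZMod M) := by
  obtain ⟨h1, h2, h3, h4, h5⟩ := vec_facts hM g
  set a := vecAct ![1, 1] g with ha
  set b := vecAct ![0, 1] g with hb
  set c := vecAct ![1, 0] g with hc
  let red : (Fin 2 → ℤ) → Torsion.Idx M := fun v i => (v i : ZMod M)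
  have hnz : ∀ v, VecNondeg M v → red v ≠ 0 := fun v hv h => hv fun i => by
    rw [← ZMod.intCast_zmod_eq_zero_iff_dvd]; exact congrFun h i
  have hne : ∀ v w, ¬ VecEq M v w → red v ≠ red w ∧ red v ≠ -red w := fun v w h => by
    refine ⟨fun e => h (Or.inl fun i => ?_), fun e => h (Or.inr fun i => ?_)⟩
    · rw [← ZMod.intCast_zmod_eq_zero_iff_dvd, Int.cast_sub, sub_eq_zero]; exact congrFun e i
    · rw [← ZMod.intCast_zmod_eq_zero_iff_dvd, Int.cast_add, add_eq_zero_iff_eq_neg]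
      exact congrFun e i
  obtain ⟨n0, n1⟩ := order_expansion_wp_sub hM (hnz _ h1) (hnz _ h2) (hne _ _ h4).1 (hne _ _ h4).2
  obtain ⟨d0, d1⟩ := order_expansion_wp_sub hM (hnz _ h3) (hnz _ h2) (hne _ _ h5).1 (hne _ _ h5).2
  have key : cexp M (baseZ M) g *
      expansionFun M (Torsion.wp (red c) - Torsion.wp (red b)) =
        expansionFun M (Torsion.wp (red a) - Torsion.wp (red b)) := by
    have hm : (fun τ : ℍ => baseZ M (g • τ)) ∈ HolInfty M := fn_le_perFn (baseZ_mem hM) g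
    rw [cexp_of_mem hm]
    show expansionFun M (fun τ : ℍ => baseZ M (g • τ)) * _ = _
    rw [← FLTA.Bridge.expansionFun_mul M hm
      (sub_mem (wp_mem_holInfty _).1 (wp_mem_holInfty _).1)]
    congr 1
    funext τ
    have e : baseZ M (g • τ) = torRatio M a b c b τ := torRatio_comp g τ
    have hd := sub_ne_zero.2 (torX_ne h3 h2 h5 τ)
    simp only [Pi.mul_apply, Pi.sub_apply, e, torRatio, torX_eq_wp] at hd ⊢
    rw [div_mul_cancel₀ _ hd]
  have hne0 : cexp M (baseZ M) g ≠ 0 := fun h => n0 (by rw [← key, h, zero_mul])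
  refine ⟨hne0, ?_⟩
  have ho := congrArg HahnSeries.order key
  rw [HahnSeries.order_mul hne0 d0, n1, d1] at ho
  have ea : red a 0 = (g.1 0 0 : ZMod M) + g.1 1 0 := by
    simp [red, ha, vecAct, Matrix.vecMul, dotProduct, Fin.sum_univ_two]
  have eb : red b 0 = (g.1 1 0 : ZMod M) := by
    simp [red, hb, vecAct, Matrix.vecMul, dotProduct, Fin.sum_univ_two]
  have ec : red c 0 = (g.1 0 0 : ZMod M) := by
    simp [red, hc, vecAct, Matrix.vecMul, dotProduct, Fin.sum_univ_two]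
  rw [ea, eb, ec] at ho
  omega

theorem order_baseZ_pole {g : SL(2, ℤ)} (h : CuspRel M poleRep g) :
    (cexp M (baseZ M) g).order = -1 := by
  rw [(cexp_baseZ_ne_zero_and_order hM g).2]
  rw [cuspRel_poleRep] at h
  exact epsOrd_sub_pole hM (cast_det_eq_one g) h

theorem order_baseZ_nonneg {g : SL(2, ℤ)} (h : ¬ CuspRel M poleRep g) :
    0 ≤ (cexp M (baseZ M) g).order := by
  rw [(cexp_baseZ_ne_zero_and_order hM g).2]
  rw [cuspRel_poleRep] at h
  exact epsOrd_sub_nonneg hM h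

omit [NeZero M] hM in
theorem cuspRel_translate (r g : SL(2, ℤ)) :
    CuspRel M poleRep (poleRep * r⁻¹ * g) ↔ CuspRel M r g := by
  rw [CuspRel, CuspRel, show poleRep⁻¹ * (poleRep * r⁻¹ * g) = r⁻¹ * g by group]

omit [NeZero M] hM in
theorem cexp_cuspZ (r g : SL(2, ℤ)) :
    cexp M (cuspZ M r) g = cexp M (baseZ M) (poleRep * r⁻¹ * g) :=
  cexp_comp (baseZ M) _ g

theorem order_cuspZ_pole {r g : SL(2, ℤ)} (h : CuspRel M r g) :
    (cexp M (cuspZ M r) g).order = -1 := by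
  rw [cexp_cuspZ]
  exact order_baseZ_pole hM ((cuspRel_translate r g).2 h)

theorem order_cuspZ_nonneg {r g : SL(2, ℤ)} (h : ¬ CuspRel M r g) :
    0 ≤ (cexp M (cuspZ M r) g).order := by
  rw [cexp_cuspZ]
  exact order_baseZ_nonneg hM fun h' => h ((cuspRel_translate r g).1 h')

theorem unitSeries_baseZ (g : SL(2, ℤ)) : UnitSeries (cexp M (baseZ M) g) := by
  obtain ⟨h1, h2, h3, h4, h5⟩ := vec_facts hM g
  rw [cexp_baseZ, baseZAt_eq_torRatio]
  exact torRatio_unitSeries h1 h2 h3 h2 h4 h5 1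

/-- The pole of `baseZ`, moved to infinity. -/
theorem exists_baseZ_cusp : ∃ g₀ : SL(2, ℤ), (cexp M (baseZAt M g₀) 1).order = -1 ∧
    UnitSeries (cexp M (baseZAt M g₀) 1) ∧
    ∀ g : SL(2, ℤ), (¬ ∃ k : ℤ, g * (ModularGroup.T ^ k)⁻¹ ∈ Gamma M ∨
        -(g * (ModularGroup.T ^ k)⁻¹) ∈ Gamma M) →
      0 ≤ (cexp M (baseZAt M g₀) g).order := by
  refine ⟨poleRep, ?_, ?_, fun g hg => ?_⟩
  · rw [← cexp_baseZ]
    exact order_baseZ_pole hM (cuspRel_self _)
  · rw [← cexp_baseZ]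
    exact unitSeries_baseZ hM _
  · rw [show cexp M (baseZAt M poleRep) g = cexp M (baseZ M) (poleRep * g) from
      cexp_comp (baseZ M) poleRep g]
    refine order_baseZ_nonneg hM fun h => hg ?_
    have h1 : CuspRel M 1 g := by
      simpa [CuspRel, ← mul_assoc] using h
    simpa using h1.exists_eq_mul hM

end FLTA.DeligneSerre
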