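import Fermat.Agent.DeligneSerre.Level.BaseZero
import Fermat.Agent.Bridge.JExpansion

/-!
# `baseZ M` is onto the complement of its cusp values, and unramified

For `e = 6 - M` the function `(baseZ')⁶ / (cuspFun ^ e * Δ)` is `Γ(M)`-invariant of weight zero
and bounded at every cusp, hence a nonzero constant.
-/

set_option autoImplicit false

noncomputable section

open scoped MatrixGroups ModularForm Topology Real
open UpperHalfPlane hiding I
open CongruenceSubgroup Filter Function

namespace FLTA.DeligneSerre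

open FLTA.Bridge (Hol HolInfty expansion expansionFun)

local notation "𝕢" => Function.Periodic.qParam

/-! ## Asymptotics at `i∞` -/

section Asymptotics

variable {h : ℕ} [NeZero h] {u : ℍ → ℂ}

omit [NeZero h] in
theorem hasDerivAt_qParam_nat (z : ℂ) :
    HasDerivAt (𝕢 (h : ℝ)) (𝕢 (h : ℝ) z * (2 * π * Complex.I / h)) z := by
  have h1 : HasDerivAt (fun w : ℂ => 2 * π * Complex.I * w / (h : ℂ))
      (2 * π * Complex.I / h) z := by
    simpa using ((hasDerivAt_id z).const_mul (2 * π * Complex.I)).div_const (h : ℂ)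
  simpa [Function.Periodic.qParam] using! h1.cexp

theorem tendsto_qParam_ne (h : ℕ) [NeZero h] :
    Tendsto (fun τ : ℍ => 𝕢 (h : ℝ) (τ : ℂ)) atImInfty (𝓝[≠] 0) :=
  tendsto_nhdsWithin_of_tendsto_nhds_of_eventually_within _
    (qParam_tendsto_atImInfty (FLTA.Bridge.natCast_period_pos h))
    (Eventually.of_forall fun _ => Function.Periodic.qParam_ne_zero _)

theorem analyticAt_cusp_and_coeff (hu : u ∈ HolInfty h)
    (h0 : VanishBelow 0 (expansionFun h u)) :
    IsBoundedAtImInfty u ∧ AnalyticAt ℂ (cuspFunction (h : ℝ) u) 0 ∧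
      (expansionFun h u).coeff 0 = cuspFunction (h : ℝ) u 0 ∧
      (expansionFun h u).coeff 1 = deriv (cuspFunction (h : ℝ) u) 0 := by
  have hb : IsBoundedAtImInfty u :=
    (FLTA.Bridge.isBoundedAtImInfty_iff_order h ⟨u, hu⟩).2 (h0.le_order le_rfl)
  refine ⟨hb, FLTA.Bridge.analyticAt_cuspFunction h hu hb, ?_, ?_⟩ <;>
    rw [FLTA.Bridge.expansionFun_of_bounded h hu hb]
  · rw [show (0 : ℤ) = ((0 : ℕ) : ℤ) from rfl, HahnSeries.ofPowerSeries_apply_coeff,
      qExpansion_coeff]
    simp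
  · rw [show (1 : ℤ) = ((1 : ℕ) : ℤ) from rfl, HahnSeries.ofPowerSeries_apply_coeff,
      qExpansion_coeff]
    simp [iteratedDeriv_one]

theorem tendsto_coeff_zero (hu : u ∈ HolInfty h) (h0 : VanishBelow 0 (expansionFun h u)) :
    Tendsto u atImInfty (𝓝 ((expansionFun h u).coeff 0)) :=
  FLTA.Bridge.tendsto_atImInfty_coeff_zero h ⟨u, hu⟩ (h0.le_order le_rfl)

/-- A simple zero at `i∞`. -/
theorem tendsto_div_qParam (hu : u ∈ HolInfty h) (h1 : VanishBelow 1 (expansionFun h u)) :
    Tendsto (fun τ : ℍ => u τ / 𝕢 (h : ℝ) (τ : ℂ)) atImInfty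
      (𝓝 ((expansionFun h u).coeff 1)) := by
  obtain ⟨-, ha, hc0, hc1⟩ := analyticAt_cusp_and_coeff hu (h1.mono zero_le_one)
  rw [hc1]
  have hs := (hasDerivAt_iff_tendsto_slope.1 ha.differentiableAt.hasDerivAt).comp
    (tendsto_qParam_ne h)
  refine hs.congr fun τ => ?_
  rw [h1 0 zero_lt_one] at hc0
  simp only [comp_apply, slope_def_field, sub_zero, ← hc0]
  rw [eq_cuspFunction τ (FLTA.Bridge.natCast_period_pos h).ne' (by simpa using hu.2.1)]

/-- The derivative of a function regular at `i∞` vanishes to order at least one there. -/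
theorem tendsto_deriv_div_qParam (hu : u ∈ HolInfty h)
    (h0 : VanishBelow 0 (expansionFun h u)) :
    Tendsto (fun τ : ℍ => deriv (u ∘ ofComplex) (τ : ℂ) / 𝕢 (h : ℝ) (τ : ℂ)) atImInfty
      (𝓝 ((expansionFun h u).coeff 1 * (2 * π * Complex.I / h))) := by
  obtain ⟨-, ha, -, hc1⟩ := analyticAt_cusp_and_coeff hu h0
  rw [hc1]
  have hd := (ha.deriv.continuousAt.tendsto.comp
    ((tendsto_qParam_ne h).mono_right nhdsWithin_le_nhds)).mul_const (2 * π * Complex.I / h)
  refine hd.congr' ?_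
  filter_upwards [((tendsto_qParam_ne h).mono_right nhdsWithin_le_nhds).eventually
    ha.eventually_analyticAt] with τ hτ
  have h2 : HasDerivAt (cuspFunction (h : ℝ) u ∘ 𝕢 (h : ℝ))
      (deriv (cuspFunction (h : ℝ) u) (𝕢 (h : ℝ) (τ : ℂ)) *
        (𝕢 (h : ℝ) (τ : ℂ) * (2 * π * Complex.I / h))) (τ : ℂ) :=
    HasDerivAt.comp (τ : ℂ) hτ.differentiableAt.hasDerivAt (hasDerivAt_qParam_nat (τ : ℂ))
  have heq : (u ∘ ofComplex) =ᶠ[𝓝 (τ : ℂ)] (cuspFunction (h : ℝ) u ∘ 𝕢 (h : ℝ)) := by
    filter_upwards [isOpen_upperHalfPlaneSet.mem_nhds τ.im_pos] with w hw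
    simp only [comp_apply, ofComplex_apply_of_im_pos hw]
    exact (eq_cuspFunction ⟨w, hw⟩ (FLTA.Bridge.natCast_period_pos h).ne'
      (by simpa using hu.2.1)).symm
  rw [(h2.congr_of_eventuallyEq heq).deriv]
  simp only [comp_apply]
  field_simp [Function.Periodic.qParam_ne_zero]

theorem tendsto_discriminant_div (h : ℕ) [NeZero h] :
    Tendsto (fun τ : ℍ => ModularForm.discriminant τ / 𝕢 (h : ℝ) (τ : ℂ) ^ h) atImInfty
      (𝓝 1) := by
  have he := (FLTA.Bridge.analyticAt_eulerProd.continuousAt.tendsto.comp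
    (qParam_tendsto_atImInfty (h := (1 : ℝ)) one_pos)).pow 24
  rw [FLTA.Bridge.eulerProd_zero, one_pow] at he
  refine he.congr fun τ => ?_
  rw [FLTA.Bridge.discriminant_eq_qFun_mul, ← FLTA.Bridge.qParam_one_eq_pow h]
  show FLTA.Bridge.eulerFun τ ^ 24 = FLTA.Bridge.qFun τ * _ / FLTA.Bridge.qFun τ
  rw [mul_div_cancel_left₀ _ (FLTA.Bridge.qFun_ne_zero τ)]

/-- `u'⁶ / ((u R) ^ e Δ)` has a limit at `i∞` when `u` has a simple zero there, `h + e = 6` and
`R` tends to a nonzero limit. -/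
theorem tendsto_deriv_pow_div (hu : u ∈ HolInfty h) (h1 : VanishBelow 1 (expansionFun h u))
    (hc : (expansionFun h u).coeff 1 ≠ 0) {R : ℍ → ℂ} {R₀ : ℂ} (hR : Tendsto R atImInfty (𝓝 R₀))
    (hR0 : R₀ ≠ 0) {e : ℕ} (he : e + h = 6) :
    ∃ L, Tendsto (fun τ : ℍ => deriv (u ∘ ofComplex) (τ : ℂ) ^ 6 /
      ((u τ * R τ) ^ e * ModularForm.discriminant τ)) atImInfty (𝓝 L) := by
  have h2 := ((tendsto_deriv_div_qParam hu (h1.mono zero_le_one)).pow 6).div
    ((((tendsto_div_qParam hu h1).mul hR).pow e).mul (tendsto_discriminant_div h))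
    (mul_ne_zero (pow_ne_zero _ (mul_ne_zero hc hR0)) one_ne_zero)
  refine ⟨_, h2.congr fun τ => ?_⟩
  have hq : 𝕢 (h : ℝ) (τ : ℂ) ≠ 0 := Function.Periodic.qParam_ne_zero _
  simp only [Pi.div_apply]
  rw [div_pow, mul_pow, div_pow, mul_pow, div_mul_eq_mul_div, div_mul_div_comm, ← pow_add, he,
    div_div_div_cancel_right₀ (pow_ne_zero _ hq)]

end Asymptotics

/-! ## Derivatives of translates -/

theorem deriv_comp_smul {F : ℍ → ℂ} (hF : F ∈ Hol) (g : SL(2, ℤ)) (τ : ℍ) :
    deriv ((fun σ : ℍ => F (g • σ)) ∘ ofComplex) (τ : ℂ) =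
      deriv (F ∘ ofComplex) ((g • τ : ℍ) : ℂ) / denom g τ ^ 2 := by
  have hdet : ((g : GL (Fin 2) ℝ)).val.det = 1 :=
    (Matrix.SpecialLinearGroup.map (Int.castRingHom ℝ) g).2
  have hd : (0 : ℝ) < ((g : GL (Fin 2) ℝ)).val.det := hdet ▸ one_pos
  have h1 := (UpperHalfPlane.hasStrictDerivAt_smul hd τ).hasDerivAt
  have e : ((fun σ : ℍ => F (g • σ)) ∘ ofComplex) =
      (F ∘ ofComplex) ∘ (fun z : ℂ => (((g : GL (Fin 2) ℝ) • ofComplex z : ℍ) : ℂ)) := by
    funext z
    simp [ModularGroup.sl_moeb]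
  have h2 : HasDerivAt (F ∘ ofComplex) (deriv (F ∘ ofComplex) ((g • τ : ℍ) : ℂ))
      (((g : GL (Fin 2) ℝ) • ofComplex (τ : ℂ) : ℍ) : ℂ) := by
    rw [ofComplex_apply, ← ModularGroup.sl_moeb]
    exact (FLTA.Bridge.analyticAt_of_mem_hol hF (g • τ)).differentiableAt.hasDerivAt
  rw [e, (h2.comp (τ : ℂ) h1).deriv]
  rw [hdet, Complex.ofReal_one, mul_one_div]

theorem discriminant_smul (g : SL(2, ℤ)) (τ : ℍ) :
    ModularForm.discriminant (g • τ) = denom g τ ^ 12 * ModularForm.discriminant τ := by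
  have h : (⇑CuspForm.discriminant) ∣[(12 : ℤ)] g = ⇑CuspForm.discriminant :=
    SlashInvariantFormClass.slash_action_eq CuspForm.discriminant _ ⟨g, rfl⟩
  have hD := congrFun h τ
  rw [ModularForm.SL_slash_apply, CuspForm.coe_discriminant] at hD
  conv_rhs => rw [← hD]
  have : denom g τ ≠ 0 := denom_ne_zero _ _
  rw [zpow_neg, show (12 : ℤ) = ((12 : ℕ) : ℤ) from rfl, zpow_natCast]
  field_simp

variable {M : ℕ} [NeZero M]

theorem mem_holInfty_comp {F : ℍ → ℂ} (hF : F ∈ Fn M) (g : SL(2, ℤ)) :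
    (fun τ : ℍ => F (g • τ)) ∈ HolInfty M :=
  fn_le_perFn hF g

theorem cexp_eq_expansionFun' {F : ℍ → ℂ} (hF : F ∈ Fn M) (g : SL(2, ℤ)) :
    cexp M F g = expansionFun M (fun τ : ℍ => F (g • τ)) := by
  rw [cexp_of_mem (mem_holInfty_comp hF g)]
  rfl

variable (hM : M = 2 ∨ M = 3)
include hM

omit [NeZero M] in
theorem one_mem_cuspReps : (1 : SL(2, ℤ)) ∈ cuspReps M := by
  rcases hM with rfl | rfl <;> simp [cuspReps]

omit [NeZero M] in
theorem card_cuspReps : (cuspReps M).card = M := by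
  have h1 : ModularGroup.S ≠ 1 := fun h => by
    have := congrArg (fun g : SL(2, ℤ) => g.1 1 0) h
    simp [ModularGroup.coe_S] at this
  have h2 : thirdRep ≠ 1 := fun h => by
    have := congrArg (fun g : SL(2, ℤ) => g.1 1 0) h
    simp [thirdRep] at this
  have h3 : thirdRep ≠ ModularGroup.S := fun h => by
    have := congrArg (fun g : SL(2, ℤ) => g.1 0 0) h
    simp [thirdRep, ModularGroup.coe_S] at this
  rcases hM with rfl | rfl <;> simp [cuspReps, h1.symm, h2.symm, h3.symm]

/-- The values at different finite cusps are different. -/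
theorem value_injOn {r s : SL(2, ℤ)} (hr : r ∈ cuspReps M) (hs : s ∈ cuspReps M) (hrs : r ≠ s) :
    (cexp M (baseZ M) r).coeff 0 ≠ (cexp M (baseZ M) s).coeff 0 := by
  intro he
  obtain ⟨γ, hγ, -, h⟩ := exists_cuspZ_mul_eq hM (not_cuspRel_poleRep hM hr)
  set α := (cexp M (cuspZ M r) poleRep).coeff 0
  set c := (cexp M (baseZ M) r).coeff 0
  have h1 := sub_mem (cuspZ_mem hM r) (const_mem_fn (N := M) α)
  have h2 := sub_mem (baseZ_mem hM) (const_mem_fn (N := M) c)
  have hE := congrArg (fun G => cexp M G s)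
    (funext h : (cuspZ M r - Function.const ℍ α) * (baseZ M - Function.const ℍ c) =
      Function.const ℍ γ)
  simp only [cexp_mul (fn_le_perFn h1) (fn_le_perFn h2),
    cexp_sub (fn_le_perFn (cuspZ_mem hM r)) (fn_le_perFn (const_mem_fn (N := M) _)),
    cexp_sub (fn_le_perFn (baseZ_mem hM)) (fn_le_perFn (const_mem_fn (N := M) _)),
    cexp_const] at hE
  have hW : VanishBelow 0 (cexp M (cuspZ M r) s - HahnSeries.single 0 α) :=
    (vanishBelow_zero_cuspZ hM (not_cuspRel_of_ne hM hr hs hrs)).sub (vanishBelow_single _ 0)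
  have hZ : VanishBelow 1 (cexp M (baseZ M) s - HahnSeries.single 0 c) := fun m hm => by
    rcases eq_or_lt_of_le (show m ≤ 0 by omega) with rfl | hm0
    · simp [he]
    · simp [(vanishBelow_order _).mono (order_baseZ_nonneg hM (not_cuspRel_poleRep hM hs)) m hm0,
        hm0.ne]
  have := hW.mul hZ 0 (by norm_num)
  rw [hE] at this
  exact hγ (by simpa using this)

/-- At the pole: `baseZ (g • τ) - c = γ / v τ`, with `v` vanishing simply at `i∞`. -/
theorem exists_pole_chart {g : SL(2, ℤ)} (hg : CuspRel M poleRep g) :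
    ∃ (v : ℍ → ℂ) (c γ : ℂ), v ∈ HolInfty M ∧ VanishBelow 1 (expansionFun M v) ∧
      (expansionFun M v).coeff 1 ≠ 0 ∧ γ ≠ 0 ∧
      ∀ τ, v τ * (baseZ M (g • τ) - c) = γ := by
  have hr := not_cuspRel_poleRep hM (one_mem_cuspReps hM)
  obtain ⟨γ, hγ, -, h⟩ := exists_cuspZ_mul_eq hM hr
  set α := (cexp M (cuspZ M 1) poleRep).coeff 0 with hα
  set c := (cexp M (baseZ M) 1).coeff 0
  have h1 := sub_mem (cuspZ_mem hM 1) (const_mem_fn (N := M) α)
  have h2 := sub_mem (baseZ_mem hM) (const_mem_fn (N := M) c)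
  have hg1 : ¬ CuspRel M 1 g := fun h' => by
    obtain ⟨k, hk⟩ := coeff_cexp_of_cuspRel hM (baseZ_mem hM) h'
    have hp := order_baseZ_pole hM hg
    have h3 : VanishBelow 0 (cexp M (baseZ M) g) := fun m hm => by
      rw [hk m, (vanishBelow_order _).mono (order_baseZ_nonneg hM hr) m hm, mul_zero]
    have := h3.le_order le_rfl
    omega
  have hexp : cexp M (cuspZ M 1 - Function.const ℍ α) g =
      cexp M (cuspZ M 1) g - HahnSeries.single 0 α := by
    rw [cexp_sub (fn_le_perFn (cuspZ_mem hM 1)) (fn_le_perFn (const_mem_fn (N := M) _)),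
      cexp_const]
  have hW : VanishBelow 1 (cexp M (cuspZ M 1) g - HahnSeries.single 0 α) := fun m hm => by
    rcases eq_or_lt_of_le (show m ≤ 0 by omega) with rfl | hm0
    · simp [hα, coeff_zero_cexp_of_cuspRel hM (cuspZ_mem hM 1) hg]
    · simp [vanishBelow_zero_cuspZ hM hg1 m hm0, hm0.ne]
  refine ⟨fun τ => (cuspZ M 1 - Function.const ℍ α) (g • τ), c, γ, mem_holInfty_comp h1 g, ?_, ?_,
    hγ, fun τ => h (g • τ)⟩
  · rw [← cexp_eq_expansionFun' h1, hexp]
    exact hW
  · rw [← cexp_eq_expansionFun' h1, hexp]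
    intro h0
    have hE := congrArg (fun G => cexp M G g)
      (funext h : (cuspZ M 1 - Function.const ℍ α) * (baseZ M - Function.const ℍ c) =
        Function.const ℍ γ)
    simp only [cexp_mul (fn_le_perFn h1) (fn_le_perFn h2), hexp,
      cexp_sub (fn_le_perFn (baseZ_mem hM)) (fn_le_perFn (const_mem_fn (N := M) _)),
      cexp_const] at hE
    have hZ : VanishBelow (-1) (cexp M (baseZ M) g - HahnSeries.single 0 c) :=
      (by rw [← order_baseZ_pole hM hg]; exact vanishBelow_order _ :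
        VanishBelow (-1) (cexp M (baseZ M) g)).sub ((vanishBelow_single _ 0).mono (by norm_num))
    have h3 := coeff_add_mul_of_vanishBelow hW hZ
    rw [hE, h0, zero_mul] at h3
    exact hγ (by simpa using h3)

/-! ## Surjectivity -/

theorem exists_baseZ_eq_of_ne {z₀ : ℂ}
    (hz : ∀ r ∈ cuspReps M, z₀ ≠ (cexp M (baseZ M) r).coeff 0) :
    ∃ τ : ℍ, baseZ M τ = z₀ := by
  by_contra hc
  simp only [not_exists] at hc
  have hb := baseZ_mem hM
  set G : ℍ → ℂ := fun τ => (baseZ M τ - z₀)⁻¹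
  have hmf : G ∈ FLTA.Dim.MF (Gamma M) 0 := by
    refine ⟨?_, fun γ hγ => ?_, fun g => ?_⟩
    · rw [UpperHalfPlane.mdifferentiable_iff]
      exact ((FLTA.Bridge.mem_hol_iff_differentiableOn.1 hb.1).sub_const z₀).inv fun z _ =>
        sub_ne_zero.2 (hc _)
    · funext τ
      rw [ModularForm.SL_slash_apply]
      simp only [G, baseZ_smul hM γ hγ]
      simp
    · have e : (G ∣[(0 : ℤ)] g) = fun τ : ℍ => G (g • τ) := by
        funext τ
        rw [ModularForm.SL_slash_apply]
        simp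
      rw [e]
      by_cases hgp : CuspRel M poleRep g
      · obtain ⟨v, c, γ, hv, hv1, -, hγ, h⟩ := exists_pole_chart hM hgp
        have hvt := tendsto_coeff_zero hv (hv1.mono zero_le_one)
        rw [hv1 0 zero_lt_one] at hvt
        have ht : Tendsto (fun τ : ℍ => v τ / (γ + (c - z₀) * v τ)) atImInfty (𝓝 0) := by
          have := hvt.div (tendsto_const_nhds (x := γ) |>.add (hvt.const_mul (c - z₀)))
            (by simpa using hγ)
          rwa [zero_div] at this
        refine (ht.congr fun τ => ?_).isBigO_one ℝ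
        have hv0 : v τ ≠ 0 := fun h0 => hγ (by rw [← h τ, h0, zero_mul])
        simp only [G]
        rw [show γ + (c - z₀) * v τ = v τ * (baseZ M (g • τ) - z₀) by
          linear_combination -(h τ), ← one_div, ← mul_div_mul_left 1 _ hv0, mul_one]
      · obtain ⟨r, hr, hrg⟩ := (exists_cuspRep hM g).resolve_left hgp
        have hv0 : VanishBelow 0 (expansionFun M (fun τ : ℍ => baseZ M (g • τ))) := by
          rw [← cexp_eq_expansionFun' hb]
          exact (vanishBelow_order _).mono (order_baseZ_nonneg hM hgp)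
        have ht := tendsto_coeff_zero (mem_holInfty_comp hb g) hv0
        rw [← cexp_eq_expansionFun' hb, coeff_zero_cexp_of_cuspRel hM hb hrg] at ht
        exact ((ht.sub_const z₀).inv₀ (sub_ne_zero.2 (hz r hr).symm)).isBigO_one ℝ
  obtain ⟨a, ha⟩ := FLTA.Dim.exists_eq_const_of_mem_MF_zero hmf
  refine baseZ_ne_const hM (z₀ + a⁻¹) (funext fun τ => ?_)
  have h := congrFun ha τ
  simp only [G] at h
  rw [Function.const_apply, ← h, inv_inv]
  ring

/-! ## No ramification -/

theorem tendsto_ramification (g : SL(2, ℤ)) :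
    ∃ L, Tendsto (fun τ : ℍ => deriv ((fun σ : ℍ => baseZ M (g • σ)) ∘ ofComplex) (τ : ℂ) ^ 6 /
      (cuspFun M (g • τ) ^ (6 - M) * ModularForm.discriminant τ)) atImInfty (𝓝 L) := by
  have hb := baseZ_mem hM
  have hM6 : M ≤ 6 := by omega
  have he : (6 - M) + M = 6 := by omega
  by_cases hgp : CuspRel M poleRep g
  · obtain ⟨v, c, γ, hv, hv1, hvc, hγ, h⟩ := exists_pole_chart hM hgp
    have hvne : ∀ τ, v τ ≠ 0 := fun τ h0 => hγ (by rw [← h τ, h0, zero_mul])
    set P : ℍ → ℂ := fun τ => ∏ r ∈ cuspReps M,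
      (γ + (c - (cexp M (baseZ M) r).coeff 0) * v τ)
    have hvt := tendsto_coeff_zero hv (hv1.mono zero_le_one)
    rw [hv1 0 zero_lt_one] at hvt
    have hP : Tendsto P atImInfty (𝓝 (γ ^ M)) := by
      have := tendsto_finsetProd (cuspReps M) fun r _ =>
        tendsto_const_nhds (x := γ) |>.add (hvt.const_mul (c - (cexp M (baseZ M) r).coeff 0))
      simpa [card_cuspReps hM] using this
    obtain ⟨L, hL⟩ := tendsto_deriv_pow_div hv hv1 hvc hP (pow_ne_zero _ hγ) he
    refine ⟨γ ^ 6 * L, (hL.const_mul (γ ^ 6)).congr fun τ => ?_⟩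
    have hfun : ((fun σ : ℍ => baseZ M (g • σ)) ∘ ofComplex) =
        fun z => c + γ / v (ofComplex z) := funext fun z => by
      show baseZ M (g • ofComplex z) = _
      have := h (ofComplex z)
      field_simp [hvne (ofComplex z)]
      linear_combination this
    have hd : DifferentiableAt ℂ (v ∘ ofComplex) (τ : ℂ) :=
      (FLTA.Bridge.analyticAt_of_mem_hol hv.1 τ).differentiableAt
    have hd2 : deriv (fun z => c + γ / v (ofComplex z)) (τ : ℂ) =
        -(γ * deriv (v ∘ ofComplex) (τ : ℂ)) / v τ ^ 2 := by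
      have := ((hd.hasDerivAt.inv (by simpa using hvne τ)).const_mul γ).const_add c
      simp only [comp_apply, ofComplex_apply] at this
      refine (this.congr_of_eventuallyEq (Eventually.of_forall fun z => ?_)).deriv.trans ?_
      · simp [div_eq_mul_inv]
      · ring
    have hprod : cuspFun M (g • τ) * v τ ^ M = P τ := by
      have hvM : v τ ^ M = ∏ _r ∈ cuspReps M, v τ := by
        rw [Finset.prod_const, card_cuspReps hM]
      rw [cuspFun_eq_prod hM, hvM, ← Finset.prod_mul_distrib]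
      exact Finset.prod_congr rfl fun r _ => by linear_combination h τ
    have hpne : cuspFun M (g • τ) ≠ 0 := cuspFun_ne_zero hM _
    have hD := ModularForm.discriminant_ne_zero τ
    have := hvne τ
    rw [hfun, hd2, ← hprod]
    rcases hM with rfl | rfl <;> field_simp <;> ring
  · obtain ⟨r, hr, hrg⟩ := (exists_cuspRep hM g).resolve_left hgp
    let _ := Classical.decEq SL(2, ℤ)
    set c := (cexp M (baseZ M) r).coeff 0 with hc
    have h2 := sub_mem hb (const_mem_fn (N := M) c)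
    have hexp : cexp M (baseZ M - Function.const ℍ c) g =
        cexp M (baseZ M) g - HahnSeries.single 0 c := by
      rw [cexp_sub (fn_le_perFn hb) (fn_le_perFn (const_mem_fn (N := M) _)), cexp_const]
    have hu1 : VanishBelow 1 (expansionFun M fun τ : ℍ => (baseZ M - Function.const ℍ c) (g • τ)) := by
      rw [← cexp_eq_expansionFun' h2, hexp]
      intro m hm
      rcases eq_or_lt_of_le (show m ≤ 0 by omega) with rfl | hm0
      · simp [hc, coeff_zero_cexp_of_cuspRel hM hb hrg]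
      · simp [(vanishBelow_order _).mono (order_baseZ_nonneg hM hgp) m hm0, hm0.ne]
    have huc : (expansionFun M fun τ : ℍ => (baseZ M - Function.const ℍ c) (g • τ)).coeff 1 ≠ 0 := by
      rw [← cexp_eq_expansionFun' h2, hexp]
      have := coeff_one_baseZ_ne_zero hM (not_cuspRel_poleRep hM hr)
      rw [ne_eq, ← coeff_eq_zero_iff_of_cuspRel hM hb hrg 1] at this
      simpa using this
    set R : ℍ → ℂ := fun τ => ∏ s ∈ (cuspReps M).erase r,
      (baseZ M (g • τ) - (cexp M (baseZ M) s).coeff 0)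
    have hz0 : VanishBelow 0 (expansionFun M (fun τ : ℍ => baseZ M (g • τ))) := by
      rw [← cexp_eq_expansionFun' hb]
      exact (vanishBelow_order _).mono (order_baseZ_nonneg hM hgp)
    have hzt := tendsto_coeff_zero (mem_holInfty_comp hb g) hz0
    rw [← cexp_eq_expansionFun' hb, coeff_zero_cexp_of_cuspRel hM hb hrg] at hzt
    have hR : Tendsto R atImInfty (𝓝 (∏ s ∈ (cuspReps M).erase r,
        (c - (cexp M (baseZ M) s).coeff 0))) :=
      tendsto_finsetProd _ fun s _ => hzt.sub_const _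
    obtain ⟨L, hL⟩ := tendsto_deriv_pow_div (mem_holInfty_comp h2 g) hu1 huc hR
      (Finset.prod_ne_zero_iff.2 fun s hs => sub_ne_zero.2
        (value_injOn hM hr (Finset.mem_of_mem_erase hs) (Finset.ne_of_mem_erase hs).symm)) he
    refine ⟨L, hL.congr fun τ => ?_⟩
    have e1 : ((fun τ : ℍ => (baseZ M - Function.const ℍ c) (g • τ)) ∘ ofComplex) =
        fun z => ((fun σ : ℍ => baseZ M (g • σ)) ∘ ofComplex) z - c := rfl
    rw [e1, deriv_sub_const, cuspFun_eq_prod hM, ← Finset.mul_prod_erase _ _ hr]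
    rfl

theorem deriv_baseZ_ne_zero' (τ : ℍ) : deriv (baseZ M ∘ ofComplex) (τ : ℂ) ≠ 0 := by
  have hb := baseZ_mem hM
  have han := FLTA.Bridge.mem_hol_iff_differentiableOn.1 hb.1
  set K : ℍ → ℂ := fun τ => deriv (baseZ M ∘ ofComplex) (τ : ℂ) ^ 6 /
    (cuspFun M τ ^ (6 - M) * ModularForm.discriminant τ)
  have htrans : ∀ (g : SL(2, ℤ)) (σ : ℍ), K (g • σ) =
      deriv ((fun σ : ℍ => baseZ M (g • σ)) ∘ ofComplex) (σ : ℂ) ^ 6 /
        (cuspFun M (g • σ) ^ (6 - M) * ModularForm.discriminant σ) := fun g σ => by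
    have := denom_ne_zero (g : GL (Fin 2) ℝ) σ
    simp only [K]
    rw [deriv_comp_smul hb.1, discriminant_smul, div_pow, div_div]
    congr 1
    ring
  have hmf : K ∈ FLTA.Dim.MF (Gamma M) 0 := by
    refine ⟨?_, fun γ hγ => ?_, fun g => ?_⟩
    · rw [UpperHalfPlane.mdifferentiable_iff]
      have hd : DifferentiableOn ℂ (deriv (baseZ M ∘ ofComplex)) upperHalfPlaneSet :=
        han.deriv isOpen_upperHalfPlaneSet
      have hcf : DifferentiableOn ℂ (fun z => cuspFun M (ofComplex z)) upperHalfPlaneSet :=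
        ((cuspPoly M).map iota).differentiable.comp_differentiableOn han
      have hD := UpperHalfPlane.mdifferentiable_iff.mp (ModularFormClass.holo CuspForm.discriminant)
      refine ((hd.pow 6).div ((hcf.pow (6 - M)).mul hD) fun z _ => ?_).congr fun z hz => ?_
      · exact mul_ne_zero (pow_ne_zero _ (cuspFun_ne_zero hM _))
          (ModularForm.discriminant_ne_zero _)
      · simp only [K, comp_apply, Pi.pow_apply, Pi.div_apply, Pi.mul_apply,
          CuspForm.coe_discriminant, ofComplex_apply_of_im_pos hz]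
    · funext σ
      rw [ModularForm.SL_slash_apply, htrans]
      simp only [K, cuspFun, baseZ_smul hM γ hγ]
      simp [comp_def]
    · have e : (K ∣[(0 : ℤ)] g) = fun τ : ℍ => K (g • τ) := by
        funext σ
        rw [ModularForm.SL_slash_apply]
        simp
      obtain ⟨L, hL⟩ := tendsto_ramification hM g
      rw [e]
      exact (hL.congr fun σ => (htrans g σ).symm).isBigO_one ℝ
  obtain ⟨C, hC⟩ := FLTA.Dim.exists_eq_const_of_mem_MF_zero hmf
  intro h0
  have hC0 : C = 0 := by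
    have h := congrFun hC τ
    simp only [K, h0] at h
    simpa using h.symm
  have hzero : upperHalfPlaneSet.EqOn (deriv (baseZ M ∘ ofComplex)) 0 := fun z hz => by
    have h := congrFun hC ⟨z, hz⟩
    simp only [K, hC0, div_eq_zero_iff, pow_eq_zero_iff (show (6 : ℕ) ≠ 0 by norm_num),
      mul_eq_zero, ModularForm.discriminant_ne_zero, or_false] at h
    exact h.resolve_right fun h' => cuspFun_ne_zero hM _ (eq_zero_of_pow_eq_zero h')
  refine baseZ_ne_const hM (baseZ M τ) (funext fun σ => ?_)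
  have h := isOpen_upperHalfPlaneSet.is_const_of_deriv_eq_zero
    (convex_halfSpace_im_gt 0).isPreconnected han hzero σ.im_pos τ.im_pos
  simpa using h

end FLTA.DeligneSerre
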