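import Fermat.Agent.DeligneSerre.Level.BaseStructure

/-!
# Galois conjugation of level `N` functions

Conjugation exists once `Fn N` is generated over `ℂ` by
ratios of torsion values, and it keeps orders on `ℍ` divisible once every algebra map to `ℂ` is an
evaluation and `Fn N` has uniformisers.
-/

set_option autoImplicit false

noncomputable section

open scoped MatrixGroups Real
open UpperHalfPlane CongruenceSubgroup

namespace FLTA.DeligneSerre

open FLTA.Bridge (Hol ordAt ordAt_mul ordAt_eq_zero_iff analyticAt_of_mem_hol)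
open ModularCurve (coeffMap)

local notation "Qb" => AlgebraicClosure ℚ

variable {N : ℕ} [NeZero N]

/-- The generators of `Fn N`: ratios of torsion values and algebraic constants. -/
def torGens (N : ℕ) : Set (ℍ → ℂ) :=
  {G | ∃ x : Qb, G = Function.const ℍ (iota x)} ∪
    {G | ∃ a b c d : Fin 2 → ℤ, VecNondeg N a ∧ VecNondeg N b ∧ VecNondeg N c ∧ VecNondeg N d ∧
      ¬ VecEq N a b ∧ ¬ VecEq N c d ∧ G = torRatio N a b c d}

/-- `F'` is the `σ`-conjugate of `F`. -/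
def IsConjFn (N : ℕ) (σ : ℂ →+* ℂ) (u : ℕ) (F F' : ℍ → ℂ) : Prop :=
  F ∈ Fn N ∧ F' ∈ Fn N ∧ ∀ g g' : SL(2, ℤ), GalConj N u g g' →
    cexp N F' g' = coeffMap σ (cexp N F g)

variable {σ : ℂ →+* ℂ} {u : ℕ} {F G F' G' : ℍ → ℂ}

theorem galConj_one_one : GalConj N u 1 1 := by
  simp [GalConj, Matrix.SpecialLinearGroup.coe_one]

theorem IsConjFn.unique (h : IsConjFn N σ u F F') (h' : IsConjFn N σ u F G') : F' = G' :=
  eq_of_cexp_eq (fn_le_perFn h.2.1) (fn_le_perFn h'.2.1) (g := 1)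
    ((h.2.2 1 1 galConj_one_one).trans (h'.2.2 1 1 galConj_one_one).symm)

theorem IsConjFn.add (h : IsConjFn N σ u F F') (h' : IsConjFn N σ u G G') :
    IsConjFn N σ u (F + G) (F' + G') :=
  ⟨add_mem h.1 h'.1, add_mem h.2.1 h'.2.1, fun g g' hg => by
    rw [cexp_add (fn_le_perFn h.1) (fn_le_perFn h'.1), cexp_add (fn_le_perFn h.2.1) (fn_le_perFn h'.2.1),
      h.2.2 g g' hg, h'.2.2 g g' hg, map_add]⟩

theorem IsConjFn.mul (h : IsConjFn N σ u F F') (h' : IsConjFn N σ u G G') :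
    IsConjFn N σ u (F * G) (F' * G') :=
  ⟨mul_mem h.1 h'.1, mul_mem h.2.1 h'.2.1, fun g g' hg => by
    rw [cexp_mul (fn_le_perFn h.1) (fn_le_perFn h'.1), cexp_mul (fn_le_perFn h.2.1) (fn_le_perFn h'.2.1),
      h.2.2 g g' hg, h'.2.2 g g' hg, map_mul]⟩

theorem isConjFn_const (c : ℂ) :
    IsConjFn N σ u (Function.const ℍ c) (Function.const ℍ (σ c)) :=
  ⟨const_mem_fn c, const_mem_fn _, fun g g' _ => by
    rw [cexp_const, cexp_const, ModularCurve.coeffMap_single]⟩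

theorem IsConjFn.smul (h : IsConjFn N σ u F F') (c : ℂ) :
    IsConjFn N σ u (c • F) (σ c • F') := by
  have := (isConjFn_const (N := N) (σ := σ) (u := u) c).mul h
  exact this

theorem isConjFn_zero : IsConjFn N σ u (0 : ℍ → ℂ) 0 := by
  have := isConjFn_const (N := N) (σ := σ) (u := u) 0
  rwa [map_zero] at this

theorem isConjFn_one : IsConjFn N σ u (1 : ℍ → ℂ) 1 := by
  have := isConjFn_const (N := N) (σ := σ) (u := u) 1
  rwa [map_one] at this

/-- Conjugation of a ratio of torsion values. -/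
theorem isConjFn_torRatio {σ : ℂ ≃+* ℂ} {u : ℕ}
    (hu : σ (Complex.exp (2 * π * Complex.I / N)) = Complex.exp (2 * π * Complex.I / N) ^ u)
    {a b c d : Fin 2 → ℤ} (ha : VecNondeg N a) (hb : VecNondeg N b) (hc : VecNondeg N c)
    (hd : VecNondeg N d) (hcd : ¬ VecEq N c d) :
    IsConjFn N (σ : ℂ →+* ℂ) u (torRatio N a b c d)
      (torRatio N ![a 0, u * a 1] ![b 0, u * b 1] ![c 0, u * c 1] ![d 0, u * d 1]) := by
  refine ⟨torRatio_mem ha hb hc hd hcd, torRatio_mem (galois_vecNondeg hu ha) (galois_vecNondeg hu hb)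
    (galois_vecNondeg hu hc) (galois_vecNondeg hu hd) (galois_not_vecEq hu hcd), fun g g' hg => ?_⟩
  have hv : ∀ v : Fin 2 → ℤ, torX N ![vecAct v g 0, u * vecAct v g 1] =
      torX N (vecAct ![v 0, u * v 1] g') := by
    intro v
    refine torX_congr (Or.inl fun i => (ZMod.intCast_zmod_eq_zero_iff_dvd _ _).mp ?_)
    obtain ⟨h00, h01, h10, h11⟩ := hg
    fin_cases i
    · simp [vecAct, Matrix.vecMul, dotProduct, Fin.sum_univ_two, h00]
      linear_combination -(v 1 : ZMod N) * h10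
    · simp [vecAct, Matrix.vecMul, dotProduct, Fin.sum_univ_two, h01, h11]
      ring
  have h2 : torRatio N ![vecAct a g 0, u * vecAct a g 1] ![vecAct b g 0, u * vecAct b g 1]
      ![vecAct c g 0, u * vecAct c g 1] ![vecAct d g 0, u * vecAct d g 1] =
      torRatio N (vecAct ![a 0, u * a 1] g') (vecAct ![b 0, u * b 1] g')
        (vecAct ![c 0, u * c 1] g') (vecAct ![d 0, u * d 1] g') := by
    funext τ
    simp only [torRatio, hv]
  rw [cexp_torRatio (g := g'), cexp_torRatio (g := g), ← h2]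
  refine HahnSeries.ext (funext fun k => ?_)
  rw [ModularCurve.coeffMap_coeff]
  exact (torRatio_galois σ u hu (ha.act g) (hb.act g) (hc.act g) (hd.act g)
    (not_vecEq_act hcd g) k).symm

section

variable {σ : ℂ ≃+* ℂ} {u : ℕ}
  (hu : σ (Complex.exp (2 * π * Complex.I / N)) = Complex.exp (2 * π * Complex.I / N) ^ u)
  (hgen : ∀ F ∈ Fn N, IsAlgFn N F → F ∈ Subring.closure (torGens N))
  (hspan : Subalgebra.toSubmodule (Fn N) ≤ Submodule.span ℂ {F | F ∈ Fn N ∧ IsAlgFn N F})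
include hu hgen hspan

theorem exists_isConjFn (hF : F ∈ Fn N) : ∃ F', IsConjFn N (σ : ℂ →+* ℂ) u F F' := by
  have h := hspan hF
  clear hF
  induction h using Submodule.span_induction with
  | zero => exact ⟨0, isConjFn_zero⟩
  | add a b _ _ ha hb =>
    obtain ⟨a', ha⟩ := ha
    obtain ⟨b', hb⟩ := hb
    exact ⟨_, ha.add hb⟩
  | smul c a _ ha =>
    obtain ⟨a', ha⟩ := ha
    exact ⟨_, ha.smul c⟩
  | mem a ha =>
    have h := hgen a ha.1 ha.2
    clear ha
    induction h using Subring.closure_induction with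
    | zero => exact ⟨0, isConjFn_zero⟩
    | one => exact ⟨1, isConjFn_one⟩
    | add x y _ _ hx hy =>
      obtain ⟨x', hx⟩ := hx
      obtain ⟨y', hy⟩ := hy
      exact ⟨_, hx.add hy⟩
    | mul x y _ _ hx hy =>
      obtain ⟨x', hx⟩ := hx
      obtain ⟨y', hy⟩ := hy
      exact ⟨_, hx.mul hy⟩
    | neg x _ hx =>
      obtain ⟨x', hx⟩ := hx
      exact ⟨_, by simpa using hx.smul (-1)⟩
    | mem x hx =>
      rcases hx with ⟨c, rfl⟩ | ⟨a, b, c, d, ha, hb, hc, hd, -, hcd, rfl⟩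
      · exact ⟨_, isConjFn_const _⟩
      · exact ⟨_, isConjFn_torRatio hu ha hb hc hd hcd⟩

omit hu hgen hspan in
theorem ne_zero_of_apply_ne_zero {F : ℍ → ℂ} {τ : ℍ} (h : F τ ≠ 0) : F ≠ 0 :=
  fun h0 => h (congrFun h0 τ)

omit hu hgen hspan in
theorem ordAt_pow_galois {F : ℍ → ℂ} (hF : F ∈ Hol) (hF0 : F ≠ 0) (τ : ℍ) (m : ℕ) :
    ordAt τ (F ^ m) = m * ordAt τ F := by
  induction m with
  | zero =>
    rw [pow_zero, zero_mul]
    exact (ordAt_eq_zero_iff (one_mem _) one_ne_zero τ).mpr one_ne_zero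
  | succ m ih =>
    have hne : F ^ m ≠ 0 := fun h => by
      have h' : (⟨F, hF⟩ : Hol) ^ m = 0 := Subtype.ext h
      exact hF0 (congrArg Subtype.val (eq_zero_of_pow_eq_zero h'))
    rw [pow_succ, ordAt_mul (pow_mem hF m) hF hne hF0 τ, ih]
    ring

variable (hval : ∀ e : Fn N →ₐ[ℂ] ℂ, ∃ τ : ℍ, ∀ F : Fn N, e F = (F : ℍ → ℂ) τ)
  (hloc : ∀ τ : ℍ, ∃ P ∈ Fn N, P ≠ 0 ∧ ordAt τ P = 1 ∧
    ∀ G ∈ Fn N, G τ = 0 → ∃ s ∈ Fn N, ∃ H ∈ Fn N, s τ ≠ 0 ∧ s * G = P * H)
include hval hloc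

/-- Abstract `exists_galois_conj`. -/
theorem exists_galois_conj_of {F : ℍ → ℂ} (hF : F ∈ Fn N) :
    ∃ F' : ℍ → ℂ, F' ∈ Fn N ∧
      (∀ g g' : SL(2, ℤ), GalConj N u g g' →
        ∀ k, (cexp N F' g').coeff k = σ ((cexp N F g).coeff k)) ∧
      (F ≠ 0 → ∀ n : ℕ, (∀ τ, n ∣ ordAt τ F) → ∀ τ, n ∣ ordAt τ F') := by
  choose cj hcj using fun G : Fn N => exists_isConjFn hu hgen hspan G.2
  refine ⟨cj ⟨F, hF⟩, (hcj _).2.1, fun g g' hg k => ?_, fun hF0 n hn τ' => ?_⟩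
  · rw [(hcj ⟨F, hF⟩).2.2 g g' hg, ModularCurve.coeffMap_coeff]
    rfl
  let e : Fn N →ₐ[ℂ] ℂ :=
    { toFun := fun G => σ.symm (cj G τ')
      map_one' := by
        rw [(hcj 1).unique isConjFn_one]
        exact map_one _
      map_mul' := fun a b => by
        rw [(hcj (a * b)).unique ((hcj a).mul (hcj b)), Pi.mul_apply, map_mul]
      map_zero' := by
        rw [(hcj 0).unique isConjFn_zero]
        exact map_zero _
      map_add' := fun a b => by
        rw [(hcj (a + b)).unique ((hcj a).add (hcj b)), Pi.add_apply, map_add]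
      commutes' := fun c => by
        rw [(hcj (algebraMap ℂ (Fn N) c)).unique (isConjFn_const c)]
        exact σ.symm_apply_apply c }
  obtain ⟨τ, hτ⟩ := hval e
  have hmulConj : ∀ G : Fn N, cj G τ' = σ ((G : ℍ → ℂ) τ) := fun G => by
    rw [← hτ G]
    exact (σ.apply_symm_apply _).symm
  obtain ⟨P, hP, hP0, hP1, hdiv⟩ := hloc τ
  -- `F * s = P ^ m * H` with `s`, `H` invertible at `τ`
  have key : ∀ m : ℕ, m ≤ ordAt τ F → ∃ s ∈ Fn N, ∃ H ∈ Fn N, s τ ≠ 0 ∧ s * F = P ^ m * H ∧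
      H ≠ 0 ∧ ordAt τ F = m + ordAt τ H := by
    intro m hm
    induction m with
    | zero => exact ⟨1, one_mem _, F, hF, one_ne_zero, by rw [one_mul, pow_zero, one_mul], hF0,
        (zero_add _).symm⟩
    | succ m ih =>
      obtain ⟨s, hs, H, hH, hsτ, heq, hH0, hord⟩ := ih (Nat.le_of_succ_le hm)
      have hHτ : H τ = 0 := by
        by_contra h
        have := (ordAt_eq_zero_iff hH.1 hH0 τ).mpr h
        omega
      obtain ⟨s', hs', H', hH', hs'τ, heq'⟩ := hdiv H hH hHτ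
      have hs'0 := ne_zero_of_apply_ne_zero hs'τ
      have hsH : s' * H ≠ 0 := by
        intro h
        have h' : (⟨s', hs'.1⟩ : Hol) * ⟨H, hH.1⟩ = 0 := Subtype.ext h
        rcases mul_eq_zero.mp h' with h'' | h''
        · exact hs'0 (congrArg Subtype.val h'')
        · exact hH0 (congrArg Subtype.val h'')
      have hH'0 : H' ≠ 0 := fun h => hsH (by rw [heq', h, mul_zero])
      refine ⟨s' * s, mul_mem hs' hs, H', hH', mul_ne_zero hs'τ hsτ, ?_, hH'0, ?_⟩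
      · rw [mul_assoc, heq, mul_left_comm, heq', pow_succ, mul_assoc]
      · have h1 := congrArg (ordAt τ) heq'
        rw [ordAt_mul hs'.1 hH.1 hs'0 hH0, ordAt_mul hP.1 hH'.1 hP0 hH'0, hP1,
          (ordAt_eq_zero_iff hs'.1 hs'0 τ).mpr hs'τ, zero_add] at h1
        omega
  obtain ⟨s, hs, H, hH, hsτ, heq, hH0, hord⟩ := key _ le_rfl
  have hHτ : H τ ≠ 0 := (ordAt_eq_zero_iff hH.1 hH0 τ).mp (by omega)
  set S : Fn N := ⟨s, hs⟩
  set K : Fn N := ⟨H, hH⟩
  set Q : Fn N := ⟨P, hP⟩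
  set m := ordAt τ F
  have hpow : IsConjFn N (σ : ℂ →+* ℂ) u (P ^ m) (cj Q ^ m) := by
    clear_value m
    clear hord heq hn key
    induction m with
    | zero => simpa using isConjFn_one
    | succ m ih => simpa [pow_succ] using ih.mul (hcj Q)
  have heq2 : cj S * cj ⟨F, hF⟩ = cj Q ^ m * cj K := by
    have h1 : IsConjFn N (σ : ℂ →+* ℂ) u (s * F) (cj S * cj ⟨F, hF⟩) := (hcj S).mul (hcj ⟨F, hF⟩)
    have h2 : IsConjFn N (σ : ℂ →+* ℂ) u (P ^ m * H) (cj Q ^ m * cj K) := hpow.mul (hcj K)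
    rw [← heq] at h2
    exact h1.unique h2
  have hSτ : cj S τ' ≠ 0 := by
    rw [hmulConj]
    exact fun h => hsτ ((map_eq_zero σ).mp h)
  have hKτ : cj K τ' ≠ 0 := by
    rw [hmulConj]
    exact fun h => hHτ ((map_eq_zero σ).mp h)
  by_cases hF' : cj ⟨F, hF⟩ = 0
  · rw [hF']
    simp [ordAt, analyticOrderNatAt, Function.comp_def, analyticOrderAt_eq_top.mpr]
  by_cases hm : m = 0
  · have h0 := congrFun heq2 τ'
    rw [hm, pow_zero, one_mul, Pi.mul_apply] at h0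
    rw [(ordAt_eq_zero_iff (hcj _).2.1.1 hF' τ').mpr fun h => hKτ (by rw [← h0, h, mul_zero])]
    exact dvd_zero n
  have hQ0 : cj Q ≠ 0 := fun h => by
    rw [h, zero_pow hm, zero_mul] at heq2
    have h' : (⟨cj S, (hcj S).2.1.1⟩ : Hol) * ⟨cj ⟨F, hF⟩, (hcj _).2.1.1⟩ = 0 := Subtype.ext heq2
    rcases mul_eq_zero.mp h' with h'' | h''
    · exact hSτ (congrFun (congrArg Subtype.val h'') τ')
    · exact hF' (congrArg Subtype.val h'')
  have hQm : cj Q ^ m ≠ 0 := fun h => by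
    have h' : (⟨cj Q, (hcj Q).2.1.1⟩ : Hol) ^ m = 0 := Subtype.ext h
    exact hQ0 (congrArg Subtype.val (eq_zero_of_pow_eq_zero h'))
  have h3 := congrArg (ordAt τ') heq2
  rw [ordAt_mul (hcj S).2.1.1 (hcj _).2.1.1 (ne_zero_of_apply_ne_zero hSτ) hF',
    ordAt_mul (pow_mem (hcj Q).2.1.1 m) (hcj K).2.1.1 hQm (ne_zero_of_apply_ne_zero hKτ),
    (ordAt_eq_zero_iff (hcj S).2.1.1 (ne_zero_of_apply_ne_zero hSτ) τ').mpr hSτ,
    (ordAt_eq_zero_iff (hcj K).2.1.1 (ne_zero_of_apply_ne_zero hKτ) τ').mpr hKτ,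
    ordAt_pow_galois (hcj Q).2.1.1 hQ0, zero_add, add_zero] at h3
  rw [h3]
  exact (hn τ).mul_right _

end

section Uniformiser

variable {M : ℕ} [NeZero M] (hM : M = 2 ∨ M = 3) (hMN : M ∣ N)
include hM hMN

theorem baseZ_mem_fn : baseZ M ∈ Fn N := by
  refine ⟨(baseZ_mem hM).1, fun γ hγ τ => (baseZ_mem hM).2.1 γ ?_ τ, (baseZ_mem hM).2.2⟩
  obtain ⟨a, b, c, d⟩ := Gamma_mem.mp hγ
  let πM := ZMod.castHom hMN (ZMod M)
  exact Gamma_mem.mpr ⟨by simpa only [map_intCast, map_one] using congrArg πM a,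
    by simpa only [map_intCast, map_zero] using congrArg πM b,
    by simpa only [map_intCast, map_zero] using congrArg πM c,
    by simpa only [map_intCast, map_one] using congrArg πM d⟩

theorem eval_baseZ_mem_fn (p : Polynomial ℂ) : (fun τ => p.eval (baseZ M τ)) ∈ Fn N := by
  have h : (fun τ => p.eval (baseZ M τ)) =
      ((Polynomial.aeval (⟨baseZ M, baseZ_mem_fn hM hMN⟩ : Fn N) p : Fn N) : ℍ → ℂ) := by
    rw [← Subalgebra.coe_val, ← Polynomial.aeval_algHom_apply]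
    funext τ
    rw [← Pi.evalAlgHom_apply (R := ℂ) (fun _ : ℍ => ℂ) τ (Polynomial.aeval _ p),
      ← Polynomial.aeval_algHom_apply, ← Polynomial.coe_aeval_eq_eval]
    rfl
  rw [h]
  exact SetLike.coe_mem _

/-- `z - z τ` is a uniformiser at `τ` dividing, up to units at `τ`, everything vanishing there. -/
theorem exists_uniformizer (R : Finset SL(2, ℤ)) (h1 : (1 : SL(2, ℤ)) ∈ R)
    (hmem : ∀ g ∈ R, ∀ F ∈ Fn N, (fun τ : ℍ => F (g • τ)) ∈ Fn N)
    (hinv : ∀ F ∈ Fn N, ∀ γ ∈ Gamma M, ∀ τ : ℍ,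
      (∑ g ∈ R, F (g • (γ • τ))) = ∑ g ∈ R, F (g • τ))
    (hsep : ∃ (n : ℕ) (v w : Fin n → ℍ → ℂ), (∀ j, v j ∈ Fn N) ∧ (∀ j, w j ∈ Fn N) ∧
      ∀ g ∈ R, ∀ g' ∈ R, ∀ τ : ℍ,
        (∑ j, v j (g • τ) * w j (g' • τ)) = if g = g' then 1 else 0)
    (hderiv : ∀ τ : ℍ, deriv (baseZ M ∘ ofComplex) (τ : ℂ) ≠ 0) (τ : ℍ) :
    ∃ P ∈ Fn N, P ≠ 0 ∧ ordAt τ P = 1 ∧
      ∀ G ∈ Fn N, G τ = 0 → ∃ s ∈ Fn N, ∃ H ∈ Fn N, s τ ≠ 0 ∧ s * G = P * H := by
  classical
  obtain ⟨n, v, w, hv, hw, hvw⟩ := hsep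
  have hP : baseZ M - Function.const ℍ (baseZ M τ) ∈ Fn N :=
    sub_mem (baseZ_mem_fn hM hMN) (const_mem_fn _)
  have hord : analyticOrderAt ((baseZ M - Function.const ℍ (baseZ M τ)) ∘ ofComplex) (τ : ℂ) = 1 := by
    have h : (baseZ M - Function.const ℍ (baseZ M τ)) ∘ ofComplex =
        fun x => (baseZ M ∘ ofComplex) x - (baseZ M ∘ ofComplex) (τ : ℂ) := by
      funext x
      simp
    rw [h]
    exact (analyticAt_of_mem_hol (baseZ_mem hM).1 τ).analyticOrderAt_sub_eq_one_of_deriv_ne_zero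
      (hderiv τ)
  refine ⟨_, hP, fun h0 => ?_, by simp [ordAt, analyticOrderNatAt, hord], fun G hG hGτ => ?_⟩
  · rw [h0, analyticOrderAt_eq_top.mpr (Filter.Eventually.of_forall fun _ => by simp)] at hord
    exact ENat.top_ne_natCast 1 hord
  obtain ⟨t, htmem, ht1⟩ : ∃ t ∈ Fn N, ∀ g ∈ R,
      t (g • τ) = if (1 : SL(2, ℤ)) = g then 1 else 0 := by
    refine ⟨∑ j, v j τ • w j, sum_mem fun j _ => Subalgebra.smul_mem _ (hw j) _, fun g hg => ?_⟩
    simpa using hvw 1 h1 g hg τ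
  -- the coordinates of `t * G`
  have hcoord : ∀ j, ∃ (p : Polynomial ℂ) (k : ℕ), (∀ x : ℍ,
      (∑ g ∈ R, t (g • x) * G (g • x) * w j (g • x)) * cuspFun M x ^ k = p.eval (baseZ M x)) ∧
      p.IsRoot (baseZ M τ) := by
    intro j
    have hT : (fun x => ∑ g ∈ R, (t * G * w j) (g • x)) ∈ Fn N := by
      have : (fun x => ∑ g ∈ R, (t * G * w j) (g • x)) =
          ∑ g ∈ R, fun x : ℍ => (t * G * w j) (g • x) := by funext x; simp
      rw [this]
      exact sum_mem fun g hg => hmem g hg _ (mul_mem (mul_mem htmem hG) (hw j))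
    have hTM := (show _ ∈ Fn M from ⟨hT.1, hinv _ (mul_mem (mul_mem htmem hG) (hw j)), hT.2.2⟩)
    obtain ⟨p, k, hp⟩ := isExpr_of_coeff (f := RingHom.id ℂ) hM Function.injective_id
      (fun _ _ => ⟨_, rfl⟩) (fun _ _ => ⟨_, rfl⟩) hTM (fun _ _ => ⟨_, rfl⟩)
    refine ⟨p, k, fun x => by simpa [Polynomial.map_id] using hp x, ?_⟩
    have h0 : (∑ g ∈ R, (t * G * w j) (g • τ)) = 0 := by
      refine Finset.sum_eq_zero fun g hg => ?_
      simp only [Pi.mul_apply, ht1 g hg]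
      split_ifs with h
      · subst h; simp [hGτ]
      · simp
    have := hp τ
    simp only [h0, zero_mul, Polynomial.map_id] at this
    exact this.symm
  choose p k hpk hroot using hcoord
  choose q hq using fun j => Polynomial.dvd_iff_isRoot.mpr (hroot j)
  set kk := Finset.univ.sup k
  have hc : (fun x => cuspFun M x) ∈ Fn N := eval_baseZ_mem_fn hM hMN _
  refine ⟨t * cuspFun M ^ kk, mul_mem htmem (pow_mem hc _),
    ∑ j, v j * (fun x => (q j).eval (baseZ M x)) * cuspFun M ^ (kk - k j),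
    sum_mem fun j _ => mul_mem (mul_mem (hv j) (eval_baseZ_mem_fn hM hMN _)) (pow_mem hc _), ?_, ?_⟩
  · have := ht1 1 h1
    rw [one_smul, if_pos rfl] at this
    simp [this, cuspFun_ne_zero hM τ]
  funext x
  simp only [Pi.mul_apply, Pi.pow_apply, Pi.sub_apply, Finset.sum_apply, Function.const_apply]
  have hexp : t x * G x = ∑ j, v j x * ∑ g ∈ R, t (g • x) * G (g • x) * w j (g • x) := by
    simp_rw [Finset.mul_sum]
    rw [Finset.sum_comm]
    have : ∀ g ∈ R, (∑ j, v j x * (t (g • x) * G (g • x) * w j (g • x))) =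
        if (1 : SL(2, ℤ)) = g then t (g • x) * G (g • x) else 0 := fun g hg => by
      have h2 := hvw 1 h1 g hg x
      rw [one_smul] at h2
      calc (∑ j, v j x * (t (g • x) * G (g • x) * w j (g • x))) =
            (∑ j, v j x * w j (g • x)) * (t (g • x) * G (g • x)) := by
              rw [Finset.sum_mul]; exact Finset.sum_congr rfl fun j _ => by ring
        _ = _ := by rw [h2]; split_ifs <;> simp
    rw [Finset.sum_congr rfl this, Finset.sum_ite_eq, if_pos h1, one_smul]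
  rw [mul_right_comm, hexp, Finset.sum_mul, Finset.mul_sum]
  refine Finset.sum_congr rfl fun j _ => ?_
  have hk : k j + (kk - k j) = kk := Nat.add_sub_cancel' (Finset.le_sup (Finset.mem_univ j))
  have h2 := hpk j x
  rw [hq j, Polynomial.eval_mul, Polynomial.eval_sub, Polynomial.eval_X, Polynomial.eval_C] at h2
  conv_lhs => rw [← hk, pow_add]
  linear_combination (v j x * cuspFun M x ^ (kk - k j)) * h2

end Uniformiser

section

variable {M : ℕ} [NeZero M] (hM : M = 2 ∨ M = 3) (hMN : M ∣ N)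
include hM hMN

omit [NeZero M] hM hMN in
/-- `Fn N` is stable under all of `SL(2, ℤ)`. -/
theorem comp_mem_fn {F : ℍ → ℂ} (hF : F ∈ Fn N) (g : SL(2, ℤ)) :
    (fun τ : ℍ => F (g • τ)) ∈ Fn N := by
  refine ⟨comp_smul_mem_hol' hF.1 g, fun γ hγ τ => ?_, fun h => ?_⟩
  · show F (g • (γ • τ)) = F (g • τ)
    rw [← mul_smul, show g * γ = (g * γ * g⁻¹) * g by group, mul_smul]
    exact hF.2.1 _ ((Gamma_normal N).conj_mem γ hγ g) _
  · simpa only [← mul_smul] using hF.2.2 (g * h)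

/-- Galois action: compatible with `SL(2, ℤ)` through `GalConj`, keeping the orders on `ℍ`
divisible. -/
theorem exists_galois_conj (σ : ℂ ≃+* ℂ) (u : ℕ)
    (hu : σ (Complex.exp (2 * π * Complex.I / N)) = Complex.exp (2 * π * Complex.I / N) ^ u)
    {F : ℍ → ℂ} (hF : F ∈ Fn N) :
    ∃ F' : ℍ → ℂ, F' ∈ Fn N ∧
      (∀ g g' : SL(2, ℤ), GalConj N u g g' →
        ∀ k, (cexp N F' g').coeff k = σ ((cexp N F g).coeff k)) ∧
      (F ≠ 0 → ∀ n : ℕ, (∀ τ, n ∣ FLTA.Bridge.ordAt τ F) → ∀ τ, n ∣ FLTA.Bridge.ordAt τ F') := by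
  obtain ⟨n, v, w, hv, hw, -, hsep⟩ := exists_separability hM hMN
  refine exists_galois_conj_of hu (fun F hF ha => mem_closure_torRatio hM hMN hF ha)
    (fn_le_span_alg hM hMN) (exists_eq_eval hM hMN) (fun τ => ?_) hF
  exact exists_uniformizer hM hMN (levReps N M) (levReps_spec hM hMN).2.1
    (fun g _ F hF => comp_mem_fn hF g) (fun F hF => (sheetSum_mem hM hMN hF).2)
    ⟨n, v, w, fun j => (hv j).1, fun j => (hw j).1, hsep⟩ (deriv_baseZ_ne_zero hM) τ

end

end FLTA.DeligneSerre
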