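import Fermat.Agent.DeligneSerre.Level.BaseFibre

/-!
# Functions on the base curve `X(M)`
-/

set_option autoImplicit false

noncomputable section

open scoped MatrixGroups Real
open UpperHalfPlane CongruenceSubgroup Polynomial

namespace FLTA.DeligneSerre

local notation "Qb" => AlgebraicClosure ℚ

section Invariant

variable {N M : ℕ} [NeZero N] [NeZero M]

omit [NeZero N] [NeZero M] in
theorem mem_fn_of_invariant {F : ℍ → ℂ} (hF : F ∈ Fn N)
    (hinv : ∀ γ ∈ Gamma M, ∀ τ : ℍ, F (γ • τ) = F τ) : F ∈ Fn M :=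
  ⟨hF.1, hinv, hF.2.2⟩

theorem coeff_cexp_level (hMN : M ∣ N) {F : ℍ → ℂ} (hF : F ∈ Fn M) (g : SL(2, ℤ)) (k : ℤ) :
    (cexp M F g).coeff k = (cexp N F g).coeff ((N / M : ℕ) * k) := by
  have : NeZero (N / M) := ⟨fun h => NeZero.ne N (by
    rw [← Nat.div_mul_cancel hMN, h, zero_mul])⟩
  rw [cexp_mul_level (N / M) (Nat.mul_div_cancel' hMN).symm (fn_le_perFn hF),
    ModularCurve.qExpand_coeff_mul]

variable (hM : M = 2 ∨ M = 3)
include hM

theorem inv_coeff_neg_one_mem {g : SL(2, ℤ)} (_hg : CuspRel M poleRep g) :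
    ((cexp M (baseZ M) g).coeff (-1))⁻¹ ∈ iota.range := by
  obtain ⟨a, ha⟩ := baseZ_isAlgFn hM g (-1)
  exact ⟨a⁻¹, by rw [map_inv₀, ha]⟩

theorem isIntFn_baseZ {l : ℕ} (hl : l.Prime) (hlM : ¬ l ∣ M) {A : ValuationSubring Qb}
    (hA : A.LiesOverPrime l) : IsIntFn A M (baseZ M) := by
  have h := vec_facts hM (1 : SL(2, ℤ))
  simp only [vecAct, Matrix.SpecialLinearGroup.coe_one, Matrix.vecMul_one] at h
  exact torRatio_isIntFn hl hlM hA h.1 h.2.1 h.2.2.1 h.2.1 h.2.2.2.2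

theorem inv_coeff_neg_one_mem_int {l : ℕ} (hl : l.Prime) (hlM : ¬ l ∣ M) {A : ValuationSubring Qb}
    (hA : A.LiesOverPrime l) {g : SL(2, ℤ)} (hg : CuspRel M poleRep g) :
    ((cexp M (baseZ M) g).coeff (-1))⁻¹ ∈ (iota.comp A.subtype).range := by
  have h := vec_facts hM (1 : SL(2, ℤ))
  simp only [vecAct, Matrix.SpecialLinearGroup.coe_one, Matrix.vecMul_one] at h
  obtain ⟨hne, hord⟩ := torRatio_order_redExp hl hlM hA h.1 h.2.1 h.2.2.1 h.2.1 h.2.2.2.1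
    h.2.2.2.2 g
  have hpole := order_baseZ_pole hM hg
  change redExp A M (baseZ M) g ≠ 0 at hne
  change (redExp A M (baseZ M) g).order = (cexp M (baseZ M) g).order at hord
  have h2 : (redExp A M (baseZ M) g).coeff (-1) ≠ 0 := by
    rw [← hpole, ← hord]
    exact fun h0 => hne (HahnSeries.coeff_order_eq_zero.1 h0)
  obtain ⟨a, ha⟩ := isIntFn_baseZ hM hl hlM hA g (-1)
  have h3 : IsLocalRing.residue A a ≠ 0 := by
    rw [← redC_iota, ha]
    exact h2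
  obtain ⟨u, hu⟩ := (IsLocalRing.residue_ne_zero_iff_isUnit a).1 h3
  refine ⟨(u⁻¹ : Aˣ), eq_inv_of_mul_eq_one_left ?_⟩
  rw [← ha, ← hu, RingHom.comp_apply, ValuationSubring.subtype_apply, ← map_mul]
  norm_cast
  simp

end Invariant

section

variable {N M : ℕ} [NeZero N] [NeZero M] (hM : M = 2 ∨ M = 3) (hMN : M ∣ N)
include hM

theorem exists_baseZ_eq (z₀ : ℂ) (hz : ((cuspPoly M).map iota).eval z₀ ≠ 0) :
    ∃ τ : ℍ, baseZ M τ = z₀ :=
  exists_baseZ_eq_of_ne hM fun r hr he => hz (by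
    rw [cuspPoly, Polynomial.map_prod, Polynomial.eval_prod]
    exact Finset.prod_eq_zero hr (by simp [iota_cuspVal hM, he]))

theorem deriv_baseZ_ne_zero (τ : ℍ) : deriv (baseZ M ∘ ofComplex) (τ : ℂ) ≠ 0 :=
  deriv_baseZ_ne_zero' hM τ

include hMN

/-- Invariant functions are polynomials in `z` and `1 / cuspPoly z`. -/
theorem exists_poly_of_invariant {F : ℍ → ℂ} (hF : F ∈ Fn N)
    (hinv : ∀ γ ∈ Gamma M, ∀ τ : ℍ, F (γ • τ) = F τ) :
    ∃ (p : ℂ[X]) (k : ℕ), ∀ τ, F τ * cuspFun M τ ^ k = p.eval (baseZ M τ) := by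
  have hF' := mem_fn_of_invariant hF hinv
  obtain ⟨p, k, h⟩ := isExpr_of_coeff (f := RingHom.id ℂ) hM Function.injective_id
    (fun _ _ => ⟨_, rfl⟩) (fun _ _ => ⟨_, rfl⟩) hF' (fun _ _ => ⟨_, rfl⟩)
  exact ⟨p, k, fun τ => by rw [h τ, Polynomial.map_id]⟩

/-- Algebraic version. -/
theorem exists_poly_of_invariant_alg {F : ℍ → ℂ} (hF : F ∈ Fn N) (ha : IsAlgFn N F)
    (hinv : ∀ γ ∈ Gamma M, ∀ τ : ℍ, F (γ • τ) = F τ) :
    ∃ (p : Qb[X]) (k : ℕ), ∀ τ, F τ * cuspFun M τ ^ k = (p.map iota).eval (baseZ M τ) := by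
  have hF' := mem_fn_of_invariant hF hinv
  exact isExpr_of_coeff (f := iota) hM iota.injective (fun g k => baseZ_isAlgFn hM g k)
    (fun g hg => inv_coeff_neg_one_mem hM hg) hF' fun g k => by
      rw [coeff_cexp_level hMN hF']
      exact ha g _

/-- Integral version. -/
theorem exists_poly_of_invariant_int {l : ℕ} (hl : l.Prime) (hlN : ¬ l ∣ N)
    {A : ValuationSubring Qb} (hA : A.LiesOverPrime l) {F : ℍ → ℂ} (hF : F ∈ Fn N)
    (ha : IsIntFn A N F) (hinv : ∀ γ ∈ Gamma M, ∀ τ : ℍ, F (γ • τ) = F τ) :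
    ∃ (p : A[X]) (k : ℕ), ∀ τ,
      F τ * cuspFun M τ ^ k = (p.map (iota.comp A.subtype)).eval (baseZ M τ) := by
  have hF' := mem_fn_of_invariant hF hinv
  have hlM : ¬ l ∣ M := fun h => hlN (h.trans hMN)
  exact isExpr_of_coeff (f := iota.comp A.subtype) hM (iotaA_injective A)
    (fun g k => isIntFn_baseZ hM hl hlM hA g k)
    (fun g hg => inv_coeff_neg_one_mem_int hM hl hlM hA hg) hF' fun g k => by
      rw [coeff_cexp_level hMN hF']
      exact ha g _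

end

end FLTA.DeligneSerre
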