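import Fermat.Agent.DeligneSerre.Level.Torsion
import Fermat.Agent.DeligneSerre.Level.Series

/-!
# A separability kernel for the sheets of `X(N) → X(M)`
-/

set_option autoImplicit false

noncomputable section

open scoped MatrixGroups Real
open UpperHalfPlane CongruenceSubgroup

namespace FLTA.DeligneSerre

variable (N : ℕ)

/-- The ratios of torsion values in level `N`. -/
def torRatioSet : Set (ℍ → ℂ) :=
  {G | ∃ a b c d : Fin 2 → ℤ, VecNondeg N a ∧ VecNondeg N b ∧ VecNondeg N c ∧ VecNondeg N d ∧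
    ¬ VecEq N a b ∧ ¬ VecEq N c d ∧ G = torRatio N a b c d}

/-- The ring they generate. -/
def torRing : Subring (ℍ → ℂ) := Subring.closure (torRatioSet N)

variable {N} [NeZero N]

theorem torRing_le_fn : torRing N ≤ (Fn N).toSubring :=
  Subring.closure_le.mpr fun G ⟨a, b, c, d, ha, hb, hc, hd, _, hcd, hG⟩ =>
    hG ▸ torRatio_mem ha hb hc hd hcd

theorem torRing_le_algFn : torRing N ≤ AlgFn N :=
  Subring.closure_le.mpr fun G ⟨a, b, c, d, ha, hb, hc, hd, _, hcd, hG⟩ =>
    hG ▸ ⟨fn_le_perFn (torRatio_mem ha hb hc hd hcd), torRatio_isAlgFn ha hb hc hd hcd⟩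

theorem torRing_le_intFn {l : ℕ} (hl : l.Prime) (hlN : ¬ l ∣ N)
    {A : ValuationSubring (AlgebraicClosure ℚ)} (hA : A.LiesOverPrime l) :
    torRing N ≤ IntFn A N :=
  Subring.closure_le.mpr fun G ⟨a, b, c, d, ha, hb, hc, hd, _, hcd, hG⟩ =>
    hG ▸ ⟨fn_le_perFn (torRatio_mem ha hb hc hd hcd), torRatio_isIntFn hl hlN hA ha hb hc hd hcd⟩

theorem torRatio_mem_torRing {a b c d : Fin 2 → ℤ} (ha : VecNondeg N a) (hb : VecNondeg N b)
    (hc : VecNondeg N c) (hd : VecNondeg N d) (hcd : ¬ VecEq N c d) :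
    torRatio N a b c d ∈ torRing N := by
  by_cases hab : VecEq N a b
  · rw [torRatio_eq_zero hab]; exact zero_mem _
  · exact Subring.subset_closure ⟨a, b, c, d, ha, hb, hc, hd, hab, hcd, rfl⟩

/-- Kernels of finite rank with coefficients in `torRing N`. -/
def SepKernel (K : ℍ → ℍ → ℂ) : Prop :=
  ∃ (n : ℕ) (u w : Fin n → ℍ → ℂ), (∀ j, u j ∈ torRing N) ∧ (∀ j, w j ∈ torRing N) ∧
    ∀ x y, K x y = ∑ j, u j x * w j y

theorem SepKernel.mul {K L : ℍ → ℍ → ℂ} (hK : SepKernel (N := N) K) (hL : SepKernel (N := N) L) :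
    SepKernel (N := N) fun x y => K x y * L x y := by
  obtain ⟨n, u, w, hu, hw, hK⟩ := hK
  obtain ⟨m, u', w', hu', hw', hL⟩ := hL
  refine ⟨n * m, fun j => u (finProdFinEquiv.symm j).1 * u' (finProdFinEquiv.symm j).2,
    fun j => w (finProdFinEquiv.symm j).1 * w' (finProdFinEquiv.symm j).2,
    fun j => mul_mem (hu _) (hu' _), fun j => mul_mem (hw _) (hw' _), fun x y => ?_⟩
  show K x y * L x y = _
  rw [hK, hL, Finset.sum_mul_sum, ← Fintype.sum_prod_type']
  refine Fintype.sum_equiv finProdFinEquiv _ _ fun jk => ?_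
  simp only [Equiv.symm_apply_apply, Pi.mul_apply]
  ring

theorem sepKernel_one : SepKernel (N := N) fun _ _ => 1 :=
  ⟨1, fun _ => 1, fun _ => 1, fun _ => one_mem _, fun _ => one_mem _, fun x y => by simp⟩

theorem SepKernel.prod {ι : Type*} (s : Finset ι) {K : ι → ℍ → ℍ → ℂ}
    (h : ∀ i ∈ s, SepKernel (N := N) (K i)) :
    SepKernel (N := N) fun x y => ∏ i ∈ s, K i x y := by
  classical
  induction s using Finset.induction_on with
  | empty => simpa using sepKernel_one
  | insert i t hi ih =>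
    simpa [Finset.prod_insert hi] using
      (h i (Finset.mem_insert_self i t)).mul
        (ih fun j hj => h j (Finset.mem_insert_of_mem hj))

/-- A linear factor `(z_v x - z_w y) / (z_v y - z_w y)`. -/
theorem sepKernel_linear {f g r : ℍ → ℂ} (hf : f ∈ torRing N) (hg : g ∈ torRing N)
    (hr : r ∈ torRing N) : SepKernel (N := N) fun x y => (f x - g y) * r y := by
  refine ⟨2, ![f, 1], ![r, -(g * r)], ?_, ?_, fun x y => ?_⟩
  · intro j; fin_cases j <;> simp [hf, one_mem]
  · intro j; fin_cases j <;> simp [hr, neg_mem, mul_mem hg hr]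
  · simp [Fin.sum_univ_two]; ring

omit [NeZero N] in
theorem vecEq_trans {u v w : Fin 2 → ℤ} (h : VecEq N u v) (h' : VecEq N v w) : VecEq N u w := by
  rcases h with h | h <;> rcases h' with h' | h'
  · exact Or.inl fun i => (show u i - v i + (v i - w i) = u i - w i by ring) ▸ dvd_add (h i) (h' i)
  · exact Or.inr fun i => (show u i - v i + (v i + w i) = u i + w i by ring) ▸ dvd_add (h i) (h' i)
  · exact Or.inr fun i => (show u i + v i - (v i - w i) = u i + w i by ring) ▸ dvd_sub (h i) (h' i)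
  · exact Or.inl fun i => (show u i + v i - (v i + w i) = u i - w i by ring) ▸ dvd_sub (h i) (h' i)

omit [NeZero N] in
theorem vecEq_symm {u v : Fin 2 → ℤ} (h : VecEq N u v) : VecEq N v u := by
  rcases h with h | h
  · exact Or.inl fun i => by simpa using (h i).neg_right
  · exact Or.inr fun i => by simpa [add_comm] using h i

omit [NeZero N] in
/-- An element fixing every vector up to sign lies in `± Γ(N)`. -/
theorem mem_pm_gamma_of_forall_vecEq (hN : 2 ≤ N) {h : SL(2, ℤ)}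
    (hv : ∀ v : Fin 2 → ℤ, VecNondeg N v → VecEq N (vecAct v h) v) :
    h ∈ Gamma N ∨ -h ∈ Gamma N := by
  have hN1 : ¬ (N : ℤ) ∣ 1 := fun hd => by
    have := Int.le_of_dvd one_pos hd
    omega
  have key : ∀ v : Fin 2 → ℤ, VecNondeg N v →
      (∀ i, ((vecAct v h i : ℤ) : ZMod N) = (v i : ZMod N)) ∨
      (∀ i, ((vecAct v h i : ℤ) : ZMod N) = -(v i : ZMod N)) := by
    intro v hvn
    rcases hv v hvn with e | e
    · left; intro i
      rw [← sub_eq_zero, ← Int.cast_sub, ZMod.intCast_zmod_eq_zero_iff_dvd]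
      exact e i
    · right; intro i
      rw [← add_eq_zero_iff_eq_neg, ← Int.cast_add, ZMod.intCast_zmod_eq_zero_iff_dvd]
      exact e i
  have h1 := key ![1, 0] fun hd => hN1 (hd 0)
  have h2 := key ![0, 1] fun hd => hN1 (hd 1)
  have h3 := key ![1, 1] fun hd => hN1 (hd 0)
  simp only [Fin.forall_fin_two, vecAct, Matrix.vecMul, dotProduct, Fin.sum_univ_two,
    Matrix.cons_val_zero, Matrix.cons_val_one, one_mul, zero_mul, add_zero, zero_add,
    Int.cast_add, Int.cast_one, Int.cast_zero, neg_zero] at h1 h2 h3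
  rw [Gamma_mem, Gamma_mem]
  simp only [Matrix.SpecialLinearGroup.coe_neg, Matrix.neg_apply, Int.cast_neg, neg_eq_iff_eq_neg,
    neg_zero]
  rcases h1 with ⟨a, b⟩ | ⟨a, b⟩ <;> rcases h2 with ⟨c, d⟩ | ⟨c, d⟩ <;>
    rcases h3 with ⟨e, f⟩ | ⟨e, f⟩ <;>
    rw [a, c, add_zero] at e <;> rw [b, d, zero_add] at f <;> rw [a, b, c, d] <;>
    have hxy := e.trans f.symm <;>
    first
      | exact Or.inl ⟨rfl, rfl, rfl, rfl⟩
      | exact Or.inr ⟨rfl, rfl, rfl, rfl⟩
      | exact Or.inl ⟨hxy, rfl, rfl, rfl⟩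
      | exact Or.inl ⟨rfl, rfl, rfl, hxy.symm⟩

variable {M : ℕ}

/-- The separability kernel: `1` on the diagonal of the sheets and `0` off it. -/
theorem exists_sepKernel_sheets (hM : 2 ≤ M) (hMN : M ∣ N) :
    ∃ (n : ℕ) (u w : Fin n → ℍ → ℂ), (∀ j, u j ∈ torRing N) ∧ (∀ j, w j ∈ torRing N) ∧
      ∀ g ∈ Gamma M, ∀ g' ∈ Gamma M, ∀ τ : ℍ,
        ((g * g'⁻¹ ∈ Gamma N ∨ -(g * g'⁻¹) ∈ Gamma N) →
          ∑ j, u j (g • τ) * w j (g' • τ) = 1) ∧
        (¬ (g * g'⁻¹ ∈ Gamma N ∨ -(g * g'⁻¹) ∈ Gamma N) →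
          ∑ j, u j (g • τ) * w j (g' • τ) = 0) := by
  classical
  have hN : 2 ≤ N := hM.trans (Nat.le_of_dvd (NeZero.pos N) hMN)
  set k : ℤ := ((N / M : ℕ) : ℤ) with hk
  have hkM : k * M = N := by
    rw [hk, ← Nat.cast_mul, Nat.div_mul_cancel hMN]
  have hk0 : k ≠ 0 := by
    intro h0
    rw [h0, zero_mul] at hkM
    exact NeZero.ne N (by exact_mod_cast hkM.symm)
  have hkN : ¬ (N : ℤ) ∣ k := by
    intro hd
    rw [← hkM] at hd
    have : (M : ℤ) ∣ 1 := Int.dvd_of_mul_dvd_mul_left hk0 (by rwa [mul_one])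
    have := Int.le_of_dvd one_pos this
    omega
  set a₀ : Fin 2 → ℤ := ![0, k] with ha₀
  set b₀ : Fin 2 → ℤ := ![k, 0] with hb₀
  have ha : VecNondeg N a₀ := fun h => hkN (by simpa [ha₀] using h 1)
  have hb : VecNondeg N b₀ := fun h => hkN (by simpa [hb₀] using h 0)
  have hba : ¬ VecEq N b₀ a₀ := by
    rintro (h | h) <;> exact hkN (by simpa [ha₀, hb₀] using h 0)
  -- translates by `Γ(M)` fix the two base vectors
  have hfix : ∀ γ ∈ Gamma M, ∀ v ∈ ({a₀, b₀} : Set (Fin 2 → ℤ)),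
      ∀ i, (N : ℤ) ∣ vecAct v γ i - v i := by
    intro γ hγ v hv i
    obtain ⟨w, rfl⟩ : ∃ w : Fin 2 → ℤ, v = fun i => k * w i := by
      rcases hv with rfl | rfl
      · exact ⟨![0, 1], funext fun i => by fin_cases i <;> simp [ha₀]⟩
      · exact ⟨![1, 0], funext fun i => by fin_cases i <;> simp [hb₀]⟩
    have := mul_dvd_mul_left k (dvd_vecAct_gamma (N := M) hγ w i)
    rw [hkM] at this
    simpa [vecAct, Matrix.vecMul, dotProduct, Fin.sum_univ_two, mul_sub, mul_add, mul_assoc]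
      using this
  let z : (Fin 2 → ℤ) → ℍ → ℂ := fun v => torRatio N v a₀ b₀ a₀
  have hz : ∀ γ ∈ Gamma M, ∀ v τ, z v (γ • τ) = z (vecAct v γ) τ := by
    intro γ hγ v τ
    show torRatio N v a₀ b₀ a₀ (γ • τ) = torRatio N (vecAct v γ) a₀ b₀ a₀ τ
    rw [torRatio_comp]
    simp only [torRatio, torX_periodic (hfix γ hγ a₀ (Or.inl rfl)),
      torX_periodic (hfix γ hγ b₀ (Or.inr rfl))]
  have hzeq : ∀ v w, VecEq N v w → z v = z w := fun v w h => by
    funext τ
    simp only [z, torRatio, torX_congr h]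
  set V := (Fintype.piFinset fun _ : Fin 2 => Finset.Ico (0 : ℤ) N).filter (VecNondeg N) with hV
  have hVnd : ∀ v ∈ V, VecNondeg N v := fun v hv => (Finset.mem_filter.mp hv).2
  have hVrep : ∀ v, VecNondeg N v → ∃ v' ∈ V, VecEq N v v' := by
    intro v hv
    have hN0 : (0 : ℤ) < N := by exact_mod_cast NeZero.pos N
    have hd : ∀ i, (N : ℤ) ∣ v i - v i % N := fun i => Int.dvd_self_sub_emod
    refine ⟨fun i => v i % N, Finset.mem_filter.mpr ⟨Fintype.mem_piFinset.mpr fun i =>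
      Finset.mem_Ico.mpr ⟨Int.emod_nonneg _ hN0.ne', Int.emod_lt_of_pos _ hN0⟩, ?_⟩, Or.inl hd⟩
    intro h
    exact hv fun i => by simpa using dvd_add (hd i) (h i)
  -- the kernel
  let K : ℍ → ℍ → ℂ := fun x y => ∏ v ∈ V, ∏ w ∈ V.filter (fun w => ¬ VecEq N v w),
    (z v x - z w y) * torRatio N b₀ a₀ v w y
  have hK : SepKernel (N := N) K := by
    refine SepKernel.prod _ fun v hv => SepKernel.prod _ fun w hw => ?_
    simp only [Finset.mem_filter] at hw
    exact sepKernel_linear (torRatio_mem_torRing (hVnd v hv) ha hb ha hba)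
      (torRatio_mem_torRing (hVnd w hw.1) ha hb ha hba)
      (torRatio_mem_torRing hb ha (hVnd v hv) (hVnd w hw.1) hw.2)
  obtain ⟨n, u, w, hu, hw, hKuw⟩ := hK
  refine ⟨n, u, w, hu, hw, fun g hg g' hg' τ => ?_⟩
  rw [← hKuw]
  set h := g * g'⁻¹ with hh
  have hact : ∀ v, vecAct (vecAct v h) g' = vecAct v g := fun v => by
    rw [vecAct_mul, hh, inv_mul_cancel_right]
  constructor
  · intro hmem
    refine Finset.prod_eq_one fun v hv => Finset.prod_eq_one fun w hw => ?_
    simp only [Finset.mem_filter] at hw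
    have hveq : z v (g • τ) = z v (g' • τ) := by
      rw [hz g hg, hz g' hg', ← hact v]
      refine congrFun (hzeq _ _ (VecEq.act ?_ g')) τ
      rcases hmem with hγ | hγ
      · exact Or.inl (dvd_vecAct_gamma hγ v)
      · refine Or.inr fun i => ?_
        have := dvd_vecAct_gamma hγ v i
        rw [show vecAct v (-h) i = -vecAct v h i by
          simp [vecAct, Matrix.SpecialLinearGroup.coe_neg, Matrix.vecMul_neg]] at this
        rw [← dvd_neg]
        rwa [neg_add, ← sub_eq_add_neg]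
    have hd : z v (g' • τ) - z w (g' • τ) =
        (torX N v (g' • τ) - torX N w (g' • τ)) /
          (torX N b₀ (g' • τ) - torX N a₀ (g' • τ)) := by
      simp only [z, torRatio, div_sub_div_same, sub_sub_sub_cancel_right]
    rw [hveq, hd, torRatio]
    have h1 := sub_ne_zero.mpr (torX_ne (hVnd v hv) (hVnd w hw.1) hw.2 (g' • τ))
    have h2 := sub_ne_zero.mpr (torX_ne hb ha hba (g' • τ))
    field_simp
  · intro hmem
    obtain ⟨v, hv, hne⟩ : ∃ v, VecNondeg N v ∧ ¬ VecEq N (vecAct v h) v := by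
      by_contra hall
      push Not at hall
      exact hmem (mem_pm_gamma_of_forall_vecEq hN hall)
    obtain ⟨v', hv', hvv'⟩ := hVrep v hv
    obtain ⟨w', hw', hww'⟩ := hVrep (vecAct v h) (hv.act h)
    have hvw : ¬ VecEq N v' w' := fun e =>
      hne (vecEq_trans hww' (vecEq_symm (vecEq_trans hvv' e)))
    refine Finset.prod_eq_zero hv' (Finset.prod_eq_zero
      (Finset.mem_filter.mpr ⟨hw', hvw⟩) ?_)
    rw [hz g hg, hz g' hg', ← hact v']
    have e : VecEq N (vecAct (vecAct v' h) g') (vecAct w' g') :=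
      (vecEq_trans (vecEq_symm (VecEq.act hvv' h)) hww').act g'
    rw [hzeq _ _ e, sub_self, zero_mul]

end FLTA.DeligneSerre
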