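import Fermat.Agent.DeligneSerre.Level.BaseCusps
import Fermat.Agent.DeligneSerre.Level.BaseSep

/-!
# The sheets of `X(N) → X(M)`

Owner: helper42.
-/

set_option autoImplicit false

noncomputable section

open scoped MatrixGroups Real
open UpperHalfPlane CongruenceSubgroup Polynomial

namespace FLTA.DeligneSerre

local notation "Qb" => AlgebraicClosure ℚ

/-- Coset representatives of `± Γ(N)` in `Γ(M)`. -/
def levReps (N M : ℕ) : Finset SL(2, ℤ) :=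
  Classical.epsilon fun R : Finset SL(2, ℤ) =>
    (∀ g ∈ R, g ∈ Gamma M) ∧ (1 : SL(2, ℤ)) ∈ R ∧
      ∀ γ ∈ Gamma M, ∃! g, g ∈ R ∧
        (γ * g⁻¹ ∈ Gamma N ∨ -(γ * g⁻¹) ∈ Gamma N)

/-- Sum over the sheets of `X(N) → X(M)`. -/
def sheetSum (N M : ℕ) (F : ℍ → ℂ) (τ : ℍ) : ℂ := ∑ g ∈ levReps N M, F (g • τ)

/-- `± Γ(N)`. -/
def pmGamma (N : ℕ) : Subgroup SL(2, ℤ) where
  carrier := {γ | γ ∈ Gamma N ∨ -γ ∈ Gamma N}
  one_mem' := Or.inl (one_mem _)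
  mul_mem' := by
    rintro a b (ha | ha) (hb | hb)
    · exact Or.inl (mul_mem ha hb)
    · exact Or.inr (by simpa using mul_mem ha hb)
    · exact Or.inr (by simpa using mul_mem ha hb)
    · exact Or.inl (by simpa using mul_mem ha hb)
  inv_mem' := by
    rintro a (ha | ha)
    · exact Or.inl (inv_mem ha)
    · refine Or.inr ?_
      have e : (-a)⁻¹ = -a⁻¹ := inv_eq_of_mul_eq_one_right (by simp)
      simpa [e] using inv_mem ha

theorem mem_pmGamma {N : ℕ} {γ : SL(2, ℤ)} :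
    γ ∈ pmGamma N ↔ γ ∈ Gamma N ∨ -γ ∈ Gamma N := Iff.rfl

theorem exists_sheetReps (N M : ℕ) [NeZero N] : ∃ R : Finset SL(2, ℤ),
    (∀ g ∈ R, g ∈ Gamma M) ∧ (1 : SL(2, ℤ)) ∈ R ∧
      ∀ γ ∈ Gamma M, ∃! g, g ∈ R ∧ (γ * g⁻¹ ∈ Gamma N ∨ -(γ * g⁻¹) ∈ Gamma N) := by
  classical
  have hfi : (pmGamma N).FiniteIndex := Subgroup.finiteIndex_of_le fun γ hγ => Or.inl hγ
  let Q := SL(2, ℤ) ⧸ pmGamma N
  let cls : SL(2, ℤ) → Q := fun γ => QuotientGroup.mk γ⁻¹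
  have hcls : ∀ γ γ', cls γ = cls γ' ↔ γ * γ'⁻¹ ∈ pmGamma N := fun γ γ' => by
    simp [cls, Q, QuotientGroup.eq]
  let pick : Q → SL(2, ℤ) := fun q =>
    if q = cls 1 then 1 else Classical.epsilon fun γ => γ ∈ Gamma M ∧ cls γ = q
  have hpick : ∀ q ∈ cls '' (Gamma M : Set SL(2, ℤ)), pick q ∈ Gamma M ∧ cls (pick q) = q := by
    intro q hq
    by_cases h : q = cls 1
    · subst h
      simpa [pick] using one_mem (Gamma M)
    · simp only [pick, if_neg h]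
      exact Classical.epsilon_spec (p := fun γ => γ ∈ Gamma M ∧ cls γ = q) hq
  refine ⟨(Set.toFinite (cls '' (Gamma M : Set SL(2, ℤ)))).toFinset.image pick, ?_, ?_, ?_⟩
  · intro g hg
    obtain ⟨q, hq, rfl⟩ := Finset.mem_image.1 hg
    exact (hpick q ((Set.Finite.mem_toFinset _).1 hq)).1
  · exact Finset.mem_image.2 ⟨cls 1, (Set.Finite.mem_toFinset _).2 ⟨1, one_mem _, rfl⟩,
      by simp [pick]⟩
  · intro γ hγ
    have hq : cls γ ∈ cls '' (Gamma M : Set SL(2, ℤ)) := ⟨γ, hγ, rfl⟩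
    refine ⟨pick (cls γ), ⟨Finset.mem_image.2 ⟨_, (Set.Finite.mem_toFinset _).2 hq, rfl⟩,
      mem_pmGamma.1 ((hcls _ _).1 (hpick _ hq).2.symm)⟩, ?_⟩
    rintro g ⟨hg, hrel⟩
    obtain ⟨q, hq', rfl⟩ := Finset.mem_image.1 hg
    rw [(hcls _ _).2 (mem_pmGamma.2 hrel), (hpick q ((Set.Finite.mem_toFinset _).1 hq')).2]

theorem smul_eq_of_pmGamma {N : ℕ} {F : ℍ → ℂ} (hF : F ∈ Fn N) {h : SL(2, ℤ)}
    (hh : h ∈ pmGamma N) (τ : ℍ) : F (h • τ) = F τ := by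
  rcases hh with hh | hh
  · exact hF.2.1 h hh τ
  · have := hF.2.1 (-h) hh τ
    rwa [ModularGroup.SL_neg_smul] at this

theorem comp_smul_mem_fn {N : ℕ} [NeZero N] {F : ℍ → ℂ} (hF : F ∈ Fn N) (g : SL(2, ℤ)) :
    (fun τ : ℍ => F (g • τ)) ∈ Fn N := by
  refine ⟨comp_smul_mem_hol' hF.1 g, fun γ hγ τ => ?_, fun h => ?_⟩
  · have e : g • γ • τ = (g * γ * g⁻¹) • g • τ := by
      simp only [← mul_smul, inv_mul_cancel_right]
    show F (g • γ • τ) = F (g • τ)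
    rw [e]
    exact hF.2.1 _ ((Gamma_normal N).conj_mem γ hγ g) _
  · simpa only [mul_smul] using hF.2.2 (g * h)

section

variable {N M : ℕ} [NeZero N] [NeZero M] (hM : M = 2 ∨ M = 3) (hMN : M ∣ N)
include hM

theorem levReps_spec (hMN : M ∣ N) :
    (∀ g ∈ levReps N M, g ∈ Gamma M) ∧ (1 : SL(2, ℤ)) ∈ levReps N M ∧
      ∀ γ ∈ Gamma M, ∃! g, g ∈ levReps N M ∧
        (γ * g⁻¹ ∈ Gamma N ∨ -(γ * g⁻¹) ∈ Gamma N) := by
  have _ := hM
  have _ := hMN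
  exact Classical.epsilon_spec (exists_sheetReps N M)

include hMN

theorem sheetSum_mem {F : ℍ → ℂ} (hF : F ∈ Fn N) :
    sheetSum N M F ∈ Fn N ∧ ∀ γ ∈ Gamma M, ∀ τ : ℍ, sheetSum N M F (γ • τ) = sheetSum N M F τ := by
  obtain ⟨hR, -, huniq⟩ := levReps_spec hM hMN
  refine ⟨?_, fun γ hγ τ => ?_⟩
  · have e : sheetSum N M F = ∑ g ∈ levReps N M, fun τ : ℍ => F (g • τ) := by
      funext τ; rw [Finset.sum_apply]; rfl
    rw [e]
    exact sum_mem fun g _ => comp_smul_mem_fn hF g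
  · have ex := fun x (hx : x ∈ Gamma M) => (huniq x hx).exists
    choose rep hrep using ex
    have rep_inj : ∀ g ∈ levReps N M, ∀ g' ∈ levReps N M, g * g'⁻¹ ∈ pmGamma N → g = g' :=
      fun g hg g' hg' h => (huniq g (hR g hg)).unique
        ⟨hg, Or.inl (by simp)⟩ ⟨hg', mem_pmGamma.1 h⟩
    refine Finset.sum_bij (fun g hg => rep (g * γ) (mul_mem (hR g hg) hγ))
      (fun g hg => (hrep _ _).1) (fun g₁ h₁ g₂ h₂ he => ?_) (fun g' hg' => ?_) (fun g hg => ?_)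
    · refine rep_inj g₁ h₁ g₂ h₂ ?_
      have a := mem_pmGamma.2 (hrep _ (mul_mem (hR g₁ h₁) hγ)).2
      have b := mem_pmGamma.2 (hrep _ (mul_mem (hR g₂ h₂) hγ)).2
      rw [← he] at b
      simpa [mul_assoc] using mul_mem a (inv_mem b)
    · have hx := mul_mem (hR g' hg') (inv_mem hγ)
      obtain ⟨hm, hrel⟩ := hrep _ hx
      refine ⟨_, hm, (huniq _ (mul_mem (hR _ hm) hγ)).unique (hrep _ _) ⟨hg', ?_⟩⟩
      have := inv_mem (mem_pmGamma.2 hrel)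
      exact mem_pmGamma.1 (by simpa [mul_assoc] using this)
    · have a := mem_pmGamma.2 (hrep _ (mul_mem (hR g hg) hγ)).2
      rw [← smul_eq_of_pmGamma hF a (rep (g * γ) (mul_mem (hR g hg) hγ) • τ), ← mul_smul,
        ← mul_smul, inv_mul_cancel_right]

/-- The separability element, in `torRing N`. -/
theorem exists_separability_torRing :
    ∃ (n : ℕ) (u w : Fin n → ℍ → ℂ), (∀ j, u j ∈ torRing N) ∧ (∀ j, w j ∈ torRing N) ∧
      ∀ g ∈ levReps N M, ∀ g' ∈ levReps N M, ∀ τ : ℍ,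
        (∑ j, u j (g • τ) * w j (g' • τ)) = if g = g' then 1 else 0 := by
  obtain ⟨hR, -, huniq⟩ := levReps_spec hM hMN
  obtain ⟨n, u, w, hu, hw, h⟩ := exists_sepKernel_sheets (N := N) (M := M) (by omega) hMN
  refine ⟨n, u, w, hu, hw, fun g hg g' hg' τ => ?_⟩
  obtain ⟨h1, h0⟩ := h g (hR g hg) g' (hR g' hg') τ
  split_ifs with he
  · exact h1 (Or.inl (by simp [he]))
  · exact h0 fun hrel => he ((huniq g (hR g hg)).unique ⟨hg, Or.inl (by simp)⟩ ⟨hg', hrel⟩)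

/-- The separability element: finitely many pairs with `∑ u_j (g τ) w_j (g' τ) = [g = g']`. -/
theorem exists_separability :
    ∃ (n : ℕ) (u w : Fin n → ℍ → ℂ), (∀ j, u j ∈ Fn N ∧ IsAlgFn N (u j)) ∧
      (∀ j, w j ∈ Fn N ∧ IsAlgFn N (w j)) ∧
      (∀ (l : ℕ), l.Prime → ¬ l ∣ N → ∀ A : ValuationSubring Qb, A.LiesOverPrime l →
        (∀ j, IsIntFn A N (u j)) ∧ (∀ j, IsIntFn A N (w j))) ∧
      ∀ g ∈ levReps N M, ∀ g' ∈ levReps N M, ∀ τ : ℍ,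
        (∑ j, u j (g • τ) * w j (g' • τ)) = if g = g' then 1 else 0 := by
  obtain ⟨n, u, w, hu, hw, h⟩ := exists_separability_torRing hM hMN
  exact ⟨n, u, w, fun j => ⟨torRing_le_fn (hu j), (torRing_le_algFn (hu j)).2⟩,
    fun j => ⟨torRing_le_fn (hw j), (torRing_le_algFn (hw j)).2⟩,
    fun l hl hlN A hA => ⟨fun j => (torRing_le_intFn hl hlN hA (hu j)).2,
      fun j => (torRing_le_intFn hl hlN hA (hw j)).2⟩, h⟩

end

end FLTA.DeligneSerre
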