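import Fermat.Agent.DeligneSerre.Level.BaseSep
import Mathlib.FieldTheory.IntermediateField.Adjoin.Algebra

/-!
# The rings generated by the ratios of torsion values

`torRing N` is generated by the ratios, `torRingQb N` also by the algebraic constants. Their
members lie in `Fn N`, have algebraic expansions with bounded denominators and coefficients in a
number field; those of `torRing N` are integral at every place prime to `N`.
-/

set_option autoImplicit false

noncomputable section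

open scoped MatrixGroups
open UpperHalfPlane CongruenceSubgroup

namespace FLTA.DeligneSerre

open ModularCurve (coeffMap)

local notation "Qb" => AlgebraicClosure ℚ

/-- The ring generated by algebraic constants and the ratios of torsion values. -/
def torRingQb (N : ℕ) : Subring (ℍ → ℂ) :=
  Subring.closure ({G | ∃ x : Qb, G = Function.const ℍ (iota x)} ∪ torRatioSet N)

theorem torRing_le_torRingQb (N : ℕ) : torRing N ≤ torRingQb N :=
  Subring.closure_mono Set.subset_union_right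

theorem const_mem_torRingQb (N : ℕ) (x : Qb) : Function.const ℍ (iota x) ∈ torRingQb N :=
  Subring.subset_closure (Or.inl ⟨x, rfl⟩)

variable {N : ℕ} [NeZero N]

theorem torRatio_mul_swap {a b c d : Fin 2 → ℤ} (ha : VecNondeg N a) (hb : VecNondeg N b)
    (hc : VecNondeg N c) (hd : VecNondeg N d) (hab : ¬ VecEq N a b) (hcd : ¬ VecEq N c d) :
    torRatio N a b c d * torRatio N c d a b = 1 := by
  funext τ
  have h1 := sub_ne_zero.mpr (torX_ne ha hb hab τ)
  have h2 := sub_ne_zero.mpr (torX_ne hc hd hcd τ)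
  simp only [Pi.mul_apply, Pi.one_apply, torRatio]
  field_simp

theorem torRingQb_le_fn : torRingQb N ≤ (Fn N).toSubring := by
  refine Subring.closure_le.2 ?_
  rintro G (⟨x, rfl⟩ | ⟨a, b, c, d, ha, hb, hc, hd, -, hcd, rfl⟩)
  · exact Subalgebra.algebraMap_mem (Fn N) (iota x)
  · exact torRatio_mem ha hb hc hd hcd

theorem torRingQb_le_algFn : torRingQb N ≤ AlgFn N := by
  refine Subring.closure_le.2 ?_
  rintro G (⟨x, rfl⟩ | ⟨a, b, c, d, ha, hb, hc, hd, -, hcd, rfl⟩)
  · exact const_mem_algFn x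
  · exact ⟨fn_le_perFn (torRatio_mem ha hb hc hd hcd), torRatio_isAlgFn ha hb hc hd hcd⟩

/-! ## Denominators and coefficient fields -/

/-- Expansions with bounded denominators. -/
def BddDen (N : ℕ) (F : ℍ → ℂ) : Prop :=
  ∃ D : ℕ, D ≠ 0 ∧ ∀ g : SL(2, ℤ), HahnSeries.C (D : ℂ) * cexp N F g ∈ (coeffMap intC).range

/-- Expansions with coefficients in a number field. -/
def FinFix (N : ℕ) (F : ℍ → ℂ) : Prop :=
  ∃ K : IntermediateField ℚ Qb, FiniteDimensional ℚ K ∧
    ∀ g : SL(2, ℤ), cexp N F g ∈ (coeffMap (iota.comp K.val.toRingHom)).range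

omit [NeZero N] in
theorem range_coeffMap_mono {K L : IntermediateField ℚ Qb} (h : K ≤ L) {S : LaurentSeries ℂ}
    (hS : S ∈ (coeffMap (iota.comp K.val.toRingHom)).range) :
    S ∈ (coeffMap (iota.comp L.val.toRingHom)).range := by
  obtain ⟨T, rfl⟩ := hS
  exact ⟨coeffMap (IntermediateField.inclusion h).toRingHom T, HahnSeries.ext (funext fun k => rfl)⟩

/-- Periodic functions with bounded denominators and coefficients in a number field. -/
def DenomFn (N : ℕ) [NeZero N] : Subring (ℍ → ℂ) where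
  carrier := {F | F ∈ PerFn N ∧ BddDen N F ∧ FinFix N F}
  mul_mem' := by
    rintro F G ⟨hF, ⟨D, hD, hDF⟩, ⟨K, hK, hKF⟩⟩ ⟨hG, ⟨E, hE, hEG⟩, ⟨L, hL, hLG⟩⟩
    refine ⟨mul_mem hF hG, ⟨D * E, mul_ne_zero hD hE, fun g => ?_⟩, ⟨K ⊔ L, inferInstance,
      fun g => ?_⟩⟩
    · rw [cexp_mul hF hG, Nat.cast_mul, map_mul, mul_mul_mul_comm]
      exact mul_mem (hDF g) (hEG g)
    · rw [cexp_mul hF hG]
      exact mul_mem (range_coeffMap_mono le_sup_left (hKF g))
        (range_coeffMap_mono le_sup_right (hLG g))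
  one_mem' := ⟨one_mem _, ⟨1, one_ne_zero, fun g => by simp [cexp_one]⟩,
    ⟨⊥, inferInstance, fun g => by rw [cexp_one]; exact one_mem _⟩⟩
  add_mem' := by
    rintro F G ⟨hF, ⟨D, hD, hDF⟩, ⟨K, hK, hKF⟩⟩ ⟨hG, ⟨E, hE, hEG⟩, ⟨L, hL, hLG⟩⟩
    refine ⟨add_mem hF hG, ⟨D * E, mul_ne_zero hD hE, fun g => ?_⟩, ⟨K ⊔ L, inferInstance,
      fun g => ?_⟩⟩
    · rw [cexp_add hF hG, mul_add, Nat.cast_mul, map_mul,
        mul_comm (HahnSeries.C (D : ℂ)) (HahnSeries.C (E : ℂ)), mul_assoc,
        mul_assoc, mul_left_comm (HahnSeries.C (E : ℂ)) (HahnSeries.C (D : ℂ)) (cexp N G g),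
        map_natCast, map_natCast]
      refine add_mem (mul_mem (natCast_mem _ E) ?_) (mul_mem (natCast_mem _ D) ?_)
      · simpa [map_natCast] using hDF g
      · simpa [map_natCast] using hEG g
    · rw [cexp_add hF hG]
      exact add_mem (range_coeffMap_mono le_sup_left (hKF g))
        (range_coeffMap_mono le_sup_right (hLG g))
  zero_mem' := ⟨zero_mem _, ⟨1, one_ne_zero, fun g => by simp [cexp_zero]⟩,
    ⟨⊥, inferInstance, fun g => by rw [cexp_zero]; exact zero_mem _⟩⟩
  neg_mem' := by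
    rintro F ⟨hF, ⟨D, hD, hDF⟩, ⟨K, hK, hKF⟩⟩
    have e : ∀ g, cexp N (-F) g = -cexp N F g := fun g => by
      rw [← zero_sub, cexp_sub (zero_mem _) hF, cexp_zero, zero_sub]
    exact ⟨neg_mem hF, ⟨D, hD, fun g => by rw [e, mul_neg]; exact neg_mem (hDF g)⟩,
      ⟨K, hK, fun g => by rw [e]; exact neg_mem (hKF g)⟩⟩

theorem exists_den_iota (c : Qb) : ∃ (D : ℕ) (a : Qb), D ≠ 0 ∧ IsIntegral ℤ a ∧ (D : Qb) * c = a := by
  obtain ⟨m, hm0, hm⟩ := ((IsFractionRing.isAlgebraic_iff ℤ ℚ Qb).2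
    (Algebra.IsAlgebraic.isAlgebraic (R := ℚ) c)).exists_integral_multiple
  refine ⟨m.natAbs, (m.natAbs : Qb) * c, Int.natAbs_ne_zero.2 hm0, ?_, rfl⟩
  rcases Int.natAbs_eq m with h | h <;> rw [h] at hm
  · simpa [zsmul_eq_mul] using hm
  · simpa [zsmul_eq_mul] using hm.neg

theorem const_mem_denomFn (x : Qb) : Function.const ℍ (iota x) ∈ DenomFn N := by
  have hp : Function.const ℍ (iota x) ∈ PerFn N := fn_le_perFn (Subalgebra.algebraMap_mem (Fn N) _)
  have hc : ∀ g, cexp N (Function.const ℍ (iota x)) g = HahnSeries.C (iota x) := fun g => by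
    rw [cexp_eq hp, show (⟨_, hp⟩ : PerFn N) = algebraMap ℂ (PerFn N) (iota x) from rfl,
      AlgHom.commutes, ModularCurve.algebraMap_laurentSeries_eq_single]
    rfl
  obtain ⟨D, a, hD, ha, he⟩ := exists_den_iota x
  have hfin : FiniteDimensional ℚ (IntermediateField.adjoin ℚ ({x} : Set Qb)) :=
    IntermediateField.adjoin.finiteDimensional (Algebra.IsIntegral.isIntegral x)
  refine ⟨hp, ⟨D, hD, fun g => ?_⟩, ⟨_, hfin, fun g => ?_⟩⟩
  · rw [hc, ← map_mul]
    refine ⟨HahnSeries.single 0 ⟨a, ha⟩, (ModularCurve.coeffMap_single _ _ _).trans ?_⟩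
    show HahnSeries.single 0 (iota a) = _
    rw [← he, map_mul, map_natCast]
    rfl
  · rw [hc]
    exact ⟨HahnSeries.single 0 ⟨x, IntermediateField.mem_adjoin_simple_self ℚ x⟩,
      (ModularCurve.coeffMap_single _ _ _).trans rfl⟩

/-- `exp (2 π i / N)` generates the coefficient field of the expansions. -/
def zetaField (N : ℕ) [NeZero N] : IntermediateField ℚ Qb :=
  IntermediateField.adjoin ℚ ({(zInt N : Qb)} : Set Qb)

theorem diff_mem_range_zetaField {v w : Fin 2 → ℤ} (hv : VecNondeg N v) (hw : VecNondeg N w) :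
    FLTA.Bridge.expansion N ⟨_, diff_mem_holInfty hv hw⟩ ∈
      (coeffMap (iota.comp (zetaField N).val.toRingHom)).range := by
  set f : zetaField N →+* ℂ := iota.comp (zetaField N).val.toRingHom
  set z : zetaField N := ⟨(zInt N : Qb), IntermediateField.mem_adjoin_simple_self ℚ _⟩
  have hz : f z = zetaC N := intC_zInt
  rw [expansion_diff hv hw]
  have hcX : ∀ v : Fin 2 → ℤ, constX N v ∈ f.range := fun v => by
    rw [constX, rowF]
    split_ifs
    · refine ⟨zpowMod z (v 1 : ZMod N) / (1 - zpowMod z (v 1 : ZMod N)) ^ 2, ?_⟩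
      rw [map_div₀, map_pow, map_sub, map_one, map_zpowMod, hz]
    · exact zero_mem _
  have hco : ∀ m, diffCoeff N v w m ∈ f.range := fun m => by
    have htor : ∀ a b : ZMod N, torCoeff (zetaC N) 1 a b m ∈ f.range := fun a b =>
      ⟨torCoeff z 1 a b m, by rw [map_torCoeff, hz]⟩
    refine add_mem ?_ (sub_mem (htor _ _) (htor _ _))
    split_ifs
    · exact sub_mem (hcX v) (hcX w)
    · exact zero_mem _
  choose a ha using hco
  refine ⟨HahnSeries.ofPowerSeries ℤ _ (PowerSeries.mk a), ?_⟩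
  rw [coeffMap_ofPowerSeries]
  simp only [f] at ha ⊢
  exact congrArg _ (congrArg _ (funext ha))

theorem torRatio_mem_denomFn {a b c d : Fin 2 → ℤ} (ha : VecNondeg N a) (hb : VecNondeg N b)
    (hc : VecNondeg N c) (hd : VecNondeg N d) (hab : ¬ VecEq N a b) (hcd : ¬ VecEq N c d) :
    torRatio N a b c d ∈ DenomFn N := by
  have hF := torRatio_mem ha hb hc hd hcd
  have hfin : FiniteDimensional ℚ (zetaField N) :=
    IntermediateField.adjoin.finiteDimensional (Algebra.IsIntegral.isIntegral _)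
  refine ⟨fn_le_perFn hF, ?_, ⟨zetaField N, hfin, fun g => ?_⟩⟩
  · -- finitely many translates
    have hbound : ∀ g : SL(2, ℤ), ∃ D : ℕ, D ≠ 0 ∧
        HahnSeries.C (D : ℂ) * cexp N (torRatio N a b c d) g ∈ (coeffMap intC).range := fun g => by
      obtain ⟨e, he0, hco, -⟩ := torRatio_unitSeries ha hb hc hd hab hcd g
      obtain ⟨D, x, hD, hx, hDe⟩ := exists_den_iota e
      refine ⟨D, hD, (mem_range_coeffMap_iff intC_injective).2 fun k => ?_⟩
      obtain ⟨y, hy, hy'⟩ := hco k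
      refine ⟨⟨x * y, mul_mem (show x ∈ integralClosure ℤ Qb from hx) hy⟩, ?_⟩
      show iota (x * y) = _
      rw [coeff_C_mul, ← hy', ← hDe, mul_assoc, map_mul, map_natCast]
    choose D hD hDmem using hbound
    have : Fintype (SL(2, ℤ) ⧸ Gamma N) := Fintype.ofFinite _
    refine ⟨∏ x : SL(2, ℤ) ⧸ Gamma N, D x.out, Finset.prod_ne_zero_iff.2 fun x _ => hD _,
      fun g => ?_⟩
    set x : SL(2, ℤ) ⧸ Gamma N := QuotientGroup.mk g
    have hx : g * x.out⁻¹ ∈ Gamma N := by
      have h1 : x.out⁻¹ * g ∈ Gamma N := QuotientGroup.eq.1 (Quotient.out_eq x)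
      simpa [mul_assoc] using (Gamma_normal N).conj_mem _ h1 x.out
    have he := cexp_gamma_mul_fn hF hx x.out
    rw [inv_mul_cancel_right] at he
    obtain ⟨E, hE⟩ := Finset.dvd_prod_of_mem (fun y : SL(2, ℤ) ⧸ Gamma N => D y.out)
      (Finset.mem_univ x)
    rw [hE, Nat.cast_mul, map_mul, mul_comm (HahnSeries.C (D x.out : ℂ)), mul_assoc, he,
      map_natCast]
    refine mul_mem (natCast_mem _ E) ?_
    simpa [map_natCast] using hDmem x.out
  · rw [cexp_torRatio, cexp_torRatio_one (ha.act g) (hb.act g) (hc.act g) (hd.act g)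
      (not_vecEq_act hcd g)]
    obtain ⟨X, hX⟩ := diff_mem_range_zetaField (ha.act g) (hb.act g)
    obtain ⟨Y, hY⟩ := diff_mem_range_zetaField (hc.act g) (hd.act g)
    exact ⟨X / Y, by rw [map_div₀, hX, hY]⟩

theorem torRingQb_le_denomFn : torRingQb N ≤ DenomFn N := by
  refine Subring.closure_le.2 ?_
  rintro G (⟨x, rfl⟩ | ⟨a, b, c, d, ha, hb, hc, hd, hab, hcd, rfl⟩)
  · exact const_mem_denomFn x
  · exact torRatio_mem_denomFn ha hb hc hd hab hcd

end FLTA.DeligneSerre
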