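import Fermat.Agent.DeligneSerre.Level.BaseInvariant
import Fermat.Agent.DeligneSerre.Level.BaseSheets
import Fermat.Agent.DeligneSerre.Level.BaseTorRing
import Mathlib.RingTheory.DedekindDomain.IntegralClosure

/-!
# The structure of `Fn N` over the base curve

Every `F ∈ Fn N` is `∑ j, sheetSum (F u_j) w_j` for the separability element `(u, w)`; the sheet
sums are polynomials in `baseZ M` and `1 / cuspFun M`, both in `torRingQb N`.
-/

set_option autoImplicit false

noncomputable section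

open scoped MatrixGroups Real
open UpperHalfPlane CongruenceSubgroup Polynomial

namespace FLTA.DeligneSerre

local notation "Qb" => AlgebraicClosure ℚ

section Level

variable {N M : ℕ} [NeZero N] [NeZero M]

theorem vecNondeg_level (hMN : M ∣ N) {v : Fin 2 → ℤ} (hv : VecNondeg M v) :
    VecNondeg N (fun i => ((N / M : ℕ) : ℤ) * v i) := fun h => hv fun i => by
  obtain ⟨k, rfl⟩ := hMN
  have hk : (k : ℤ) ≠ 0 := by exact_mod_cast right_ne_zero_of_mul (NeZero.ne (M * k))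
  have := h i
  rw [Nat.mul_div_cancel_left k (NeZero.pos M), Nat.cast_mul, mul_comm (M : ℤ)] at this
  exact (mul_dvd_mul_iff_left hk).1 this

theorem not_vecEq_level (hMN : M ∣ N) {v w : Fin 2 → ℤ} (h : ¬ VecEq M v w) :
    ¬ VecEq N (fun i => ((N / M : ℕ) : ℤ) * v i) (fun i => ((N / M : ℕ) : ℤ) * w i) := by
  obtain ⟨k, rfl⟩ := hMN
  have hk : (k : ℤ) ≠ 0 := by exact_mod_cast right_ne_zero_of_mul (NeZero.ne (M * k))
  rw [VecEq, Nat.mul_div_cancel_left k (NeZero.pos M), Nat.cast_mul, mul_comm (M : ℤ)]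
  simp only [← mul_sub, ← mul_add, mul_dvd_mul_iff_left hk]
  exact h

theorem torRatio_level_mem (hMN : M ∣ N) {a b c d : Fin 2 → ℤ} (ha : VecNondeg M a)
    (hb : VecNondeg M b) (hc : VecNondeg M c) (hd : VecNondeg M d) (hcd : ¬ VecEq M c d) :
    torRatio M a b c d ∈ torRing N := by
  have e : torRatio M a b c d = torRatio N (fun i => ((N / M : ℕ) : ℤ) * a i)
      (fun i => ((N / M : ℕ) : ℤ) * b i) (fun i => ((N / M : ℕ) : ℤ) * c i)
      (fun i => ((N / M : ℕ) : ℤ) * d i) := by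
    funext τ
    simp only [torRatio, torX_mul_level M hMN]
  rw [e]
  exact torRatio_mem_torRing (vecNondeg_level hMN ha) (vecNondeg_level hMN hb)
    (vecNondeg_level hMN hc) (vecNondeg_level hMN hd) (not_vecEq_level hMN hcd)

variable (hM : M = 2 ∨ M = 3) (hMN : M ∣ N)
include hM hMN

theorem baseZ_mem_torRing : baseZ M ∈ torRing N := by
  obtain ⟨h1, h2, h3, -, h5⟩ := vec_facts hM (1 : SL(2, ℤ))
  simp only [vecAct, Matrix.SpecialLinearGroup.coe_one, Matrix.vecMul_one] at h1 h2 h3 h5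
  exact torRatio_level_mem hMN h1 h2 h3 h2 h5

theorem cuspZ_mem_torRing (r : SL(2, ℤ)) : cuspZ M r ∈ torRing N := by
  obtain ⟨h1, h2, h3, -, h5⟩ := vec_facts hM (poleRep * r⁻¹)
  rw [cuspZ, baseZAt_eq_torRatio]
  exact torRatio_level_mem hMN h1 h2 h3 h2 h5

/-- The inverse of `cuspFun` lies in the ring generated by the ratios and the constants. -/
theorem inv_cuspFun_mem : (fun τ => (cuspFun M τ)⁻¹) ∈ torRingQb N := by
  have hterm : ∀ r ∈ cuspReps M,
      (fun τ => (baseZ M τ - (cexp M (baseZ M) r).coeff 0)⁻¹) ∈ torRingQb N := by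
    intro r hr
    obtain ⟨γ, hγ, -, h⟩ := exists_cuspZ_mul_eq hM (not_cuspRel_poleRep hM hr)
    obtain ⟨a, ha⟩ : ∃ a : Qb, iota a = (cexp M (cuspZ M r) poleRep).coeff 0 := by
      rw [cexp_cuspZ]; exact baseZ_isAlgFn hM _ 0
    obtain ⟨c, hc⟩ := baseZ_value_mem_range hM r
    rw [← ha, ← hc] at h
    obtain ⟨g₀, hg₀⟩ : ∃ g₀ : Qb, iota g₀ = γ := by
      have hmem : (cuspZ M r - Function.const ℍ (iota a)) *
          (baseZ M - Function.const ℍ (iota c)) ∈ AlgFn N :=
        torRingQb_le_algFn (mul_mem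
          (sub_mem (torRing_le_torRingQb N (cuspZ_mem_torRing hM hMN r)) (const_mem_torRingQb N a))
          (sub_mem (torRing_le_torRingQb N (baseZ_mem_torRing hM hMN)) (const_mem_torRingQb N c)))
      rw [show (cuspZ M r - Function.const ℍ (iota a)) *
          (baseZ M - Function.const ℍ (iota c)) = Function.const ℍ γ from funext h] at hmem
      obtain ⟨g₀, hg₀⟩ := hmem.2 1 0
      exact ⟨g₀, hg₀.trans (by rw [cexp_const]; simp)⟩
    have e : (fun τ => (baseZ M τ - (cexp M (baseZ M) r).coeff 0)⁻¹) =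
        (cuspZ M r - Function.const ℍ (iota a)) * Function.const ℍ (iota g₀⁻¹) := funext fun τ => by
      have h' := h τ
      simp only [Pi.mul_apply, Pi.sub_apply, Function.const_apply, map_inv₀, hg₀, ← hc] at h' ⊢
      refine inv_eq_of_mul_eq_one_right ?_
      rw [← mul_assoc, mul_comm (baseZ M τ - iota c), h', mul_inv_cancel₀ hγ]
    rw [e]
    exact mul_mem (sub_mem (torRing_le_torRingQb N (cuspZ_mem_torRing hM hMN r))
      (const_mem_torRingQb N a)) (const_mem_torRingQb N _)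
  have e : (fun τ => (cuspFun M τ)⁻¹) =
      ∏ r ∈ cuspReps M, fun τ => (baseZ M τ - (cexp M (baseZ M) r).coeff 0)⁻¹ := funext fun τ => by
    rw [Finset.prod_apply, cuspFun_eq_prod hM, Finset.prod_inv_distrib]
  rw [e]
  exact prod_mem hterm

theorem eval_map_baseZ_mem {R : Type*} [CommRing R] (f : R →+* ℂ) {S : Subring (ℍ → ℂ)}
    (hS : torRing N ≤ S) (hf : ∀ x, Function.const ℍ (f x) ∈ S) (p : R[X]) :
    (fun τ => (p.map f).eval (baseZ M τ)) ∈ S := by
  induction p using Polynomial.induction_on' with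
  | add p q hp hq =>
    have e : (fun τ => ((p + q).map f).eval (baseZ M τ)) =
        (fun τ => (p.map f).eval (baseZ M τ)) + fun τ => (q.map f).eval (baseZ M τ) :=
      funext fun τ => by simp
    rw [e]
    exact add_mem hp hq
  | monomial n a =>
    have e : (fun τ => ((monomial n a).map f).eval (baseZ M τ)) =
        Function.const ℍ (f a) * baseZ M ^ n := funext fun τ => by simp
    rw [e]
    exact mul_mem (hf a) (pow_mem (hS (baseZ_mem_torRing hM hMN)) n)

/-- The separability element, with entries in `torRing N`. -/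
theorem exists_sep_torRing :
    ∃ (n : ℕ) (u w : Fin n → ℍ → ℂ), (∀ j, u j ∈ torRing N) ∧ (∀ j, w j ∈ torRing N) ∧
      ∀ g ∈ levReps N M, ∀ g' ∈ levReps N M, ∀ τ : ℍ,
        (∑ j, u j (g • τ) * w j (g' • τ)) = if g = g' then 1 else 0 := by
  obtain ⟨hmem, -, huniq⟩ := levReps_spec (N := N) hM hMN
  obtain ⟨n, u, w, hu, hw, h⟩ := exists_sepKernel_sheets (N := N) (by omega : 2 ≤ M) hMN
  refine ⟨n, u, w, hu, hw, fun g hg g' hg' τ => ?_⟩
  split_ifs with hgg
  · exact (h g (hmem g hg) g' (hmem g' hg') τ).1 (Or.inl (by simp [hgg]))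
  · refine (h g (hmem g hg) g' (hmem g' hg') τ).2 fun he => hgg ?_
    obtain ⟨x, -, hx⟩ := huniq g (hmem g hg)
    exact (hx g ⟨hg, Or.inl (by simp)⟩).trans (hx g' ⟨hg', he⟩).symm

omit hMN in
/-- The expansion over the sheets. -/
theorem sum_sheetSum_mul (hMN : M ∣ N) {n : ℕ} {u w : Fin n → ℍ → ℂ}
    (hsep : ∀ g ∈ levReps N M, ∀ g' ∈ levReps N M, ∀ τ : ℍ,
      (∑ j, u j (g • τ) * w j (g' • τ)) = if g = g' then 1 else 0) (F : ℍ → ℂ) (τ : ℍ) :
    ∑ j, sheetSum N M (F * u j) τ * w j τ = F τ := by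
  classical
  have h1 := (levReps_spec (N := N) hM hMN).2.1
  simp only [sheetSum, Finset.sum_mul, Pi.mul_apply]
  rw [Finset.sum_comm]
  have e : ∀ g ∈ levReps N M, ∑ j, F (g • τ) * u j (g • τ) * w j τ =
      F (g • τ) * if g = 1 then 1 else 0 := fun g hg => by
    rw [← hsep g hg 1 h1 τ, Finset.mul_sum]
    simp [mul_assoc]
  rw [Finset.sum_congr rfl e]
  simp [mul_ite, Finset.sum_ite_eq', h1]

omit [NeZero M] hM hMN in
theorem isAlgFn_sheetSum {F : ℍ → ℂ} (hF : F ∈ AlgFn N) : IsAlgFn N (sheetSum N M F) := by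
  have e : sheetSum N M F = ∑ g ∈ levReps N M, fun τ : ℍ => F (g • τ) :=
    funext fun τ => by simp [sheetSum]
  rw [e]
  have hg : ∀ g : SL(2, ℤ), (fun τ : ℍ => F (g • τ)) ∈ AlgFn N :=
    fun g => ⟨PerFn.comp hF.1 g, hF.2.comp g⟩
  exact (sum_mem fun g _ => hg g).2

end Level

section

variable {N M : ℕ} [NeZero N] [NeZero M] (hM : M = 2 ∨ M = 3) (hMN : M ∣ N)
include hM

include hMN

/-- Algebraic functions are polynomials in the ratios and the algebraic constants. -/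
theorem mem_torRingQb {F : ℍ → ℂ} (hF : F ∈ Fn N) (ha : IsAlgFn N F) : F ∈ torRingQb N := by
  obtain ⟨n, u, w, hu, hw, hsep⟩ := exists_sep_torRing hM hMN
  have hFu : ∀ j, F * u j ∈ Fn N := fun j => mul_mem hF (torRing_le_fn (hu j))
  have e : F = ∑ j, sheetSum N M (F * u j) * w j := funext fun τ => by
    simp [sum_sheetSum_mul hM hMN hsep F τ]
  rw [e]
  refine sum_mem fun j _ => mul_mem ?_ (torRing_le_torRingQb N (hw j))
  obtain ⟨hS, hinv⟩ := sheetSum_mem hM hMN (hFu j)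
  obtain ⟨p, k, hp⟩ := exists_poly_of_invariant_alg hM hMN hS (isAlgFn_sheetSum
    (mul_mem (⟨fn_le_perFn hF, ha⟩ : F ∈ AlgFn N) (torRing_le_algFn (hu j)))) hinv
  have e2 : sheetSum N M (F * u j) =
      (fun τ => (p.map iota).eval (baseZ M τ)) * (fun τ => (cuspFun M τ)⁻¹) ^ k := funext fun τ => by
    rw [Pi.mul_apply, Pi.pow_apply, inv_pow, ← hp τ,
      mul_inv_cancel_right₀ (pow_ne_zero _ (cuspFun_ne_zero hM τ))]
  rw [e2]
  exact mul_mem (eval_map_baseZ_mem hM hMN iota (torRing_le_torRingQb N)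
    (fun x => const_mem_torRingQb N x) p) (pow_mem (inv_cuspFun_mem hM hMN) k)

/-- Functions with algebraic expansions span. -/
theorem fn_le_span_alg :
    Subalgebra.toSubmodule (Fn N) ≤ Submodule.span ℂ {F | F ∈ Fn N ∧ IsAlgFn N F} := by
  intro F hF
  rw [Subalgebra.mem_toSubmodule] at hF
  obtain ⟨n, u, w, hu, hw, hsep⟩ := exists_sep_torRing hM hMN
  have e : F = ∑ j, sheetSum N M (F * u j) * w j := funext fun τ => by
    simp [sum_sheetSum_mul hM hMN hsep F τ]
  rw [e]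
  refine Submodule.sum_mem _ fun j _ => ?_
  obtain ⟨hS, hinv⟩ := sheetSum_mem hM hMN (mul_mem hF (torRing_le_fn (hu j)) :
    F * u j ∈ Fn N)
  obtain ⟨p, k, hp⟩ := exists_poly_of_invariant hM hMN hS hinv
  have e2 : sheetSum N M (F * u j) * w j = ∑ i ∈ Finset.range (p.natDegree + 1),
      p.coeff i • (baseZ M ^ i * (fun τ => (cuspFun M τ)⁻¹) ^ k * w j) := funext fun τ => by
    simp only [Pi.mul_apply, Finset.sum_apply, Pi.smul_apply, Pi.pow_apply, smul_eq_mul]
    rw [show sheetSum N M (F * u j) τ = p.eval (baseZ M τ) * (cuspFun M τ)⁻¹ ^ k by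
      rw [inv_pow, ← hp τ, mul_inv_cancel_right₀ (pow_ne_zero _ (cuspFun_ne_zero hM τ))],
      Polynomial.eval_eq_sum_range, Finset.sum_mul, Finset.sum_mul]
    exact Finset.sum_congr rfl fun i _ => by ring
  rw [e2]
  refine Submodule.sum_mem _ fun i _ => Submodule.smul_mem _ _ (Submodule.subset_span ?_)
  have hm : baseZ M ^ i * (fun τ => (cuspFun M τ)⁻¹) ^ k * w j ∈ torRingQb N :=
    mul_mem (mul_mem (pow_mem (torRing_le_torRingQb N (baseZ_mem_torRing hM hMN)) i)
      (pow_mem (inv_cuspFun_mem hM hMN) k)) (torRing_le_torRingQb N (hw j))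
  exact ⟨torRingQb_le_fn hm, (torRingQb_le_algFn hm).2⟩

/-- Every algebra hom `Fn N → ℂ` is an evaluation. -/
theorem exists_eq_eval (e : Fn N →ₐ[ℂ] ℂ) : ∃ τ : ℍ, ∀ F : Fn N, e F = (F : ℍ → ℂ) τ := by
  classical
  obtain ⟨n, u, w, hu, hw, hsep⟩ := exists_sep_torRing hM hMN
  let z : Fn N := ⟨baseZ M, torRing_le_fn (baseZ_mem_torRing hM hMN)⟩
  have heval : ∀ p : ℂ[X], ((aeval z p : Fn N) : ℍ → ℂ) = fun τ => p.eval (baseZ M τ) := fun p => by
    funext τ
    have h := Polynomial.aeval_algHom_apply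
      ((Pi.evalAlgHom ℂ (fun _ : ℍ => ℂ) τ).comp (Fn N).val) z p
    rw [Polynomial.coe_aeval_eq_eval] at h
    exact h.symm
  set q : ℂ[X] := (cuspPoly M).map iota
  have hq0 : q.eval (e z) ≠ 0 := fun h0 => by
    have h1 : aeval z q * (⟨_, torRingQb_le_fn (inv_cuspFun_mem hM hMN)⟩ : Fn N) = 1 := by
      refine Subtype.ext ?_
      rw [MulMemClass.coe_mul, heval]
      exact funext fun τ => mul_inv_cancel₀ (cuspFun_ne_zero hM τ)
    have h2 := congrArg e h1
    rw [map_mul, map_one, ← Polynomial.aeval_algHom_apply, Polynomial.coe_aeval_eq_eval, h0,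
      zero_mul] at h2
    exact zero_ne_one h2
  obtain ⟨τ₀, hτ₀⟩ := exists_baseZ_eq hM (e z) hq0
  -- invariant functions are evaluated at `τ₀`
  have hinvariant : ∀ (S : ℍ → ℂ) (hS : S ∈ Fn N),
      (∀ γ ∈ Gamma M, ∀ τ : ℍ, S (γ • τ) = S τ) → e ⟨S, hS⟩ = S τ₀ := by
    intro S hS hinv
    obtain ⟨p, k, hp⟩ := exists_poly_of_invariant hM hMN hS hinv
    have h1 : (⟨S, hS⟩ : Fn N) * aeval z q ^ k = aeval z p := by
      refine Subtype.ext ?_
      rw [MulMemClass.coe_mul, SubmonoidClass.coe_pow, heval, heval]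
      exact funext hp
    have h2 := congrArg e h1
    rw [map_mul, map_pow, ← Polynomial.aeval_algHom_apply, ← Polynomial.aeval_algHom_apply,
      Polynomial.coe_aeval_eq_eval, ← hτ₀] at h2
    have h3 := hp τ₀
    rw [show cuspFun M τ₀ = q.eval (baseZ M τ₀) from rfl, ← h2] at h3
    exact (mul_right_cancel₀ (pow_ne_zero _ (hτ₀ ▸ hq0)) h3).symm
  let u' : Fin n → Fn N := fun j => ⟨u j, torRing_le_fn (hu j)⟩
  let w' : Fin n → Fn N := fun j => ⟨w j, torRing_le_fn (hw j)⟩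
  let ε : SL(2, ℤ) → ℂ := fun g => ∑ j, u j (g • τ₀) * e (w' j)
  have hexp : ∀ F : Fn N, e F = ∑ g ∈ levReps N M, (F : ℍ → ℂ) (g • τ₀) * ε g := by
    intro F
    have hm := fun j => sheetSum_mem hM hMN (mul_mem F.2 (u' j).2)
    have hF : F = ∑ j, (⟨_, (hm j).1⟩ : Fn N) * w' j := Subtype.ext <| funext fun τ => by
      simp [w', u', sum_sheetSum_mul hM hMN hsep (F : ℍ → ℂ) τ]
    conv_lhs => rw [hF]
    rw [map_sum]
    simp only [map_mul, hinvariant _ _ (hm _).2]
    simp only [sheetSum, Finset.sum_mul, Pi.mul_apply, ε, Finset.mul_sum]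
    rw [Finset.sum_comm]
    exact Finset.sum_congr rfl fun g _ => Finset.sum_congr rfl fun j _ => by
      simp only [u']; ring
  obtain ⟨g, hg, hε⟩ : ∃ g ∈ levReps N M, ε g ≠ 0 := by
    refine Finset.exists_ne_zero_of_sum_ne_zero (f := ε) ?_
    have h1 := hexp 1
    simp only [map_one, OneMemClass.coe_one, Pi.one_apply, one_mul] at h1
    rw [← h1]
    exact one_ne_zero
  set h : Fn N := ∑ j, u j (g • τ₀) • w' j with hh
  have heh : e h = ε g := by simp [hh, ε, map_sum, map_smul]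
  have hval : ∀ g' ∈ levReps N M, (h : ℍ → ℂ) (g' • τ₀) = if g = g' then 1 else 0 :=
    fun g' hg' => by simp [hh, w', ← hsep g hg g' hg' τ₀, Finset.sum_apply]
  refine ⟨g • τ₀, fun F => mul_right_cancel₀ hε ?_⟩
  conv_lhs => rw [← heh, ← map_mul, hexp]
  rw [Finset.sum_eq_single g]
  · rw [MulMemClass.coe_mul, Pi.mul_apply, hval g hg, if_pos rfl, mul_one]
  · intro g' hg' hne
    rw [MulMemClass.coe_mul, Pi.mul_apply, hval g' hg', if_neg (Ne.symm hne), mul_zero, zero_mul]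
  · exact fun h' => absurd hg h'

/-- Algebraic functions are polynomials in the ratios of torsion values. -/
theorem mem_closure_torRatio {F : ℍ → ℂ} (hF : F ∈ Fn N) (ha : IsAlgFn N F) :
    F ∈ Subring.closure ({G | ∃ x : Qb, G = Function.const ℍ (iota x)} ∪
      {G | ∃ a b c d : Fin 2 → ℤ, VecNondeg N a ∧ VecNondeg N b ∧ VecNondeg N c ∧ VecNondeg N d ∧
        ¬ VecEq N a b ∧ ¬ VecEq N c d ∧ G = torRatio N a b c d}) :=
  mem_torRingQb hM hMN hF ha

/-- Bounded denominators. -/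
theorem exists_denom {F : ℍ → ℂ} (hF : F ∈ Fn N) (ha : IsAlgFn N F) :
    ∃ D : ℕ, D ≠ 0 ∧ ∀ (g : SL(2, ℤ)) (k : ℤ),
      ∃ a : Qb, IsIntegral ℤ a ∧ iota a = (D : ℂ) * (cexp N F g).coeff k := by
  obtain ⟨-, ⟨D, hD, hDg⟩, -⟩ := torRingQb_le_denomFn (mem_torRingQb hM hMN hF ha)
  refine ⟨D, hD, fun g k => ?_⟩
  obtain ⟨a, ha'⟩ := (mem_range_coeffMap_iff intC_injective).1 (hDg g) k
  exact ⟨(a : Qb), a.2, by rw [← coeff_C_mul, ← ha']; rfl⟩

/-- The coefficients at infinity generate a number field. -/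
theorem exists_finset_fix {F : ℍ → ℂ} (hF : F ∈ Fn N) (ha : IsAlgFn N F) :
    ∃ K : IntermediateField ℚ Qb, FiniteDimensional ℚ K ∧
      ∀ (g : SL(2, ℤ)) (k : ℤ), ∃ a ∈ K, iota a = (cexp N F g).coeff k := by
  obtain ⟨-, -, K, hK, hKg⟩ := torRingQb_le_denomFn (mem_torRingQb hM hMN hF ha)
  refine ⟨K, hK, fun g k => ?_⟩
  obtain ⟨a, ha'⟩ := (mem_range_coeffMap_iff (iota.comp K.val.toRingHom).injective).1
    (hKg g) k
  exact ⟨a, a.2, ha'⟩

/-- Every nonzero algebraic function has a scalar multiple which is integral with nonzero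
reduction at infinity. -/
theorem exists_scale {l : ℕ} (hl : l.Prime) (hlN : ¬ l ∣ N) {A : ValuationSubring Qb}
    (hA : A.LiesOverPrime l) {F : ℍ → ℂ} (hF : F ∈ Fn N) (ha : IsAlgFn N F) (h0 : F ≠ 0) :
    ∃ c : Qb, c ≠ 0 ∧ IsIntFn A N (iota c • F) ∧ ∃ g, redExp A N (iota c • F) g ≠ 0 := by
  obtain ⟨D, hD, hDa⟩ := exists_denom hM hMN hF ha
  obtain ⟨K, hK, hKa⟩ := exists_finset_fix hM hMN hF ha
  have hNF : NumberField K := NumberField.mk
  have : IsNoetherian ℤ (integralClosure ℤ K) := IsIntegralClosure.isNoetherian ℤ ℚ K _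
  let S : Set (integralClosure ℤ K) :=
    {x | ∃ g k, iota (((x : K) : Qb)) = (D : ℂ) * (cexp N F g).coeff k}
  have hS : ∀ g k, ∃ x ∈ S, iota (((x : K) : Qb)) = (D : ℂ) * (cexp N F g).coeff k := by
    intro g k
    obtain ⟨a, hai, ha1⟩ := hDa g k
    obtain ⟨b, hbK, hb⟩ := hKa g k
    have hab : a = (D : Qb) * b := iota.injective (by rw [ha1, map_mul, map_natCast, hb])
    have haK : a ∈ K := hab ▸ mul_mem (natCast_mem K D) hbK
    have hint : IsIntegral ℤ (⟨a, haK⟩ : K) :=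
      (isIntegral_algHom_iff (K.val.restrictScalars ℤ) Subtype.val_injective).1 hai
    exact ⟨⟨⟨a, haK⟩, hint⟩, ⟨g, k, ha1⟩, ha1⟩
  obtain ⟨t, htS, ht⟩ := (Submodule.fg_span_iff_fg_span_finset_subset (R := ℤ) S).1
    (IsNoetherian.noetherian _)
  have hP : PerFn N := ⟨F, fn_le_perFn hF⟩
  have hne : t.Nonempty := by
    rw [Finset.nonempty_iff_ne_empty]
    rintro rfl
    have hk : ∃ k, (cexp N F 1).coeff k ≠ 0 := by
      by_contra hk
      push Not at hk
      exact h0 ((cexp_eq_zero_iff (fn_le_perFn hF) 1).1 (HahnSeries.ext (funext hk)))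
    obtain ⟨k, hk⟩ := hk
    obtain ⟨x, hxS, hx⟩ := hS 1 k
    have : x ∈ Submodule.span ℤ S := Submodule.subset_span hxS
    rw [ht] at this
    simp only [Finset.coe_empty, Submodule.span_empty, Submodule.mem_bot] at this
    rw [this, ZeroMemClass.coe_zero, ZeroMemClass.coe_zero, map_zero] at hx
    exact hk ((mul_eq_zero.1 hx.symm).resolve_left (Nat.cast_ne_zero.2 hD))
  obtain ⟨x₀, hx₀, hmax⟩ := t.exists_max_image (fun x => A.valuation ((x : K) : Qb)) hne
  have hle : ∀ g k, ∀ a : Qb, iota a = (D : ℂ) * (cexp N F g).coeff k →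
      A.valuation a ≤ A.valuation ((x₀ : K) : Qb) := by
    intro g k a ha1
    obtain ⟨x, hxS, hx⟩ := hS g k
    rw [← iota.injective (hx.trans ha1.symm)]
    have hxm : x ∈ Submodule.span ℤ S := Submodule.subset_span hxS
    rw [ht] at hxm
    clear hx ha1 hxS
    induction hxm using Submodule.span_induction with
    | mem y hy => exact hmax y hy
    | zero => simp
    | add y y' _ _ h1 h2 =>
      push_cast
      exact (A.valuation.map_add _ _).trans (max_le h1 h2)
    | smul m y _ h1 =>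
      push_cast
      rw [zsmul_eq_mul, map_mul]
      exact (mul_le_of_le_one_left' ((A.valuation_le_one_iff _).2 (intCast_mem A m))).trans h1
  obtain ⟨g₀, k₀, hg₀⟩ := htS hx₀
  have hx0 : ((x₀ : K) : Qb) ≠ 0 := by
    intro hz
    apply h0
    refine (cexp_eq_zero_iff (fn_le_perFn hF) 1).1 (HahnSeries.ext (funext fun k => ?_))
    obtain ⟨a, -, ha1⟩ := hDa 1 k
    have := hle 1 k a ha1
    rw [hz, map_zero] at this
    rw [(A.valuation.zero_iff).1 (le_zero_iff.1 this), map_zero] at ha1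
    exact (mul_eq_zero.1 ha1.symm).resolve_left (Nat.cast_ne_zero.2 hD)
  set c : Qb := (D : Qb) * ((x₀ : K) : Qb)⁻¹
  have hc : ∀ g k, ∃ a : A, iota (a : Qb) = (cexp N (iota c • F) g).coeff k := by
    intro g k
    obtain ⟨a, -, ha1⟩ := hDa g k
    have hmem : a * ((x₀ : K) : Qb)⁻¹ ∈ A := by
      rw [← A.valuation_le_one_iff, map_mul, map_inv₀]
      exact mul_inv_le_one_of_le₀ (hle g k a ha1) zero_le
    refine ⟨⟨_, hmem⟩, ?_⟩
    rw [cexp_smul (fn_le_perFn hF), HahnSeries.coeff_smul, smul_eq_mul]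
    show iota (a * ((x₀ : K) : Qb)⁻¹) = iota c * _
    rw [map_mul, ha1, map_mul, map_natCast]
    ring
  refine ⟨c, mul_ne_zero (Nat.cast_ne_zero.2 hD) (inv_ne_zero hx0), hc, g₀, fun hred => ?_⟩
  have h1 : (cexp N (iota c • F) g₀).coeff k₀ = iota ((1 : A) : Qb) := by
    rw [cexp_smul (fn_le_perFn hF), HahnSeries.coeff_smul, smul_eq_mul, OneMemClass.coe_one,
      map_one, map_mul, map_inv₀, map_natCast, mul_assoc, mul_left_comm, ← hg₀,
      inv_mul_cancel₀ (by simpa using hx0)]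
  have h2 : (redExp A N (iota c • F) g₀).coeff k₀ = 1 := by
    show redC A ((cexp N (iota c • F) g₀).coeff k₀) = 1
    rw [h1, redC_iota, map_one]
  rw [hred] at h2
  exact zero_ne_one h2

end

end FLTA.DeligneSerre
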