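import Fermat.Agent.DeligneSerre.Level.BaseCusps
import Fermat.Agent.Dim.Defs
import Mathlib.Algebra.Polynomial.AlgebraMap

/-!
# The base curve `X(M)` has genus zero: Liouville arguments

A `Γ(M)`-invariant function regular at every cusp is constant.  Hence
`(cuspZ M r - α) * (baseZ M - c) = γ ≠ 0` for each finite cusp value `c`, and every function in
`Fn M` is a polynomial in `baseZ M` and `1 / cuspPoly (baseZ M)`, with coefficients in any ring
containing those of the expansions and the inverses of the leading ones.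
-/

set_option autoImplicit false

noncomputable section

open scoped MatrixGroups ModularForm
open UpperHalfPlane hiding I
open CongruenceSubgroup Polynomial

namespace FLTA.DeligneSerre

open ModularCurve (coeffMap)

local notation "Qb" => AlgebraicClosure ℚ

/-- The value of `baseZ M` at the cusp of `r`. -/
def cuspVal (M : ℕ) (r : SL(2, ℤ)) : Qb :=
  Classical.epsilon fun a : Qb => iota a = (cexp M (baseZ M) r).coeff 0

/-- The finite values of `baseZ M` at cusps, as roots of an algebraic polynomial. -/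
def cuspPoly (M : ℕ) : Qb[X] := ∏ r ∈ cuspReps M, (X - C (cuspVal M r))

/-- The reciprocal-free version over `ℂ`. -/
def cuspFun (M : ℕ) (τ : ℍ) : ℂ := ((cuspPoly M).map iota).eval (baseZ M τ)

/-! ## Series vanishing below a bound -/

/-- The coefficients below `n` vanish. -/
def VanishBelow (n : ℤ) (S : LaurentSeries ℂ) : Prop := ∀ m < n, S.coeff m = 0

section VanishBelow

variable {n m : ℤ} {S T : LaurentSeries ℂ}

theorem VanishBelow.mono (h : VanishBelow n S) (hm : m ≤ n) : VanishBelow m S :=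
  fun i hi => h i (lt_of_lt_of_le hi hm)

theorem vanishBelow_order (S : LaurentSeries ℂ) : VanishBelow S.order S :=
  fun _ hi => HahnSeries.coeff_eq_zero_of_lt_order hi

theorem VanishBelow.le_order (h : VanishBelow n S) (hn : n ≤ 0) : n ≤ S.order := by
  rcases eq_or_ne S 0 with rfl | hS
  · simpa using hn
  · by_contra hc
    exact hS (HahnSeries.coeff_order_eq_zero.1 (h _ (not_le.1 hc)))

theorem VanishBelow.add (hS : VanishBelow n S) (hT : VanishBelow n T) : VanishBelow n (S + T) :=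
  fun i hi => by simp [hS i hi, hT i hi]

theorem VanishBelow.sub (hS : VanishBelow n S) (hT : VanishBelow n T) : VanishBelow n (S - T) :=
  fun i hi => by simp [hS i hi, hT i hi]

theorem VanishBelow.smul (hS : VanishBelow n S) (c : ℂ) : VanishBelow n (c • S) :=
  fun i hi => by simp [hS i hi]

theorem VanishBelow.mul (hS : VanishBelow n S) (hT : VanishBelow m T) :
    VanishBelow (n + m) (S * T) := fun i hi => by
  rw [HahnSeries.coeff_mul]
  refine Finset.sum_eq_zero fun x hx => ?_
  rw [Finset.mem_antidiagonal] at hx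
  rcases lt_or_ge x.1 n with h | h
  · rw [hS _ h, zero_mul]
  · rw [hT x.2 (by omega), mul_zero]

theorem coeff_add_mul_of_vanishBelow (hS : VanishBelow n S) (hT : VanishBelow m T) :
    (S * T).coeff (n + m) = S.coeff n * T.coeff m := by
  rw [HahnSeries.coeff_mul]
  refine Finset.sum_eq_single (n, m) (fun x hx hne => ?_) fun hx => ?_
  · rw [Finset.mem_antidiagonal] at hx
    rcases lt_trichotomy x.1 n with h | h | h
    · rw [hS _ h, zero_mul]
    · exact absurd (Prod.ext h (by omega)) hne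
    · rw [hT x.2 (by omega), mul_zero]
  · by_contra hc
    refine hx (Finset.mem_antidiagonal.2 ⟨fun h => hc ?_, fun h => hc ?_, rfl⟩) <;> simp_all

theorem VanishBelow.pow (hS : VanishBelow n S) (k : ℕ) :
    VanishBelow (k * n) (S ^ k) ∧ (S ^ k).coeff (k * n) = S.coeff n ^ k := by
  induction k with
  | zero =>
    refine ⟨fun i hi => ?_, by simp⟩
    rw [pow_zero, HahnSeries.coeff_one, if_neg]
    simpa using hi.ne
  | succ k ih =>
    rw [pow_succ, show ((k + 1 : ℕ) : ℤ) * n = k * n + n by push_cast; ring]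
    exact ⟨ih.1.mul hS, by rw [coeff_add_mul_of_vanishBelow ih.1 hS, ih.2, pow_succ]⟩

theorem vanishBelow_single (c : ℂ) (i : ℤ) : VanishBelow i (HahnSeries.single i c) :=
  fun _ hj => HahnSeries.coeff_single_of_ne hj.ne

theorem coeff_single_zero_mul (c : ℂ) (i : ℤ) :
    (HahnSeries.single (0 : ℤ) c * S).coeff i = c * S.coeff i := by
  simp

end VanishBelow

/-! ## Constants -/

theorem cexp_const {N : ℕ} [NeZero N] (c : ℂ) (g : SL(2, ℤ)) :
    cexp N (Function.const ℍ c) g = HahnSeries.single 0 c := by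
  have h : algebraMap ℂ (ℍ → ℂ) c ∈ PerFn N := Subalgebra.algebraMap_mem _ c
  rw [show Function.const ℍ c = algebraMap ℂ (ℍ → ℂ) c from rfl, cexp_eq h,
    show (⟨algebraMap ℂ (ℍ → ℂ) c, h⟩ : PerFn N) = algebraMap ℂ (PerFn N) c from rfl,
    AlgHom.commutes, ModularCurve.algebraMap_laurentSeries_eq_single]

theorem const_mem_fn {N : ℕ} (c : ℂ) : Function.const ℍ c ∈ Fn N :=
  Subalgebra.algebraMap_mem (Fn N) c

variable {M : ℕ} [NeZero M]

/-- Invariant functions bounded at every cusp are constant. -/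
theorem fn_eq_const {F : ℍ → ℂ} (hF : F ∈ Fn M) (h : ∀ g, VanishBelow 0 (cexp M F g)) :
    F = Function.const ℍ ((cexp M F 1).coeff 0) := by
  have hmf : F ∈ FLTA.Dim.MF (Gamma M) 0 := by
    refine ⟨hF.1, fun γ hγ => ?_, fun g => ?_⟩
    · funext τ
      rw [ModularForm.SL_slash_apply, hF.2.1 γ hγ]
      simp
    · have e : (F ∣[(0 : ℤ)] g) = fun τ : ℍ => F (g • τ) := by
        funext τ
        rw [ModularForm.SL_slash_apply]
        simp
      rw [e, isBoundedAtImInfty_iff_cexp_order (fn_le_perFn hF)]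
      exact (h g).le_order le_rfl
  obtain ⟨c, hc⟩ := FLTA.Dim.exists_eq_const_of_mem_MF_zero hmf
  have hc' : F = Function.const ℍ c := hc
  rw [hc', cexp_const]
  simp

/-! ## The translates `cuspZ` -/

variable (hM : M = 2 ∨ M = 3)
include hM

theorem vanishBelow_cuspZ (r g : SL(2, ℤ)) : VanishBelow (-1) (cexp M (cuspZ M r) g) := by
  by_cases h : CuspRel M r g
  · rw [← order_cuspZ_pole hM h]
    exact vanishBelow_order _
  · exact (vanishBelow_order _).mono (le_trans (by norm_num) (order_cuspZ_nonneg hM h))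

theorem vanishBelow_zero_cuspZ {r g : SL(2, ℤ)} (h : ¬ CuspRel M r g) :
    VanishBelow 0 (cexp M (cuspZ M r) g) :=
  (vanishBelow_order _).mono (order_cuspZ_nonneg hM h)

theorem coeff_neg_one_cuspZ_ne_zero (r : SL(2, ℤ)) :
    (cexp M (cuspZ M r) r).coeff (-1) ≠ 0 := by
  have ho := order_cuspZ_pole hM (cuspRel_self (M := M) r)
  rw [← ho, ne_eq, HahnSeries.coeff_order_eq_zero]
  intro h0
  rw [h0, HahnSeries.order_zero] at ho
  norm_num at ho

theorem cuspZ_ne_const (r : SL(2, ℤ)) (c : ℂ) : cuspZ M r ≠ Function.const ℍ c := fun h =>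
  coeff_neg_one_cuspZ_ne_zero hM r (by rw [h, cexp_const]; simp)

theorem baseZ_ne_const (c : ℂ) : baseZ M ≠ Function.const ℍ c := by
  rw [← cuspZ_poleRep]
  exact cuspZ_ne_const hM _ c

theorem baseZ_value_mem_range (g : SL(2, ℤ)) :
    ∃ a : Qb, iota a = (cexp M (baseZ M) g).coeff 0 :=
  baseZ_isAlgFn hM g 0

theorem iota_cuspVal (r : SL(2, ℤ)) : iota (cuspVal M r) = (cexp M (baseZ M) r).coeff 0 :=
  Classical.epsilon_spec (baseZ_value_mem_range hM r)

theorem cuspFun_eq_prod (τ : ℍ) :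
    cuspFun M τ = ∏ r ∈ cuspReps M, (baseZ M τ - (cexp M (baseZ M) r).coeff 0) := by
  simp [cuspFun, cuspPoly, Polynomial.map_prod, Polynomial.eval_prod, iota_cuspVal hM]

/-- `(cuspZ M r - α) * (baseZ M - c)` is a nonzero constant. -/
theorem exists_cuspZ_mul_eq {r : SL(2, ℤ)} (hr : ¬ CuspRel M poleRep r) :
    ∃ γ : ℂ, γ ≠ 0 ∧ γ = (cexp M (cuspZ M r * baseZ M - ((cexp M (baseZ M) r).coeff 0) • cuspZ M r -
        ((cexp M (cuspZ M r) poleRep).coeff 0) • baseZ M) 1).coeff 0 + ((cexp M (cuspZ M r) poleRep).coeff 0) * ((cexp M (baseZ M) r).coeff 0) ∧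
      ∀ τ, (cuspZ M r τ - ((cexp M (cuspZ M r) poleRep).coeff 0)) * (baseZ M τ - ((cexp M (baseZ M) r).coeff 0)) = γ := by
  set α := (cexp M (cuspZ M r) poleRep).coeff 0 with hα
  set c := (cexp M (baseZ M) r).coeff 0 with hc
  have hz := baseZ_mem hM
  have hw := cuspZ_mem hM r
  set F := cuspZ M r * baseZ M - c • cuspZ M r - α • baseZ M with hF
  have hFm : F ∈ Fn M :=
    sub_mem (sub_mem (mul_mem hw hz) (Subalgebra.smul_mem _ hw c)) (Subalgebra.smul_mem _ hz α)
  have hP := fun {G : ℍ → ℂ} (hG : G ∈ Fn M) => fn_le_perFn hG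
  have hexp : ∀ g, cexp M F g = cexp M (cuspZ M r) g * cexp M (baseZ M) g -
      c • cexp M (cuspZ M r) g - α • cexp M (baseZ M) g := fun g => by
    rw [hF, cexp_sub (hP (sub_mem (mul_mem hw hz) (Subalgebra.smul_mem _ hw c)))
        (hP (Subalgebra.smul_mem _ hz α)),
      cexp_sub (hP (mul_mem hw hz)) (hP (Subalgebra.smul_mem _ hw c)),
      cexp_mul (hP hw) (hP hz), cexp_smul (hP hw), cexp_smul (hP hz)]
  have hreg : ∀ g, VanishBelow 0 (cexp M F g) := by
    intro g
    rw [hexp]
    by_cases hgp : CuspRel M poleRep g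
    · have hgr : ¬ CuspRel M r g := fun h => by
        obtain ⟨k, hk⟩ := coeff_cexp_of_cuspRel hM hz h
        have h1 := order_baseZ_pole hM hgp
        have h2 : VanishBelow 0 (cexp M (baseZ M) g) := fun m hm => by
          rw [hk m, (vanishBelow_order _).mono (order_baseZ_nonneg hM hr) m hm, mul_zero]
        have := h2.le_order le_rfl
        omega
      have hW : VanishBelow 1 (cexp M (cuspZ M r) g - HahnSeries.single 0 α) := fun m hm => by
        rcases eq_or_lt_of_le (show m ≤ 0 by omega) with rfl | hm0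
        · simp [hα, coeff_zero_cexp_of_cuspRel hM hw hgp]
        · simp [vanishBelow_zero_cuspZ hM hgr m hm0, hm0.ne]
      have hZ : VanishBelow (-1) (cexp M (baseZ M) g) := by
        rw [← order_baseZ_pole hM hgp]; exact vanishBelow_order _
      have e : cexp M (cuspZ M r) g * cexp M (baseZ M) g - c • cexp M (cuspZ M r) g -
          α • cexp M (baseZ M) g = (cexp M (cuspZ M r) g - HahnSeries.single 0 α) *
            cexp M (baseZ M) g - c • cexp M (cuspZ M r) g := by
        rw [sub_mul, HahnSeries.single_zero_mul_eq_smul]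
        ring
      rw [e]
      exact ((hW.mul hZ).mono (by norm_num)).sub ((vanishBelow_zero_cuspZ hM hgr).smul c)
    · have hZ : VanishBelow 0 (cexp M (baseZ M) g) :=
        (vanishBelow_order _).mono (order_baseZ_nonneg hM hgp)
      by_cases hgr : CuspRel M r g
      · have hZ' : VanishBelow 1 (cexp M (baseZ M) g - HahnSeries.single 0 c) := fun m hm => by
          rcases eq_or_lt_of_le (show m ≤ 0 by omega) with rfl | hm0
          · simp [hc, coeff_zero_cexp_of_cuspRel hM hz hgr]
          · simp [hZ m hm0, hm0.ne]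
        have e : cexp M (cuspZ M r) g * cexp M (baseZ M) g - c • cexp M (cuspZ M r) g -
            α • cexp M (baseZ M) g = cexp M (cuspZ M r) g *
              (cexp M (baseZ M) g - HahnSeries.single 0 c) - α • cexp M (baseZ M) g := by
          rw [mul_sub, mul_comm _ (HahnSeries.single (0 : ℤ) c),
            HahnSeries.single_zero_mul_eq_smul]
        rw [e]
        exact (((vanishBelow_cuspZ hM r g).mul hZ').mono (by norm_num)).sub (hZ.smul α)
      · have hW := vanishBelow_zero_cuspZ hM hgr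
        exact (((hW.mul hZ).mono (by norm_num)).sub (hW.smul c)).sub (hZ.smul α)
  have hconst := fn_eq_const hFm hreg
  refine ⟨_, ?_, rfl, fun τ => ?_⟩
  swap
  · have h := congrFun hconst τ
    simp only [hF, Pi.sub_apply, Pi.mul_apply, Pi.smul_apply, smul_eq_mul,
      Function.const_apply] at h
    rw [← hF] at h
    linear_combination h
  · intro h0
    have hzero : (cuspZ M r - Function.const ℍ α) * (baseZ M - Function.const ℍ c) = 0 := by
      funext τ
      have h := congrFun hconst τ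
      simp only [hF, Pi.sub_apply, Pi.mul_apply, Pi.smul_apply, smul_eq_mul,
        Function.const_apply] at h
      rw [← hF] at h
      simp only [Pi.mul_apply, Pi.sub_apply, Function.const_apply, Pi.zero_apply]
      linear_combination h + h0
    have h1 := hP (sub_mem hw (const_mem_fn (N := M) α))
    have h2 := hP (sub_mem hz (const_mem_fn (N := M) c))
    have h3 := congrArg (fun G => cexp M G 1) hzero
    simp only [cexp_mul h1 h2, cexp_zero, mul_eq_zero, cexp_eq_zero_iff h1, cexp_eq_zero_iff h2,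
      sub_eq_zero] at h3
    exact h3.elim (cuspZ_ne_const hM r α) (baseZ_ne_const hM c)

/-- `baseZ` avoids its values at the cusps. -/
theorem baseZ_ne_value {r : SL(2, ℤ)} (hr : ¬ CuspRel M poleRep r) (τ : ℍ) :
    baseZ M τ ≠ (cexp M (baseZ M) r).coeff 0 := by
  obtain ⟨γ, hγ, -, h⟩ := exists_cuspZ_mul_eq hM hr
  intro he
  exact hγ (by rw [← h τ, he, sub_self, mul_zero])

theorem cuspFun_ne_zero (τ : ℍ) : cuspFun M τ ≠ 0 := by
  rw [cuspFun_eq_prod hM]
  exact Finset.prod_ne_zero_iff.2 fun r hr =>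
    sub_ne_zero.2 (baseZ_ne_value hM (not_cuspRel_poleRep hM hr) τ)

/-- `baseZ` takes the value at a finite cusp to order exactly one there. -/
theorem coeff_one_baseZ_ne_zero {r : SL(2, ℤ)} (hr : ¬ CuspRel M poleRep r) :
    (cexp M (baseZ M) r).coeff 1 ≠ 0 := by
  obtain ⟨γ, hγ, -, h⟩ := exists_cuspZ_mul_eq hM hr
  have h1 := fn_le_perFn (sub_mem (cuspZ_mem hM r) (const_mem_fn (N := M) ((cexp M (cuspZ M r) poleRep).coeff 0)))
  have h2 := fn_le_perFn (sub_mem (baseZ_mem hM) (const_mem_fn (N := M) ((cexp M (baseZ M) r).coeff 0)))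
  have e : (cuspZ M r - Function.const ℍ ((cexp M (cuspZ M r) poleRep).coeff 0)) * (baseZ M - Function.const ℍ ((cexp M (baseZ M) r).coeff 0)) =
      Function.const ℍ γ := funext h
  have he := congrArg (fun G => cexp M G r) e
  simp only [cexp_mul h1 h2, cexp_sub (fn_le_perFn (cuspZ_mem hM r))
    (fn_le_perFn (const_mem_fn (N := M) _)), cexp_sub (fn_le_perFn (baseZ_mem hM))
    (fn_le_perFn (const_mem_fn (N := M) _)), cexp_const] at he
  have hW : VanishBelow (-1) (cexp M (cuspZ M r) r - HahnSeries.single 0 ((cexp M (cuspZ M r) poleRep).coeff 0)) :=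
    (vanishBelow_cuspZ hM r r).sub ((vanishBelow_single _ 0).mono (by norm_num))
  have hZ : VanishBelow 1 (cexp M (baseZ M) r - HahnSeries.single 0 ((cexp M (baseZ M) r).coeff 0)) := fun m hm => by
    rcases eq_or_lt_of_le (show m ≤ 0 by omega) with rfl | hm0
    · simp
    · simp [(vanishBelow_order _).mono (order_baseZ_nonneg hM hr) m hm0, hm0.ne]
  have h0 := coeff_add_mul_of_vanishBelow hW hZ
  rw [he, show (-1 : ℤ) + 1 = 0 by norm_num, HahnSeries.coeff_single_same] at h0
  intro hz1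
  exact hγ (by simpa [hz1] using h0)

/-! ## Polynomials in `baseZ` and `1 / cuspFun` -/

section Expressible

variable {R : Type*} [CommRing R] (f : R →+* ℂ)

/-- `F * cuspFun ^ k` is a polynomial in `baseZ` with coefficients from `R`. -/
def IsExpr (M : ℕ) (F : ℍ → ℂ) : Prop :=
  ∃ (p : R[X]) (k : ℕ), ∀ τ, F τ * cuspFun M τ ^ k = (p.map f).eval (baseZ M τ)

omit [NeZero M] hM in
theorem isExpr_baseZ : IsExpr f M (baseZ M) := ⟨X, 0, fun τ => by simp⟩

omit [NeZero M] hM in
theorem isExpr_const (a : R) : IsExpr f M (Function.const ℍ (f a)) :=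
  ⟨C a, 0, fun τ => by simp⟩

omit [NeZero M] hM in
theorem IsExpr.mul {F G : ℍ → ℂ} (hF : IsExpr f M F) (hG : IsExpr f M G) :
    IsExpr f M (F * G) := by
  obtain ⟨p, k, hp⟩ := hF
  obtain ⟨q, j, hq⟩ := hG
  exact ⟨p * q, k + j, fun τ => by
    rw [Polynomial.map_mul, Polynomial.eval_mul, ← hp, ← hq, pow_add, Pi.mul_apply]; ring⟩

omit [NeZero M] hM in
theorem IsExpr.pow {F : ℍ → ℂ} (hF : IsExpr f M F) (n : ℕ) : IsExpr f M (F ^ n) := by
  induction n with
  | zero => exact ⟨1, 0, fun τ => by simp⟩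
  | succ n ih => rw [pow_succ]; exact ih.mul f hF

omit [NeZero M] hM in
theorem IsExpr.add {q₀ : R[X]} (hq₀ : ∀ τ, cuspFun M τ = (q₀.map f).eval (baseZ M τ))
    {F G : ℍ → ℂ} (hF : IsExpr f M F) (hG : IsExpr f M G) : IsExpr f M (F + G) := by
  obtain ⟨p, k, hp⟩ := hF
  obtain ⟨q, j, hq⟩ := hG
  exact ⟨p * q₀ ^ j + q * q₀ ^ k, k + j, fun τ => by
    simp only [Polynomial.map_add, Polynomial.map_mul, Polynomial.map_pow, Polynomial.eval_add,
      Polynomial.eval_mul, Polynomial.eval_pow, ← hp, ← hq, ← hq₀, Pi.add_apply, pow_add]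
    ring⟩

variable {f} (hf : Function.Injective f)
  (hcoef : ∀ (g : SL(2, ℤ)) (k : ℤ), (cexp M (baseZ M) g).coeff k ∈ f.range)
  (hlead : ∀ g : SL(2, ℤ), CuspRel M poleRep g →
    ((cexp M (baseZ M) g).coeff (-1))⁻¹ ∈ f.range)
include hf hcoef hlead

omit hlead hf in
theorem exists_poly_cuspFun :
    ∃ q : R[X], ∀ τ, cuspFun M τ = (q.map f).eval (baseZ M τ) := by
  choose a ha using fun r : SL(2, ℤ) => hcoef r 0
  refine ⟨∏ r ∈ cuspReps M, (X - C (a r)), fun τ => ?_⟩
  rw [cuspFun_eq_prod hM]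
  simp [Polynomial.map_prod, Polynomial.eval_prod, ha]

omit hlead in
theorem isExpr_cuspZ {r : SL(2, ℤ)} (hr : r ∈ cuspReps M) : IsExpr f M (cuspZ M r) := by
  have hr' := not_cuspRel_poleRep hM hr
  obtain ⟨γ, -, hγdef, h⟩ := exists_cuspZ_mul_eq hM hr'
  have hcw : ∀ g k, (cexp M (cuspZ M r) g).coeff k ∈ f.range := fun g k => by
    rw [cexp_cuspZ]; exact hcoef _ k
  have hγ : γ ∈ f.range := by
    have hz := fn_le_perFn (baseZ_mem hM)
    have hw := fn_le_perFn (cuspZ_mem hM r)
    rw [hγdef, cexp_sub (sub_mem (mul_mem hw hz) (Subalgebra.smul_mem _ hw _))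
        (Subalgebra.smul_mem _ hz _), cexp_sub (mul_mem hw hz) (Subalgebra.smul_mem _ hw _),
      cexp_mul hw hz, cexp_smul hw, cexp_smul hz]
    simp only [HahnSeries.coeff_sub, HahnSeries.coeff_smul, smul_eq_mul]
    refine add_mem (sub_mem (sub_mem ?_ (mul_mem (hcoef _ _) (hcw _ _)))
      (mul_mem (hcw _ _) (hcoef _ _))) (mul_mem (hcw _ _) (hcoef _ _))
    obtain ⟨x, hx⟩ := (mem_range_coeffMap_iff hf).2
      (fun k => RingHom.mem_range.1 (hcw 1 k))
    obtain ⟨y, hy⟩ := (mem_range_coeffMap_iff hf).2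
      (fun k => RingHom.mem_range.1 (hcoef 1 k))
    exact ⟨(x * y).coeff 0, by rw [← ModularCurve.coeffMap_coeff, map_mul, hx, hy]⟩
  obtain ⟨a, ha⟩ := hcw poleRep 0
  obtain ⟨c₀, hc₀⟩ := hγ
  choose v hv using fun s : SL(2, ℤ) => hcoef s 0
  let _ := Classical.decEq SL(2, ℤ)
  refine ⟨(C a * (X - C (v r)) + C c₀) * ∏ s ∈ (cuspReps M).erase r, (X - C (v s)), 1,
    fun τ => ?_⟩
  rw [pow_one, cuspFun_eq_prod hM, ← Finset.mul_prod_erase _ _ hr]
  simp only [Polynomial.map_mul, Polynomial.map_add, Polynomial.map_sub, Polynomial.map_C,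
    Polynomial.map_X, Polynomial.map_prod, Polynomial.eval_mul, Polynomial.eval_add,
    Polynomial.eval_sub, Polynomial.eval_C, Polynomial.eval_X, Polynomial.eval_prod, ha, hv, hc₀]
  rw [← mul_assoc]
  congr 1
  linear_combination h τ

omit [NeZero M] hM hcoef hlead hf in
/-- The cusps, the pole of `baseZ` included. -/
theorem exists_allCusps : ∃ Rc : Finset SL(2, ℤ), ∀ r, r ∈ Rc ↔ r = poleRep ∨ r ∈ cuspReps M :=
  ⟨letI := Classical.decEq SL(2, ℤ); insert poleRep (cuspReps M), fun r => by simp⟩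

/-- The descent: functions in `Fn M` with coefficients in `R` are expressible over `R`. -/
theorem isExpr_of_coeff {F : ℍ → ℂ} (hF : F ∈ Fn M)
    (hFc : ∀ g k, (cexp M F g).coeff k ∈ f.range) : IsExpr f M F := by
  obtain ⟨Rc, hRc⟩ := exists_allCusps (M := M)
  obtain ⟨q₀, hq₀⟩ := exists_poly_cuspFun hM hcoef
  suffices H : ∀ (n : ℕ) (F : ℍ → ℂ), F ∈ Fn M → (∀ g k, (cexp M F g).coeff k ∈ f.range) →
      ∑ r ∈ Rc, (-(cexp M F r).order).toNat ≤ n → IsExpr f M F from H _ F hF hFc le_rfl
  intro n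
  induction n using Nat.strong_induction_on with
  | _ n ih =>
  intro F hF hFc hn
  by_cases hreg : ∀ r ∈ Rc, 0 ≤ (cexp M F r).order
  · have hall : ∀ g, VanishBelow 0 (cexp M F g) := by
      intro g
      obtain ⟨r, hr, hrg⟩ : ∃ r ∈ Rc, CuspRel M r g := by
        rcases exists_cuspRep hM g with h | ⟨r, hr, h⟩
        · exact ⟨poleRep, (hRc _).2 (Or.inl rfl), h⟩
        · exact ⟨r, (hRc r).2 (Or.inr hr), h⟩
      intro m hm
      rw [coeff_eq_zero_iff_of_cuspRel hM hF hrg]
      exact (vanishBelow_order _).mono (hreg r hr) m hm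
    obtain ⟨a, ha⟩ := hFc 1 0
    rw [fn_eq_const hF hall, ← ha]
    exact isExpr_const f a
  push Not at hreg
  obtain ⟨r, hr, hneg⟩ := hreg
  obtain ⟨e, he⟩ : ∃ e : ℕ, (cexp M F r).order = -(e : ℤ) :=
    ⟨(-(cexp M F r).order).toNat, by omega⟩
  have hwe : IsExpr f M (cuspZ M r) := by
    rcases (hRc r).1 hr with rfl | hr'
    · rw [cuspZ_poleRep]; exact isExpr_baseZ f
    · exact isExpr_cuspZ hM hf hcoef hr'
  have hcw : ∀ g k, (cexp M (cuspZ M r) g).coeff k ∈ f.range := fun g k => by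
    rw [cexp_cuspZ]; exact hcoef _ k
  have hinv : ((cexp M (cuspZ M r) r).coeff (-1))⁻¹ ∈ f.range := by
    rw [cexp_cuspZ]
    exact hlead _ ((cuspRel_translate r r).2 (cuspRel_self r))
  set b := ((cexp M (cuspZ M r) r).coeff (-1))⁻¹ with hb
  obtain ⟨a, ha⟩ := mul_mem (hFc r (-(e : ℤ))) (pow_mem hinv e)
  set G := f a • cuspZ M r ^ e with hG
  have hwm := cuspZ_mem hM r
  have hGm : G ∈ Fn M := Subalgebra.smul_mem _ (pow_mem hwm e) _
  have hGexp : ∀ g, cexp M G g = f a • cexp M (cuspZ M r) g ^ e := fun g => by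
    rw [hG, cexp_smul (fn_le_perFn (pow_mem hwm e)), cexp_pow (fn_le_perFn hwm)]
  have hsub : ∀ g, cexp M (F - G) g = cexp M F g - cexp M G g :=
    cexp_sub (fn_le_perFn hF) (fn_le_perFn hGm)
  have hGc : ∀ g k, (cexp M G g).coeff k ∈ f.range := fun g k => by
    obtain ⟨x, hx⟩ := (mem_range_coeffMap_iff hf).2 (fun k => RingHom.mem_range.1 (hcw g k))
    refine ⟨a * (x ^ e).coeff k, ?_⟩
    rw [hGexp, HahnSeries.coeff_smul, smul_eq_mul, map_mul, ← ModularCurve.coeffMap_coeff,
      map_pow, hx]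
  have hexpr : IsExpr f M G := by
    rw [hG, show f a • cuspZ M r ^ e = Function.const ℍ (f a) * cuspZ M r ^ e from
      funext fun τ => by simp]
    exact (isExpr_const f a).mul f (hwe.pow f e)
  have hdrop : ∀ s ∈ Rc, (-(cexp M (F - G) s).order).toNat ≤ (-(cexp M F s).order).toNat ∧
      (s = r → (-(cexp M (F - G) s).order).toNat < (-(cexp M F s).order).toNat) := by
    intro s hs
    rcases eq_or_ne s r with rfl | hsr
    · have hW := (vanishBelow_cuspZ hM s s).pow e
      rw [show ((e : ℤ) * -1) = -(e : ℤ) by ring] at hW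
      have hFv : VanishBelow (-(e : ℤ)) (cexp M F s) := he ▸ vanishBelow_order _
      have h1 : VanishBelow (-(e : ℤ) + 1) (cexp M (F - G) s) := fun m hm => by
        rw [hsub, hGexp, HahnSeries.coeff_sub, HahnSeries.coeff_smul, smul_eq_mul]
        rcases eq_or_lt_of_le (show m ≤ -(e : ℤ) by omega) with rfl | hm'
        · rw [hW.2, ha, mul_assoc, ← mul_pow, hb,
            inv_mul_cancel₀ (coeff_neg_one_cuspZ_ne_zero hM s), one_pow, mul_one, sub_self]
        · rw [hFv m hm', hW.1 m hm', mul_zero, sub_zero]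
      have := h1.le_order (by omega)
      exact ⟨by omega, fun _ => by omega⟩
    · refine ⟨?_, fun h => absurd h hsr⟩
      have hrs : ¬ CuspRel M r s := by
        rcases (hRc r).1 hr with rfl | hr' <;> rcases (hRc s).1 hs with rfl | hs'
        · exact absurd rfl hsr
        · exact not_cuspRel_poleRep hM hs'
        · exact fun h => not_cuspRel_poleRep hM hr' (cuspRel_symm.1 h)
        · exact not_cuspRel_of_ne hM hr' hs' (Ne.symm hsr)
      have h1 : VanishBelow (min (cexp M F s).order 0) (cexp M (F - G) s) := by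
        rw [hsub, hGexp]
        refine ((vanishBelow_order _).mono (min_le_left _ _)).sub (VanishBelow.smul ?_ _)
        exact ((vanishBelow_zero_cuspZ hM hrs).pow e).1.mono (by simp)
      have := h1.le_order (min_le_right _ _)
      omega
  have hlt : ∑ s ∈ Rc, (-(cexp M (F - G) s).order).toNat <
      ∑ s ∈ Rc, (-(cexp M F s).order).toNat :=
    Finset.sum_lt_sum (fun s hs => (hdrop s hs).1) ⟨r, hr, (hdrop r hr).2 rfl⟩
  have hIH := ih _ (lt_of_lt_of_le hlt hn) (F - G) (sub_mem hF hGm)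
    (fun g k => by rw [hsub, HahnSeries.coeff_sub]; exact sub_mem (hFc g k) (hGc g k)) le_rfl
  have := hIH.add f hq₀ hexpr
  rwa [sub_add_cancel] at this

end Expressible

end FLTA.DeligneSerre

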