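import Fermat.Agent.DeligneSerre.Level.TorsionUnit
import Mathlib.NumberTheory.ModularForms.CongruenceSubgroups

/-!
# Weierstrass values at `N`-division points and their affine ratios
-/

set_option autoImplicit false

noncomputable section

open scoped MatrixGroups Real
open UpperHalfPlane CongruenceSubgroup

namespace FLTA.DeligneSerre

open FLTA.Bridge (Hol GrowthInfty HolInfty expansion expansionFun)
open ModularCurve (coeffMap)

local notation "Qb" => AlgebraicClosure ℚ
local notation "𝕢" => Function.Periodic.qParam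

variable {N : ℕ} [NeZero N] {v w a b c d : Fin 2 → ℤ}

theorem torX_congr (h : VecEq N v w) : torX N v = torX N w := torX_of_vecEq h

theorem torX_mul_level (M : ℕ) [NeZero M] (hM : M ∣ N) (v : Fin 2 → ℤ) :
    torX M v = torX N (fun i => ((N / M : ℕ) : ℤ) * v i) := by
  funext τ
  exact congrArg (fun z => (periodsTau τ).weierstrassP z / (2 * π * Complex.I) ^ 2)
    (torArg_level hM v τ)

theorem torX_ne (hv : VecNondeg N v) (hw : VecNondeg N w) (h : ¬ VecEq N v w) (τ : ℍ) :
    torX N v τ ≠ torX N w τ := fun he => h (vecEq_of_torX_eq hv hw he)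

omit [NeZero N] in
theorem vecAct_mul (v : Fin 2 → ℤ) (g h : SL(2, ℤ)) :
    vecAct (vecAct v g) h = vecAct v (g * h) := by
  simp [vecAct, Matrix.vecMul_vecMul, Matrix.SpecialLinearGroup.coe_mul]

omit [NeZero N] in
theorem vecAct_one (v : Fin 2 → ℤ) : vecAct v 1 = v := by simp [vecAct]

omit [NeZero N] in
theorem dvd_vecAct (h : ∀ i, (N : ℤ) ∣ v i) (g : SL(2, ℤ)) : ∀ i, (N : ℤ) ∣ vecAct v g i := by
  intro i
  simp only [vecAct, Matrix.vecMul, dotProduct]
  exact Finset.dvd_sum fun j _ => (h j).mul_right _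

omit [NeZero N] in
theorem VecNondeg.act (hv : VecNondeg N v) (g : SL(2, ℤ)) : VecNondeg N (vecAct v g) := by
  intro h
  have h' := dvd_vecAct h g⁻¹
  rw [vecAct_mul, mul_inv_cancel, vecAct_one] at h'
  exact hv h'

omit [NeZero N] in
theorem VecEq.act (h : VecEq N v w) (g : SL(2, ℤ)) : VecEq N (vecAct v g) (vecAct w g) := by
  rcases h with h | h
  · refine Or.inl fun i => ?_
    have := dvd_vecAct (v := v - w) h g i
    rwa [vecAct, Matrix.sub_vecMul] at this
  · refine Or.inr fun i => ?_
    have := dvd_vecAct (v := v + w) h g i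
    rwa [vecAct, Matrix.add_vecMul] at this

omit [NeZero N] in
theorem not_vecEq_act (h : ¬ VecEq N v w) (g : SL(2, ℤ)) :
    ¬ VecEq N (vecAct v g) (vecAct w g) := fun he => by
  have := he.act g⁻¹
  rw [vecAct_mul, vecAct_mul, mul_inv_cancel, vecAct_one, vecAct_one] at this
  exact h this

omit [NeZero N] in
theorem dvd_vecAct_gamma {γ : SL(2, ℤ)} (hγ : γ ∈ Gamma N) (v : Fin 2 → ℤ) :
    ∀ i, (N : ℤ) ∣ vecAct v γ i - v i := by
  rw [Gamma_mem] at hγ
  obtain ⟨h00, h01, h10, h11⟩ := hγ
  intro i
  refine (ZMod.intCast_zmod_eq_zero_iff_dvd _ _).mp ?_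
  fin_cases i <;> simp [vecAct, Matrix.vecMul, dotProduct, Fin.sum_univ_two, h00, h01, h10, h11]

theorem torRatio_comp (g : SL(2, ℤ)) (τ : ℍ) :
    torRatio N a b c d (g • τ) =
      torRatio N (vecAct a g) (vecAct b g) (vecAct c g) (vecAct d g) τ := by
  have hD : ((g 1 0 : ℂ) * τ + g 1 1) ^ 2 ≠ 0 := by
    refine pow_ne_zero _ fun h0 => ?_
    have him := congrArg Complex.im h0
    simp [τ.im_pos.ne'] at him
    simp [him] at h0
    have hdet := g.2
    rw [Matrix.det_fin_two, h0] at hdet
    have h10 : g 1 0 = 0 := by exact_mod_cast him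
    rw [h10] at hdet
    simp at hdet
  simp only [torRatio, (tor_smul (N := N) _ g τ).1, ← mul_sub]
  exact mul_div_mul_left _ _ hD

/-- Differences of division values, as members of `HolInfty N`. -/
theorem diff_mem_holInfty (hv : VecNondeg N v) (hw : VecNondeg N w) :
    (fun τ => torX N v τ - torX N w τ) ∈ HolInfty N :=
  (mem_holInfty_of_hasSum (hasSum_diff hv hw)).1

/-- The coefficients of a difference. -/
theorem expansion_diff (hv : VecNondeg N v) (hw : VecNondeg N w) :
    expansion N ⟨_, diff_mem_holInfty hv hw⟩ =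
      HahnSeries.ofPowerSeries ℤ ℂ (PowerSeries.mk (diffCoeff N v w)) :=
  expansion_of_hasSum (hasSum_diff hv hw)

theorem torRatio_mem_holInfty (ha : VecNondeg N a) (hb : VecNondeg N b) (hc : VecNondeg N c)
    (hd : VecNondeg N d) (hcd : ¬ VecEq N c d) : torRatio N a b c d ∈ HolInfty N := by
  have h := mul_mem (diff_mem_holInfty ha hb)
    ((leadSeries_diff hc hd hcd).inv_mem_holInfty fun τ => sub_ne_zero.mpr (torX_ne hc hd hcd τ))
  convert! h using 1

theorem cexp_torRatio_one (ha : VecNondeg N a) (hb : VecNondeg N b) (hc : VecNondeg N c)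
    (hd : VecNondeg N d) (hcd : ¬ VecEq N c d) :
    cexp N (torRatio N a b c d) 1 = expansion N ⟨_, diff_mem_holInfty ha hb⟩ /
      expansion N ⟨_, diff_mem_holInfty hc hd⟩ := by
  have hne : expansion N ⟨_, diff_mem_holInfty hc hd⟩ ≠ 0 :=
    (leadSeries_diff hc hd hcd).unitExp.ne_zero
  rw [eq_div_iff hne]
  have h1 : (fun τ : ℍ => torRatio N a b c d ((1 : SL(2, ℤ)) • τ)) ∈ HolInfty N := by
    simpa using torRatio_mem_holInfty ha hb hc hd hcd
  rw [cexp_of_mem h1, ← map_mul]
  congr 1
  refine Subtype.ext (funext fun τ => ?_)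
  show torRatio N a b c d ((1 : SL(2, ℤ)) • τ) * (torX N c τ - torX N d τ) = _
  rw [one_smul, torRatio, div_mul_cancel₀ _ (sub_ne_zero.mpr (torX_ne hc hd hcd τ))]

theorem cexp_torRatio (g : SL(2, ℤ)) :
    cexp N (torRatio N a b c d) g =
      cexp N (torRatio N (vecAct a g) (vecAct b g) (vecAct c g) (vecAct d g)) 1 :=
  cexp_congr (funext fun τ => by rw [torRatio_comp, one_smul])

theorem torRatio_mem (ha : VecNondeg N a) (hb : VecNondeg N b) (hc : VecNondeg N c)
    (hd : VecNondeg N d) (hcd : ¬ VecEq N c d) : torRatio N a b c d ∈ Fn N := by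
  refine ⟨(torRatio_mem_holInfty ha hb hc hd hcd).1, fun γ hγ τ => ?_, fun g => ?_⟩
  · rw [torRatio_comp]
    simp only [torRatio, torX_periodic (dvd_vecAct_gamma hγ _)]
  · simp only [torRatio_comp]
    exact (torRatio_mem_holInfty (ha.act g) (hb.act g) (hc.act g) (hd.act g)
      (not_vecEq_act hcd g)).2.2

theorem torRatio_unitExp (ha : VecNondeg N a) (hb : VecNondeg N b) (hc : VecNondeg N c)
    (hd : VecNondeg N d) (hab : ¬ VecEq N a b) (hcd : ¬ VecEq N c d) (g : SL(2, ℤ)) :
    UnitExp N (cexp N (torRatio N a b c d) g) := by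
  rw [cexp_torRatio, cexp_torRatio_one (ha.act g) (hb.act g) (hc.act g) (hd.act g)
    (not_vecEq_act hcd g)]
  exact (leadSeries_diff (ha.act g) (hb.act g) (not_vecEq_act hab g)).unitExp.div
    (leadSeries_diff (hc.act g) (hd.act g) (not_vecEq_act hcd g)).unitExp

theorem torRatio_eq_zero (h : VecEq N a b) : torRatio N a b c d = 0 := by
  funext τ
  simp [torRatio, torX_congr h]

theorem torRatio_isAlgFn (ha : VecNondeg N a) (hb : VecNondeg N b) (hc : VecNondeg N c)
    (hd : VecNondeg N d) (hcd : ¬ VecEq N c d) : IsAlgFn N (torRatio N a b c d) := by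
  intro g k
  by_cases hab : VecEq N a b
  · exact ⟨0, by rw [torRatio_eq_zero hab, cexp_zero]; simp⟩
  · obtain ⟨e, T, -, -, hX⟩ := torRatio_unitExp ha hb hc hd hab hcd g
    exact ⟨_, by rw [hX, coeff_unitExp]⟩

theorem torRatio_isIntFn {l : ℕ} (hl : l.Prime) (hlN : ¬ l ∣ N) {A : ValuationSubring Qb}
    (hA : A.LiesOverPrime l)
    (ha : VecNondeg N a) (hb : VecNondeg N b) (hc : VecNondeg N c)
    (hd : VecNondeg N d) (hcd : ¬ VecEq N c d) : IsIntFn A N (torRatio N a b c d) := by
  intro g k
  by_cases hab : VecEq N a b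
  · exact ⟨0, by rw [torRatio_eq_zero hab, cexp_zero]; simp⟩
  · exact (torRatio_unitExp ha hb hc hd hab hcd g).integral hl hlN hA k

/-- Leading coefficients are units at every place prime to `N`: the reduction at every cusp is
nonzero of the same order. -/
theorem torRatio_order_redExp {l : ℕ} (hl : l.Prime) (hlN : ¬ l ∣ N) {A : ValuationSubring Qb}
    (hA : A.LiesOverPrime l)
    (ha : VecNondeg N a) (hb : VecNondeg N b) (hc : VecNondeg N c)
    (hd : VecNondeg N d) (hab : ¬ VecEq N a b) (hcd : ¬ VecEq N c d) (g : SL(2, ℤ)) :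
    redExp A N (torRatio N a b c d) g ≠ 0 ∧
      (redExp A N (torRatio N a b c d) g).order = (cexp N (torRatio N a b c d) g).order :=
  (torRatio_unitExp ha hb hc hd hab hcd g).order_redExp hl hlN hA

/-- At every cusp and every place: bounded denominators, with a unit leading coefficient. -/
theorem torRatio_unitSeries (ha : VecNondeg N a) (hb : VecNondeg N b) (hc : VecNondeg N c)
    (hd : VecNondeg N d) (hab : ¬ VecEq N a b) (hcd : ¬ VecEq N c d) (g : SL(2, ℤ)) :
    UnitSeries (cexp N (torRatio N a b c d) g) :=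
  (torRatio_unitExp ha hb hc hd hab hcd g).unitSeries

section GaloisAction

variable {σ : ℂ ≃+* ℂ} {u : ℕ}
  (hu : σ (Complex.exp (2 * π * Complex.I / N)) = Complex.exp (2 * π * Complex.I / N) ^ u)
include hu

theorem coprime_of_galois : Nat.Coprime u N := by
  have hprim := Complex.isPrimitiveRoot_exp N (NeZero.ne N)
  have h := hprim.map_of_injective σ.injective
  rw [hu] at h
  exact (hprim.pow_iff_coprime (NeZero.pos N) u).mp h

theorem galois_zpowMod (x : ZMod N) :
    σ (zpowMod (zetaC N) x) = zpowMod (zetaC N) (x * (u : ZMod N)) := by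
  have hz : zetaC N ^ N = 1 := (Complex.isPrimitiveRoot_exp N (NeZero.ne N)).pow_eq_one
  rw [zpowMod_natMul hz, zpowMod, map_pow, show σ (zetaC N) = zetaC N ^ u from hu,
    ← pow_mul, ← pow_mul, mul_comm]

theorem galois_torCoeff (e : ℕ) (a b : ZMod N) (n : ℕ) :
    σ (torCoeff (zetaC N) e a b n) = torCoeff (zetaC N) e a (b * (u : ZMod N)) n := by
  simp only [torCoeff, torHalf, map_sum, map_add, map_mul, map_pow, map_neg, map_one,
    apply_ite σ, map_zero, map_natCast, galois_zpowMod hu]
  simp only [mul_right_comm, neg_mul]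

theorem galois_diffCoeff (v w : Fin 2 → ℤ) (m : ℕ) :
    σ (diffCoeff N v w m) = diffCoeff N ![v 0, u * v 1] ![w 0, u * w 1] m := by
  simp only [diffCoeff, constX, map_add, map_sub, apply_ite σ, map_zero, galois_torCoeff hu,
    rowF, map_div₀, map_pow, map_one, galois_zpowMod hu, Matrix.cons_val_zero, Matrix.cons_val_one,
    Int.cast_mul, Int.cast_natCast, mul_comm (u : ZMod N)]

theorem galois_vecNondeg (hv : VecNondeg N v) : VecNondeg N ![v 0, u * v 1] := by
  intro h
  refine hv fun i => ?_
  have hco : IsCoprime (N : ℤ) (u : ℤ) := Int.isCoprime_iff_gcd_eq_one.mpr (by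
    simpa [Int.gcd_natCast_natCast] using (coprime_of_galois hu).symm)
  fin_cases i
  · simpa using h 0
  · exact hco.dvd_of_dvd_mul_left (by simpa using h 1)

theorem galois_not_vecEq (h : ¬ VecEq N v w) :
    ¬ VecEq N ![v 0, u * v 1] ![w 0, u * w 1] := by
  have hco : IsCoprime (N : ℤ) (u : ℤ) := Int.isCoprime_iff_gcd_eq_one.mpr (by
    simpa [Int.gcd_natCast_natCast] using (coprime_of_galois hu).symm)
  rintro (he | he) <;> [refine h (Or.inl fun i => ?_); refine h (Or.inr fun i => ?_)]
  · fin_cases i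
    · simpa using he 0
    · refine hco.dvd_of_dvd_mul_left ?_
      have := he 1
      simp only [Matrix.cons_val_one, Matrix.cons_val_fin_one] at this
      rwa [← mul_sub] at this
  · fin_cases i
    · simpa using he 0
    · refine hco.dvd_of_dvd_mul_left ?_
      have := he 1
      simp only [Matrix.cons_val_one, Matrix.cons_val_fin_one] at this
      rwa [← mul_add] at this

theorem coeffMap_expansion_diff (hv : VecNondeg N v) (hw : VecNondeg N w) :
    coeffMap σ.toRingHom (expansion N ⟨_, diff_mem_holInfty hv hw⟩) =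
      expansion N ⟨_, diff_mem_holInfty (galois_vecNondeg hu hv) (galois_vecNondeg hu hw)⟩ := by
  rw [expansion_diff hv hw, expansion_diff (galois_vecNondeg hu hv) (galois_vecNondeg hu hw),
    coeffMap_ofPowerSeries]
  exact congrArg _ (congrArg _ (funext fun m => galois_diffCoeff hu v w m))

end GaloisAction

/-- Galois action on the expansion at infinity. -/
theorem torRatio_galois (σ : ℂ ≃+* ℂ) (u : ℕ)
    (hu : σ (Complex.exp (2 * π * Complex.I / N)) = Complex.exp (2 * π * Complex.I / N) ^ u)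
    (ha : VecNondeg N a) (hb : VecNondeg N b) (hc : VecNondeg N c)
    (hd : VecNondeg N d) (hcd : ¬ VecEq N c d) (k : ℤ) :
    σ ((cexp N (torRatio N a b c d) 1).coeff k) =
      (cexp N (torRatio N ![a 0, u * a 1] ![b 0, u * b 1] ![c 0, u * c 1] ![d 0, u * d 1])
        1).coeff k := by
  rw [cexp_torRatio_one ha hb hc hd hcd,
    cexp_torRatio_one (galois_vecNondeg hu ha) (galois_vecNondeg hu hb) (galois_vecNondeg hu hc)
      (galois_vecNondeg hu hd) (galois_not_vecEq hu hcd),
    ← coeffMap_expansion_diff hu ha hb, ← coeffMap_expansion_diff hu hc hd,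
    ← map_div₀ (coeffMap σ.toRingHom)]
  rfl

end FLTA.DeligneSerre
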