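import Fermat.Agent.DeligneSerre.Level.TorsionSeries

/-!
# Algebraic properties of the coefficients of the division values
-/

set_option autoImplicit false

noncomputable section

namespace FLTA.DeligneSerre

local notation "Qb" => AlgebraicClosure ℚ
local notation "Zb" => integralClosure ℤ (AlgebraicClosure ℚ)

section General

variable {R S : Type*} [CommRing R] [CommRing S] {N : ℕ} [NeZero N] {z : R}

theorem zpowMod_add (hz : z ^ N = 1) (x y : ZMod N) :
    zpowMod z (x + y) = zpowMod z x * zpowMod z y := by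
  simp only [zpowMod, ← pow_add, ZMod.val_add]
  conv_rhs => rw [← Nat.mod_add_div (x.val + y.val) N, pow_add, pow_mul, hz, one_pow, mul_one]

theorem zpowMod_mul_neg (hz : z ^ N = 1) (x : ZMod N) : zpowMod z x * zpowMod z (-x) = 1 := by
  rw [← zpowMod_add hz, add_neg_cancel, zpowMod, ZMod.val_zero, pow_zero]

theorem zpowMod_natMul (hz : z ^ N = 1) (x : ZMod N) (d : ℕ) :
    zpowMod z (x * (d : ZMod N)) = zpowMod z x ^ d := by
  induction d with
  | zero => simp [zpowMod]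
  | succ d ih => rw [Nat.cast_succ, mul_add, mul_one, zpowMod_add hz, ih, pow_succ]

theorem map_zpowMod (f : R →+* S) (z : R) (x : ZMod N) : f (zpowMod z x) = zpowMod (f z) x :=
  map_pow f z x.val

theorem map_torCoeff (f : R →+* S) (z : R) (e : ℕ) (a b : ZMod N) (n : ℕ) :
    f (torCoeff z e a b n) = torCoeff (f z) e a b n := by
  simp only [torCoeff, torHalf, map_sum, map_add, map_mul, map_pow, map_neg, map_one,
    apply_ite f, map_zero, map_natCast, map_zpowMod]

theorem torCoeff_neg (z : R) (e : ℕ) (a b : ZMod N) (n : ℕ) :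
    torCoeff z e (-a) (-b) n = (-1) ^ (e + 1) * torCoeff z e a b n := by
  simp only [torCoeff, Finset.mul_sum, neg_neg, mul_add, ← mul_assoc, ← mul_pow, neg_mul_neg,
    one_mul, one_pow]
  exact Finset.sum_congr rfl fun x _ => add_comm _ _

/-- Below the first admissible index the coefficients vanish, and the first one is explicit. -/
theorem torCoeff_of_le (z : R) (e : ℕ) (a b : ZMod N) {r m : ℕ}
    (hr : ∀ j : ℕ, 0 < j → j < r → (j : ZMod N) ≠ a ∧ (j : ZMod N) ≠ -a) (hm : m ≤ r) :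
    torCoeff z e a b m = if m = r ∧ 0 < r then
      (if (r : ZMod N) = a then zpowMod z b else 0) +
        (-1) ^ (e + 1) * (if (r : ZMod N) = -a then zpowMod z (-b) else 0) else 0 := by
  have key : ∀ x ∈ m.divisorsAntidiagonal, x ≠ (r, 1) →
      torHalf z e a b x.1 x.2 + (-1) ^ (e + 1) * torHalf z e (-a) (-b) x.1 x.2 = 0 := by
    intro x hx hne
    rw [Nat.mem_divisorsAntidiagonal] at hx
    have h1 : 0 < x.1 := Nat.pos_of_ne_zero (fun h => hx.2 (by rw [← hx.1, h, zero_mul]))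
    have h2 : 0 < x.2 := Nat.pos_of_ne_zero (fun h => hx.2 (by rw [← hx.1, h, mul_zero]))
    have hlt : x.1 < r := by
      rcases Nat.lt_or_ge x.1 r with h | h
      · exact h
      · exfalso
        have h3 : x.2 = 1 := by nlinarith [hx.1]
        exact hne (Prod.ext (by rw [h3] at hx; omega) h3)
    obtain ⟨ha, hb⟩ := hr _ h1 hlt
    simp [torHalf, ha, hb]
  by_cases h : m = r ∧ 0 < r
  · rw [if_pos h, torCoeff, Finset.sum_eq_single (r, 1) key (fun hn => absurd
      (Nat.mem_divisorsAntidiagonal.mpr ⟨by simp [h.1], by omega⟩) hn)]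
    simp [torHalf]
  · rw [if_neg h, torCoeff]
    refine Finset.sum_eq_zero fun x hx => key x hx fun he => h ?_
    subst he
    rw [Nat.mem_divisorsAntidiagonal] at hx
    obtain ⟨hx1, hx2⟩ := hx
    simp only [mul_one] at hx1
    omega

/-- Two classes with the same first entry. -/
theorem dvd_torCoeff_sub (hz : z ^ N = 1) (e : ℕ) (a b b' : ZMod N) (n : ℕ) :
    zpowMod z b - zpowMod z b' ∣ torCoeff z e a b n - torCoeff z e a b' n := by
  rw [torCoeff, torCoeff, ← Finset.sum_sub_distrib]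
  refine Finset.dvd_sum fun x _ => ?_
  rw [show ∀ p q r s : R, p + (-1) ^ (e + 1) * q - (r + (-1) ^ (e + 1) * s) =
    (p - r) + (-1) ^ (e + 1) * (q - s) from fun p q r s => by ring]
  refine dvd_add ?_ (Dvd.dvd.mul_left ?_ _)
  · simp only [torHalf]
    split_ifs
    · rw [← mul_sub, zpowMod_natMul hz, zpowMod_natMul hz]
      exact (sub_dvd_pow_sub_pow _ _ _).mul_left _
    · simp
  · simp only [torHalf]
    split_ifs
    · rw [← mul_sub, zpowMod_natMul hz, zpowMod_natMul hz]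
      refine Dvd.dvd.mul_left (dvd_trans ?_ (sub_dvd_pow_sub_pow _ _ _)) _
      refine ⟨-(zpowMod z (-b) * zpowMod z (-b')), ?_⟩
      linear_combination (zpowMod z (-b')) * zpowMod_mul_neg hz b
        - (zpowMod z (-b)) * zpowMod_mul_neg hz b'
    · simp

/-- The symmetric classes: `a = -a`. -/
theorem dvd_torCoeff_sub_symm (hz : z ^ N = 1) (a : ZMod N) (ha : a = -a) (b b' : ZMod N) (n : ℕ) :
    (zpowMod z b - zpowMod z b') * (1 - zpowMod z (-b) * zpowMod z (-b')) ∣
      torCoeff z 1 a b n - torCoeff z 1 a b' n := by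
  rw [torCoeff, torCoeff, ← Finset.sum_sub_distrib]
  refine Finset.dvd_sum fun x _ => ?_
  simp only [torHalf, ← ha]
  split_ifs
  · obtain ⟨E, hE⟩ := sub_dvd_pow_sub_pow (zpowMod z b) (zpowMod z b') x.2
    obtain ⟨F, hF⟩ := sub_dvd_pow_sub_pow (1 : R) (zpowMod z (-b) * zpowMod z (-b')) x.2
    refine ⟨(x.2 : R) ^ 1 * E * F, ?_⟩
    have h1 : zpowMod z b ^ x.2 * zpowMod z (-b) ^ x.2 = 1 := by
      rw [← mul_pow, zpowMod_mul_neg hz, one_pow]
    have h2 : zpowMod z b' ^ x.2 * zpowMod z (-b') ^ x.2 = 1 := by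
      rw [← mul_pow, zpowMod_mul_neg hz, one_pow]
    rw [one_pow, mul_pow] at hF
    simp only [zpowMod_natMul hz]
    linear_combination (x.2 : R) ^ 1 * ((1 - zpowMod z (-b) ^ x.2 * zpowMod z (-b') ^ x.2) * hE
      + (zpowMod z b - zpowMod z b') * E * hF)
      + (x.2 : R) ^ 1 * (zpowMod z (-b') ^ x.2) * h1 - (x.2 : R) ^ 1 * (zpowMod z (-b) ^ x.2) * h2
  · simp

/-- `℘'` at the symmetric classes. -/
theorem dvd_torCoeff_two (hz : z ^ N = 1) (a : ZMod N) (ha : a = -a) (b : ZMod N) (n : ℕ) :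
    zpowMod z b - zpowMod z (-b) ∣ torCoeff z 2 a b n := by
  rw [torCoeff]
  refine Finset.dvd_sum fun x _ => ?_
  simp only [torHalf, ← ha]
  split_ifs
  · rw [show ((-1 : R) ^ (2 + 1)) = -1 by ring, neg_one_mul, ← sub_eq_add_neg, ← mul_sub,
      zpowMod_natMul hz, zpowMod_natMul hz]
    exact (sub_dvd_pow_sub_pow _ _ _).mul_left _
  · simp

end General

variable {N : ℕ} [NeZero N]

theorem exists_qzeta (N : ℕ) [NeZero N] : ∃ z : Qb, z ^ N = 1 ∧ iota z = zetaC N := by
  haveI : NeZero (N : Qb) := ⟨Nat.cast_ne_zero.mpr (NeZero.ne N)⟩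
  obtain ⟨ξ, hξ⟩ := HasEnoughRootsOfUnity.exists_primitiveRoot Qb N
  have h : IsPrimitiveRoot (iota ξ) N := hξ.map_of_injective iota.injective
  have hz : zetaC N ^ N = 1 := (Complex.isPrimitiveRoot_exp N (NeZero.ne N)).pow_eq_one
  obtain ⟨i, -, hi⟩ := h.eq_pow_of_pow_eq_one hz
  exact ⟨ξ ^ i, by rw [← pow_mul, mul_comm, pow_mul, hξ.pow_eq_one, one_pow],
    by rw [map_pow, hi]⟩

/-- `exp (2 π i / N)` as an algebraic integer. -/
def zInt (N : ℕ) [NeZero N] : Zb :=
  ⟨(exists_qzeta N).choose, by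
    refine mem_integralClosure_iff ℤ Qb |>.mpr ?_
    exact IsIntegral.of_pow (NeZero.pos N)
      (by rw [(exists_qzeta N).choose_spec.1]; exact isIntegral_one)⟩

theorem zInt_pow : zInt N ^ N = 1 := Subtype.ext (exists_qzeta N).choose_spec.1

/-- The embedding of algebraic integers in `ℂ`. -/
def intC : Zb →+* ℂ := iota.comp (integralClosure ℤ (AlgebraicClosure ℚ)).toSubring.subtype

theorem intC_zInt : intC (zInt N) = zetaC N := (exists_qzeta N).choose_spec.2

theorem isPrimitiveRoot_zInt : IsPrimitiveRoot (zInt N : Qb) N := by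
  refine IsPrimitiveRoot.of_map_of_injective (f := iota) ?_ iota.injective
  rw [show iota (zInt N : Qb) = zetaC N from intC_zInt]
  exact Complex.isPrimitiveRoot_exp N (NeZero.ne N)

/-- The root of unity attached to a residue class. -/
def zr (x : ZMod N) : Zb := zpowMod (zInt N) x

theorem zr_mul_neg (x : ZMod N) : zr x * zr (-x) = 1 := zpowMod_mul_neg zInt_pow x

theorem zr_add (x y : ZMod N) : zr (x + y) = zr x * zr y := zpowMod_add zInt_pow x y

theorem intC_zr (x : ZMod N) : intC (zr x) = zpowMod (zetaC N) x := by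
  rw [zr, map_zpowMod, intC_zInt]

theorem zr_injective : Function.Injective (zr : ZMod N → Zb) := fun x y h => by
  refine ZMod.val_injective N (isPrimitiveRoot_zInt.pow_inj x.val_lt y.val_lt ?_)
  have := congrArg Subtype.val h
  simpa [zr, zpowMod] using this

theorem zr_zero : zr (0 : ZMod N) = 1 := by simp [zr, zpowMod]

theorem zr_eq_one_iff {x : ZMod N} : zr x = 1 ↔ x = 0 := by
  rw [← zr_zero (N := N), zr_injective.eq_iff]

/-- Units at every place prime to `N`. -/
def NUnit (N : ℕ) (x : Qb) : Prop :=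
  x ≠ 0 ∧ ∀ l : ℕ, l.Prime → ¬ l ∣ N → ∀ A : ValuationSubring Qb, A.LiesOverPrime l →
    x ∈ A ∧ x⁻¹ ∈ A

omit [NeZero N] in
theorem NUnit.mul {x y : Qb} (hx : NUnit N x) (hy : NUnit N y) : NUnit N (x * y) :=
  ⟨mul_ne_zero hx.1 hy.1, fun l hl hlN A hA =>
    ⟨mul_mem (hx.2 l hl hlN A hA).1 (hy.2 l hl hlN A hA).1,
      by rw [mul_inv]; exact mul_mem (hx.2 l hl hlN A hA).2 (hy.2 l hl hlN A hA).2⟩⟩

omit [NeZero N] in
theorem NUnit.inv {x : Qb} (hx : NUnit N x) : NUnit N x⁻¹ :=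
  ⟨inv_ne_zero hx.1, fun l hl hlN A hA =>
    ⟨(hx.2 l hl hlN A hA).2, by rw [inv_inv]; exact (hx.2 l hl hlN A hA).1⟩⟩

omit [NeZero N] in
theorem NUnit.div {x y : Qb} (hx : NUnit N x) (hy : NUnit N y) : NUnit N (x / y) := by
  rw [div_eq_mul_inv]; exact hx.mul hy.inv

omit [NeZero N] in
theorem NUnit.pow {x : Qb} (hx : NUnit N x) : ∀ k : ℕ, NUnit N (x ^ k)
  | 0 => by
    rw [pow_zero]
    exact ⟨one_ne_zero, fun l _ _ A _ => ⟨one_mem A, by rw [inv_one]; exact one_mem A⟩⟩
  | k + 1 => by rw [pow_succ]; exact (hx.pow k).mul hx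

omit [NeZero N] in
theorem NUnit.neg {x : Qb} (hx : NUnit N x) : NUnit N (-x) :=
  ⟨neg_ne_zero.mpr hx.1, fun l hl hlN A hA =>
    ⟨neg_mem (hx.2 l hl hlN A hA).1, by rw [inv_neg]; exact neg_mem (hx.2 l hl hlN A hA).2⟩⟩

omit [NeZero N] in
theorem NUnit.of_isUnit {x : Zb} (hx : IsUnit x) : NUnit N (x : Qb) := by
  obtain ⟨y, hy⟩ := hx.exists_right_inv
  have hy' : (x : Qb) * y = 1 := congrArg Subtype.val hy
  refine ⟨left_ne_zero_of_mul_eq_one hy', fun l _ _ A _ => ⟨Galois.mem_of_isIntegral x.2, ?_⟩⟩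
  rw [inv_eq_of_mul_eq_one_right hy']
  exact Galois.mem_of_isIntegral y.2

theorem isUnit_zr (x : ZMod N) : IsUnit (zr x) :=
  IsUnit.of_mul_eq_one _ (zr_mul_neg x)

theorem NUnit.one_sub_zr {x : ZMod N} (hx : x ≠ 0) : NUnit N (1 - (zr x : Qb)) := by
  set η : Qb := (zr x : Qb) with hη
  have hpow : η ^ N = 1 := by
    have : zr x ^ N = 1 := by rw [zr, zpowMod, ← pow_mul, mul_comm, pow_mul, zInt_pow, one_pow]
    exact congrArg Subtype.val this
  have hne : η ≠ 1 := fun h => hx (zr_eq_one_iff.mp (Subtype.ext h))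
  -- `(1 - η) ∑ i η ^ i = -N`
  have key : ∀ n : ℕ, (1 - η) * ∑ i ∈ Finset.range n, (i : Qb) * η ^ i =
      (∑ i ∈ Finset.range n, η ^ i) - 1 - ((n : Qb) - 1) * η ^ n := by
    intro n
    induction n with
    | zero => simp
    | succ n ih =>
      rw [Finset.sum_range_succ, mul_add, ih, Finset.sum_range_succ]
      push_cast
      ring
  have hsum : ∑ i ∈ Finset.range N, η ^ i = 0 := by
    rw [geom_sum_eq hne, hpow, sub_self, zero_div]
  set E := ∑ i ∈ Finset.range N, (i : Qb) * η ^ i with hE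
  have hN : (1 - η) * E = -(N : Qb) := by rw [key N, hsum, hpow]; ring
  have hEint : IsIntegral ℤ E :=
    IsIntegral.sum _ fun i _ => (isIntegral_algebraMap (R := ℤ) (x := (i : ℤ))).mul ((zr x).2.pow i)
  refine ⟨sub_ne_zero.mpr (Ne.symm hne), fun l hl hlN A hA =>
    ⟨sub_mem (one_mem A) (Galois.mem_of_isIntegral (zr x).2), ?_⟩⟩
  have hN0 : (N : Qb) ≠ 0 := Nat.cast_ne_zero.mpr (NeZero.ne N)
  have hinv : (1 - η)⁻¹ = -(E * (N : Qb)⁻¹) := by
    refine inv_eq_of_mul_eq_one_right ?_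
    rw [mul_neg, ← mul_assoc, hN, neg_mul, mul_inv_cancel₀ hN0, neg_neg]
  rw [hinv]
  exact neg_mem (mul_mem (Galois.mem_of_isIntegral hEint)
    (Galois.inv_mem_of_not_mem_nonunits fun h =>
      hlN ((Galois.natCast_mem_nonunits_iff hl hA N).mp h)))

theorem NUnit.zr_sub_zr {x y : ZMod N} (h : x ≠ y) : NUnit N ((zr x : Qb) - zr y) := by
  have e : zr x - zr y = zr x * (1 - zr (y - x)) := by
    rw [mul_sub, mul_one, ← zr_add, add_sub_cancel]
  have e' := congrArg Subtype.val e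
  push_cast at e'
  rw [e']
  exact (NUnit.of_isUnit (isUnit_zr x)).mul (NUnit.one_sub_zr (sub_ne_zero.mpr (Ne.symm h)))

theorem NUnit.one_add_zr {x : ZMod N} (hx : x ≠ 0) (h2 : 2 * x ≠ 0) :
    NUnit N (1 + (zr x : Qb)) := by
  have h : (1 + (zr x : Qb)) = (1 - (zr (2 * x) : Qb)) / (1 - (zr x : Qb)) := by
    rw [eq_div_iff (NUnit.one_sub_zr hx).1, two_mul, zr_add]
    push_cast
    ring
  rw [h]
  exact (NUnit.one_sub_zr h2).div (NUnit.one_sub_zr hx)

end FLTA.DeligneSerre
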