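import Fermat.Agent.DeligneSerre.Level.Defs
import Mathlib.Analysis.Analytic.OfScalars

/-!
# Functions on `ℍ` given by a convergent power series in `exp (2 π i τ / h)`
-/

set_option autoImplicit false

noncomputable section

open scoped Real NNReal ENNReal
open UpperHalfPlane hiding I
open Complex Filter Topology FormalMultilinearSeries
open FLTA.Bridge

namespace FLTA.DeligneSerre

local notation "𝕢" => Function.Periodic.qParam

variable {h : ℕ} [NeZero h] {F : ℍ → ℂ} {c : ℕ → ℂ}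

theorem exists_norm_qParam_eq {r : ℝ} (hr0 : 0 < r) (hr1 : r < 1) :
    ∃ τ : ℍ, ‖𝕢 (h : ℝ) τ‖ = r := by
  have hpos : 0 < -(h : ℝ) * Real.log r / (2 * π) := by
    have := Real.log_neg hr0 hr1
    have hh : (0 : ℝ) < h := Nat.cast_pos.mpr (NeZero.pos h)
    apply div_pos _ Real.two_pi_pos
    nlinarith
  refine ⟨UpperHalfPlane.mk ⟨0, -(h : ℝ) * Real.log r / (2 * π)⟩ hpos, ?_⟩
  rw [Function.Periodic.norm_qParam]
  have hh : (h : ℝ) ≠ 0 := NeZero.ne _
  show Real.exp (-2 * π * (-(h : ℝ) * Real.log r / (2 * π)) / h) = r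
  rw [show -2 * π * (-(h : ℝ) * Real.log r / (2 * π)) / h = Real.log r by field_simp]
  exact Real.exp_log hr0

theorem one_le_radius (hc : ∀ τ : ℍ, HasSum (fun m => c m * 𝕢 (h : ℝ) τ ^ m) (F τ)) :
    1 ≤ (ofScalars ℂ c).radius := by
  refine ENNReal.le_of_forall_nnreal_lt fun r hr => ?_
  rcases eq_or_ne r 0 with rfl | hr0
  · simp
  have hr1 : (r : ℝ) < 1 := by exact_mod_cast hr
  obtain ⟨τ, hτ⟩ := exists_norm_qParam_eq (h := h) (r := r)
    (by exact_mod_cast pos_of_ne_zero hr0) hr1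
  refine le_radius_of_summable _ ?_
  have hs := (hc τ).summable.norm
  refine hs.congr fun m => ?_
  rw [ofScalars_norm, norm_mul, norm_pow, hτ]

theorem analyticAt_sum_zero (hc : ∀ τ : ℍ, HasSum (fun m => c m * 𝕢 (h : ℝ) τ ^ m) (F τ)) :
    AnalyticOnNhd ℂ (ofScalarsSum (E := ℂ) c) (Metric.eball 0 1) := by
  have hrad := one_le_radius hc
  exact ((ofScalars ℂ c).hasFPowerSeriesOnBall (lt_of_lt_of_le zero_lt_one hrad)).analyticOnNhd.mono
    (Metric.eball_subset_eball hrad)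

theorem eq_sum_qParam (hc : ∀ τ : ℍ, HasSum (fun m => c m * 𝕢 (h : ℝ) τ ^ m) (F τ)) (τ : ℍ) :
    F τ = ofScalarsSum (E := ℂ) c (𝕢 (h : ℝ) τ) := by
  rw [ofScalars_sum_eq, ← (hc τ).tsum_eq]
  simp [smul_eq_mul]

theorem tendsto_of_hasSum (hc : ∀ τ : ℍ, HasSum (fun m => c m * 𝕢 (h : ℝ) τ ^ m) (F τ)) :
    Tendsto F atImInfty (𝓝 (c 0)) := by
  have h0 : ofScalarsSum (E := ℂ) c 0 = c 0 := by simp
  have hq : Tendsto (fun τ : ℍ => 𝕢 (h : ℝ) τ) atImInfty (𝓝 0) :=
    UpperHalfPlane.qParam_tendsto_atImInfty (Nat.cast_pos.mpr (NeZero.pos h))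
  have hcont : Tendsto (ofScalarsSum (E := ℂ) c) (𝓝 0) (𝓝 (c 0)) := by
    rw [← h0]
    exact (analyticAt_sum_zero hc 0 (by simp)).continuousAt.tendsto
  exact (hcont.comp hq).congr (fun τ => (eq_sum_qParam hc τ).symm)

/-- A convergent series defines a bounded member of `HolInfty`. -/
theorem mem_holInfty_of_hasSum (hc : ∀ τ : ℍ, HasSum (fun m => c m * 𝕢 (h : ℝ) τ ^ m) (F τ)) :
    F ∈ HolInfty h ∧ IsBoundedAtImInfty F := by
  have hb : IsBoundedAtImInfty F := (tendsto_of_hasSum hc).isBigO_one ℝ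
  refine ⟨⟨?_, ?_, ⟨0, by simpa using hb⟩⟩, hb⟩
  · rw [mem_hol_iff_differentiableOn]
    refine DifferentiableOn.congr (f := ofScalarsSum (E := ℂ) c ∘ fun z => 𝕢 (h : ℝ) z) ?_ ?_
    · refine DifferentiableOn.comp (analyticAt_sum_zero hc).differentiableOn
        (Function.Periodic.differentiable_qParam.differentiableOn) fun z hz => ?_
      rw [Metric.mem_eball, edist_zero_right, ← ofReal_norm]
      exact ENNReal.ofReal_lt_one.mpr ((⟨z, hz⟩ : ℍ).norm_qParam_lt_one h)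
    · intro z hz
      simp only [Function.comp_apply, ofComplex_apply_of_im_pos hz]
      exact eq_sum_qParam hc ⟨z, hz⟩
  · intro z
    simp only [Function.comp_apply]
    by_cases hz : 0 < z.im
    · have hz' : 0 < (z + (h : ℂ)).im := by simpa using hz
      rw [ofComplex_apply_of_im_pos hz, ofComplex_apply_of_im_pos hz', eq_sum_qParam hc,
        eq_sum_qParam hc]
      congr 1
      simp only [Function.Periodic.qParam]
      rw [Complex.exp_eq_exp_iff_exists_int]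
      refine ⟨1, ?_⟩
      have hh : (h : ℂ) ≠ 0 := NeZero.ne _
      push_cast
      field_simp
    · have hz' : (z + (h : ℂ)).im ≤ 0 := by simpa using not_lt.mp hz
      rw [ofComplex_apply_of_im_nonpos hz', ofComplex_apply_of_im_nonpos (not_lt.mp hz)]

/-- Its expansion is the series. -/
theorem expansion_of_hasSum (hc : ∀ τ : ℍ, HasSum (fun m => c m * 𝕢 (h : ℝ) τ ^ m) (F τ)) :
    expansion h ⟨F, (mem_holInfty_of_hasSum hc).1⟩ =
      HahnSeries.ofPowerSeries ℤ ℂ (PowerSeries.mk c) := by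
  obtain ⟨hmem, hb⟩ := mem_holInfty_of_hasSum hc
  show expansionFun h F = _
  rw [expansionFun_of_bounded h hmem hb,
    qExpansion_eq_of_hasSum h hmem hb (P := PowerSeries.mk c) (by simpa using hc)]

/-- The reciprocal of a zero-free function with a nonzero series lies in `HolInfty`. -/
theorem inv_mem_holInfty (hc : ∀ τ : ℍ, HasSum (fun m => c m * 𝕢 (h : ℝ) τ ^ m) (F τ))
    (hF : ∀ τ, F τ ≠ 0) {r : ℕ} (hr : c r ≠ 0) (hlt : ∀ m < r, c m = 0) :
    (fun τ => (F τ)⁻¹) ∈ HolInfty h := by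
  obtain ⟨⟨hhol, hper, -⟩, -⟩ := mem_holInfty_of_hasSum hc
  refine ⟨?_, fun z => congrArg Inv.inv (hper z), ?_⟩
  · rw [mem_hol_iff_differentiableOn] at hhol ⊢
    exact hhol.inv (fun z _ => hF _)
  · set G : ℍ → ℂ := fun τ => F τ / 𝕢 (h : ℝ) τ ^ r with hG
    have hq : ∀ τ : ℍ, 𝕢 (h : ℝ) τ ≠ 0 := fun τ => Function.Periodic.qParam_ne_zero _
    have hcG : ∀ τ : ℍ, HasSum (fun m => c (m + r) * 𝕢 (h : ℝ) τ ^ m) (G τ) := by
      intro τ
      have h1 := (hasSum_nat_add_iff' r).mpr (hc τ)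
      rw [Finset.sum_eq_zero (fun m hm => by rw [hlt m (Finset.mem_range.mp hm), zero_mul]),
        sub_zero] at h1
      convert! h1.div_const (𝕢 (h : ℝ) τ ^ r) using 1
      funext m
      rw [pow_add, eq_div_iff (pow_ne_zero r (hq τ))]
      ring
    have hlim : Tendsto (fun τ => (G τ)⁻¹) atImInfty (𝓝 (c r)⁻¹) := by
      have := (tendsto_of_hasSum hcG).inv₀ (by simpa using hr)
      simpa using this
    refine ⟨r, ?_⟩
    have heq : (fun τ : ℍ => 𝕢 1 τ ^ r * (F τ)⁻¹) =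
        fun τ : ℍ => 𝕢 (h : ℝ) τ ^ (h * r - r) * (G τ)⁻¹ := by
      funext τ
      rw [qParam_one_eq_pow h, ← pow_mul, hG]
      simp only [inv_div]
      rw [mul_div_assoc', ← pow_add, Nat.sub_add_cancel (Nat.le_mul_of_pos_left r (NeZero.pos h)),
        div_eq_mul_inv]
    rw [heq]
    refine Filter.BoundedAtFilter.mul ?_ (hlim.isBigO_one ℝ)
    have hq0 : Tendsto (fun τ : ℍ => 𝕢 (h : ℝ) τ ^ (h * r - r)) atImInfty
        (𝓝 (0 ^ (h * r - r))) :=
      (UpperHalfPlane.qParam_tendsto_atImInfty (Nat.cast_pos.mpr (NeZero.pos h))).pow _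
    exact hq0.isBigO_one ℝ

end FLTA.DeligneSerre
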