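import Fermat.Agent.DeligneSerre.Level.TorsionSeries
import Fermat.Agent.Mazur.LatticeInvariants

/-!
# Division values: congruences, modularity, distinctness
-/

set_option autoImplicit false

noncomputable section

open scoped MatrixGroups Real
open UpperHalfPlane PeriodPair

namespace FLTA.DeligneSerre

/-- `℘` and `℘'` are homogeneous. -/
theorem weierstrassP_scale {L L' : PeriodPair} {c : ℂ} (hc : c ≠ 0)
    (hL : ∀ x, x ∈ L'.lattice ↔ ∃ l ∈ L.lattice, c * l = x) (z : ℂ) :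
    ℘[L'] (c * z) = ℘[L] z / c ^ 2 ∧ ℘'[L'] (c * z) = ℘'[L] z / c ^ 3 := by
  let e : L.lattice ≃ L'.lattice := Equiv.ofBijective
    (fun l => ⟨c * l, (hL _).mpr ⟨l, l.2, rfl⟩⟩)
    ⟨fun a b h => Subtype.ext (mul_left_cancel₀ hc (congrArg Subtype.val h)),
      fun x => by
        obtain ⟨l, hl, h⟩ := (hL _).mp x.2
        exact ⟨⟨l, hl⟩, Subtype.ext h⟩⟩
  constructor
  · refine HasSum.unique (e.hasSum_iff.mpr (L'.hasSum_weierstrassP (c * z))) ?_
    convert! (L.hasSum_weierstrassP z).div_const (c ^ 2) using 1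
    funext l
    show 1 / (c * z - c * (l : ℂ)) ^ 2 - 1 / (c * (l : ℂ)) ^ 2 = _
    rw [← mul_sub, mul_pow, mul_pow, sub_div, div_div, div_div, mul_comm (c ^ 2),
      mul_comm (c ^ 2)]
  · refine HasSum.unique (e.hasSum_iff.mpr (L'.hasSum_derivWeierstrassP (c * z))) ?_
    convert! (L.hasSum_derivWeierstrassP z).div_const (c ^ 3) using 1
    funext l
    show -2 / (c * z - c * (l : ℂ)) ^ 3 = _
    rw [← mul_sub, mul_pow, div_div, mul_comm (c ^ 3)]

/-- The argument of the division value. -/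
def torArg (N : ℕ) (v : Fin 2 → ℤ) (τ : ℍ) : ℂ := ((v 0 : ℂ) * τ + v 1) / N

theorem mem_periodsTau {τ : ℍ} {x : ℂ} :
    x ∈ (periodsTau τ).lattice ↔ ∃ m n : ℤ, (m : ℂ) + n * τ = x := by
  simp [PeriodPair.mem_lattice, periodsTau]

variable {N : ℕ} [NeZero N] {v w : Fin 2 → ℤ}

theorem torArg_sub_mem (h : ∀ i, (N : ℤ) ∣ v i - w i) (τ : ℍ) :
    torArg N v τ - torArg N w τ ∈ (periodsTau τ).lattice := by
  obtain ⟨a, ha⟩ := h 0
  obtain ⟨b, hb⟩ := h 1
  refine mem_periodsTau.mpr ⟨b, a, ?_⟩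
  have hN : (N : ℂ) ≠ 0 := NeZero.ne _
  have ha' : (v 0 : ℂ) = w 0 + N * a := by exact_mod_cast (by linarith : v 0 = w 0 + N * a)
  have hb' : (v 1 : ℂ) = w 1 + N * b := by exact_mod_cast (by linarith : v 1 = w 1 + N * b)
  simp only [torArg, ha', hb']
  field_simp
  ring

theorem torX_periodic (h : ∀ i, (N : ℤ) ∣ v i - w i) : torX N v = torX N w := by
  funext τ
  have := (periodsTau τ).weierstrassP_add_coe (torArg N w τ) ⟨_, torArg_sub_mem h τ⟩
  simp only [add_sub_cancel] at this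
  exact congrArg (· / _) this

theorem torY_periodic (h : ∀ i, (N : ℤ) ∣ v i - w i) : torY N v = torY N w := by
  funext τ
  have := (periodsTau τ).derivWeierstrassP_add_coe (torArg N w τ) ⟨_, torArg_sub_mem h τ⟩
  simp only [add_sub_cancel] at this
  exact congrArg (· / _) this

omit [NeZero N] in
theorem torX_neg (v : Fin 2 → ℤ) : torX N (-v) = torX N v := by
  funext τ
  have : torArg N (-v) τ = -torArg N v τ := by simp [torArg]; ring
  show _ / _ = _ / _
  rw [show ((((-v) 0 : ℤ) : ℂ) * τ + (((-v) 1 : ℤ) : ℂ)) / N = torArg N (-v) τ from rfl, this,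
    (periodsTau τ).weierstrassP_neg]
  rfl

omit [NeZero N] in
theorem torY_neg (v : Fin 2 → ℤ) (τ : ℍ) : torY N (-v) τ = -torY N v τ := by
  have : torArg N (-v) τ = -torArg N v τ := by simp [torArg]; ring
  show _ / _ = -(_ / _)
  rw [show ((((-v) 0 : ℤ) : ℂ) * τ + (((-v) 1 : ℤ) : ℂ)) / N = torArg N (-v) τ from rfl, this,
    (periodsTau τ).derivWeierstrassP_neg, neg_div]
  rfl

theorem torX_of_vecEq (h : VecEq N v w) : torX N v = torX N w := by
  rcases h with h | h
  · exact torX_periodic h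
  · rw [← torX_neg w]
    exact torX_periodic (fun i => by simpa using h i)

theorem torArg_level {M : ℕ} [NeZero M] (hM : M ∣ N) (v : Fin 2 → ℤ) (τ : ℍ) :
    torArg M v τ = torArg N (fun i => ((N / M : ℕ) : ℤ) * v i) τ := by
  obtain ⟨k, rfl⟩ := hM
  have hk : k ≠ 0 := fun h => NeZero.ne (M * k) (by simp [h])
  rw [Nat.mul_div_cancel_left k (NeZero.pos M)]
  simp only [torArg]
  have h1 : (M : ℂ) ≠ 0 := NeZero.ne _
  have h2 : (k : ℂ) ≠ 0 := Nat.cast_ne_zero.mpr hk
  push_cast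
  field_simp

omit [NeZero N] in
/-- Transformation under `SL(2, ℤ)`. -/
theorem tor_smul (v : Fin 2 → ℤ) (g : SL(2, ℤ)) (τ : ℍ) :
    torX N v (g • τ) = ((g 1 0 : ℂ) * τ + g 1 1) ^ 2 * torX N (vecAct v g) τ ∧
      torY N v (g • τ) = ((g 1 0 : ℂ) * τ + g 1 1) ^ 3 * torY N (vecAct v g) τ := by
  set D : ℂ := (g 1 0 : ℂ) * τ + g 1 1 with hD
  have hdet : (g 0 0 : ℂ) * g 1 1 - g 0 1 * g 1 0 = 1 := by
    have := g.2
    rw [Matrix.det_fin_two] at this
    exact_mod_cast this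
  have hcoe : ((g • τ : ℍ) : ℂ) = ((g 0 0 : ℂ) * τ + g 0 1) / D := by
    rw [UpperHalfPlane.coe_specialLinearGroup_apply]; simp [hD]
  have hD0 : D ≠ 0 := by
    intro h0
    have him := congrArg Complex.im h0
    simp [hD, τ.im_pos.ne'] at him
    simp [hD, him] at h0
    simp [him, h0] at hdet
  have hL : ∀ x, x ∈ (periodsTau (g • τ)).lattice ↔
      ∃ l ∈ (periodsTau τ).lattice, D⁻¹ * l = x := by
    intro x
    simp only [mem_periodsTau, hcoe]
    constructor
    · rintro ⟨m, n, rfl⟩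
      refine ⟨_, ⟨m * g 1 1 + n * g 0 1, m * g 1 0 + n * g 0 0, rfl⟩, ?_⟩
      push_cast; field_simp; rw [hD]; ring
    · rintro ⟨_, ⟨m, n, rfl⟩, rfl⟩
      refine ⟨m * g 0 0 - n * g 0 1, -m * g 1 0 + n * g 1 1, ?_⟩
      push_cast; field_simp
      rw [hD]
      linear_combination ((m : ℂ) + n * τ) * hdet
  have hz : ((v 0 : ℂ) * ((g • τ : ℍ) : ℂ) + v 1) / N = D⁻¹ * torArg N (vecAct v g) τ := by
    rw [hcoe]
    simp only [torArg, vecAct, Matrix.vecMul, dotProduct, Fin.sum_univ_two]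
    push_cast
    field_simp
    rw [hD]; ring
  obtain ⟨h1, h2⟩ := weierstrassP_scale (inv_ne_zero hD0) hL (torArg N (vecAct v g) τ)
  constructor
  · show _ / _ = _ * (_ / _)
    rw [hz, h1, inv_pow, div_inv_eq_mul, mul_comm, mul_div_assoc]
    rfl
  · show _ / _ = _ * (_ / _)
    rw [hz, h2, inv_pow, div_inv_eq_mul, mul_comm, mul_div_assoc]
    rfl

/-- The curve of the lattice `ℤ + τ ℤ`. -/
def tauCurve (τ : ℍ) : WeierstrassCurve ℂ :=
  ⟨0, 0, 0, -(periodsTau τ).g₂ / 4, -(periodsTau τ).g₃ / 4⟩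

theorem tauCurve_isElliptic (τ : ℍ) : (tauCurve τ).IsElliptic := by
  have hD := ModularForm.discriminant_ne_zero τ
  have e := ModularForm.discriminant_eq_E₄_cube_sub_E₆_sq τ
  have h2 : (periodsTau τ).g₂ = (2 * (π : ℂ)) ^ 4 * (ModularForm.E₄ τ / 12) :=
    Mazur.Lattice.g₂_periodPairOf τ
  have h3 : (periodsTau τ).g₃ = (2 * (π : ℂ)) ^ 6 * (ModularForm.E₆ τ / 216) :=
    Mazur.Lattice.g₃_periodPairOf τ
  have hΔ : (tauCurve τ).Δ = (2 * (π : ℂ)) ^ 12 * ModularForm.discriminant τ := by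
    rw [e]
    simp only [tauCurve, WeierstrassCurve.Δ, WeierstrassCurve.b₂, WeierstrassCurve.b₄,
      WeierstrassCurve.b₆, WeierstrassCurve.b₈, h2, h3]
    ring
  refine ⟨isUnit_iff_ne_zero.mpr ?_⟩
  rw [hΔ]
  exact mul_ne_zero (pow_ne_zero _
    (mul_ne_zero two_ne_zero (Complex.ofReal_ne_zero.mpr Real.pi_ne_zero))) hD

theorem tauCurve_isLatticeOf (τ : ℍ) : Mazur.Lattice.IsLatticeOf (periodsTau τ) (tauCurve τ) := by
  constructor
  · simp only [tauCurve, Mazur.curveG2, WeierstrassCurve.c₄, WeierstrassCurve.b₂,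
      WeierstrassCurve.b₄]
    ring
  · simp only [tauCurve, Mazur.curveG3, WeierstrassCurve.c₆, WeierstrassCurve.b₂,
      WeierstrassCurve.b₄, WeierstrassCurve.b₆]
    ring

theorem dvd_of_torArg_mem {τ : ℍ} (h : torArg N v τ ∈ (periodsTau τ).lattice) :
    ∀ i, (N : ℤ) ∣ v i := by
  obtain ⟨m, n, hmn⟩ := mem_periodsTau.mp h
  by_contra hv
  exact row_ne_int (N := N) hv τ (-n) ⟨m, by
    push_cast
    show (m : ℂ) = torArg N v τ + _
    linear_combination hmn⟩

theorem notMem_torArg (hv : VecNondeg N v) (τ : ℍ) :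
    torArg N v τ ∉ (periodsTau τ).lattice := fun h => hv (dvd_of_torArg_mem h)

/-- Distinct classes give distinct values. -/
theorem vecEq_of_torX_eq (hv : VecNondeg N v) (hw : VecNondeg N w) {τ : ℍ}
    (h : torX N v τ = torX N w τ) : VecEq N v w := by
  haveI := tauCurve_isElliptic τ
  have hL := tauCurve_isLatticeOf τ
  have h' : ℘[periodsTau τ] (torArg N v τ) = ℘[periodsTau τ] (torArg N w τ) := by
    have hT : (2 * π * Complex.I : ℂ) ^ 2 ≠ 0 := pow_ne_zero _ Complex.two_pi_I_ne_zero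
    exact (div_left_inj' hT).mp h
  have hPv := Mazur.Lattice.latPoint_of_notMem hL (notMem_torArg hv τ)
  have hPw := Mazur.Lattice.latPoint_of_notMem hL (notMem_torArg hw τ)
  have hx : Mazur.Lattice.latX (periodsTau τ) (tauCurve τ) (torArg N v τ) =
      Mazur.Lattice.latX (periodsTau τ) (tauCurve τ) (torArg N w τ) := by
    simp [Mazur.Lattice.latX, h']
  rcases (WeierstrassCurve.Affine.Point.X_eq_iff
      (h₁ := Mazur.Lattice.nonsingular_lat hL (notMem_torArg hv τ))
      (h₂ := Mazur.Lattice.nonsingular_lat hL (notMem_torArg hw τ))).mp hx with he | he <;>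
    rw [← hPv, ← hPw, ← Mazur.Lattice.latHom_apply, ← Mazur.Lattice.latHom_apply] at he
  · left
    have h0 : Mazur.Lattice.latHom hL (torArg N v τ - torArg N w τ) = 0 := by
      rw [map_sub, he, sub_self]
    rw [Mazur.Lattice.latHom_eq_zero_iff] at h0
    have e : torArg N v τ - torArg N w τ = torArg N (v - w) τ := by simp [torArg]; ring
    rw [e] at h0
    exact dvd_of_torArg_mem h0
  · right
    have h0 : Mazur.Lattice.latHom hL (torArg N v τ + torArg N w τ) = 0 := by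
      rw [map_add, he, neg_add_cancel]
    rw [Mazur.Lattice.latHom_eq_zero_iff] at h0
    have e : torArg N v τ + torArg N w τ = torArg N (v + w) τ := by simp [torArg]; ring
    rw [e] at h0
    exact dvd_of_torArg_mem h0

theorem torY_ne_zero (hv : VecNondeg N v) (hv2 : VecNondeg N (2 • v)) (τ : ℍ) :
    torY N v τ ≠ 0 := by
  intro h
  haveI := tauCurve_isElliptic τ
  have hL := tauCurve_isLatticeOf τ
  have h' : ℘'[periodsTau τ] (torArg N v τ) = 0 := by
    have hT : (2 * π * Complex.I : ℂ) ^ 3 ≠ 0 := pow_ne_zero _ Complex.two_pi_I_ne_zero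
    exact (div_eq_zero_iff.mp h).resolve_right hT
  have h0 : Mazur.Lattice.latHom hL (torArg N v τ + torArg N v τ) = 0 := by
    rw [map_add, Mazur.Lattice.latHom_apply,
      Mazur.Lattice.latPoint_of_notMem hL (notMem_torArg hv τ)]
    refine WeierstrassCurve.Affine.Point.add_self_of_Y_eq ?_
    simp [WeierstrassCurve.Affine.negY, Mazur.Lattice.latY, tauCurve, h']
  rw [Mazur.Lattice.latHom_eq_zero_iff] at h0
  have e : torArg N v τ + torArg N v τ = torArg N (2 • v) τ := by simp [torArg]; ring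
  rw [e] at h0
  exact hv2 (dvd_of_torArg_mem h0)

end FLTA.DeligneSerre
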