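import Fermat.Agent.DeligneSerre.Level.TorsionAlg
import Fermat.Agent.DeligneSerre.Level.TorsionExp
import Fermat.Agent.DeligneSerre.Level.TorsionLattice

/-!
# Leading coefficients of differences of division values
-/

set_option autoImplicit false

noncomputable section

open UpperHalfPlane

namespace FLTA.DeligneSerre

local notation "Qb" => AlgebraicClosure ℚ
local notation "Zb" => integralClosure ℤ (AlgebraicClosure ℚ)
local notation "𝕢" => Function.Periodic.qParam

variable {N : ℕ} [NeZero N] {v w : Fin 2 → ℤ}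

/-- An `N`-unit times an integral series whose first nonzero coefficient is a unit. -/
def LeadSeries (N : ℕ) (F : ℍ → ℂ) : Prop :=
  ∃ (c : Qb) (S : ℕ → Zb) (r : ℕ), NUnit N c ∧ IsUnit (S r) ∧ (∀ m < r, S m = 0) ∧
    ∀ τ : ℍ, HasSum (fun m => iota c * intC (S m) * 𝕢 (N : ℝ) τ ^ m) (F τ)

omit [NeZero N] in
theorem LeadSeries.neg {F : ℍ → ℂ} (h : LeadSeries N F) : LeadSeries N (-F) := by
  obtain ⟨c, S, r, hc, hr, hlt, hs⟩ := h
  refine ⟨-c, S, r, hc.neg, hr, hlt, fun τ => ?_⟩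
  simpa [map_neg, neg_mul] using (hs τ).neg

/-- The constant term of `x_v`, up to `1 / 12`. -/
def constX (N : ℕ) (v : Fin 2 → ℤ) : ℂ :=
  if (v 0 : ZMod N) = 0 then rowF (zpowMod (zetaC N) (v 1 : ZMod N)) else 0

/-- The constant term of `y_v`. -/
def constY (N : ℕ) (v : Fin 2 → ℤ) : ℂ :=
  if (v 0 : ZMod N) = 0 then rowG (zpowMod (zetaC N) (v 1 : ZMod N)) else 0

/-- The coefficients of `x_v - x_w`. -/
def diffCoeff (N : ℕ) (v w : Fin 2 → ℤ) (m : ℕ) : ℂ :=
  (if m = 0 then constX N v - constX N w else 0) +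
    (torCoeff (zetaC N) 1 (v 0 : ZMod N) (v 1 : ZMod N) m -
      torCoeff (zetaC N) 1 (w 0 : ZMod N) (w 1 : ZMod N) m)

/-- The coefficients of `y_v`. -/
def yCoeff (N : ℕ) (v : Fin 2 → ℤ) (m : ℕ) : ℂ :=
  (if m = 0 then constY N v else 0) + torCoeff (zetaC N) 2 (v 0 : ZMod N) (v 1 : ZMod N) m

theorem hasSum_diff (hv : VecNondeg N v) (hw : VecNondeg N w) (τ : ℍ) :
    HasSum (fun m => diffCoeff N v w m * 𝕢 (N : ℝ) τ ^ m) (torX N v τ - torX N w τ) := by
  have hQ := norm_qParam_lt_one (N := N) τ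
  have h1 := (hasSum_torCoeff 1 (v 0 : ZMod N) (v 1 : ZMod N) hQ).summable.hasSum
  have h2 := (hasSum_torCoeff 1 (w 0 : ZMod N) (w 1 : ZMod N) hQ).summable.hasSum
  convert! (hasSum_ite_eq 0 (constX N v - constX N w)).add (h1.sub h2) using 1
  · funext m
    rw [diffCoeff, add_mul, sub_mul]
    rcases eq_or_ne m 0 with rfl | hm <;> simp [*]
  · rw [torX_eq_tsum hv, torX_eq_tsum hw, constX, constX]
    ring

theorem hasSum_torY (hv : VecNondeg N v) (τ : ℍ) :
    HasSum (fun m => yCoeff N v m * 𝕢 (N : ℝ) τ ^ m) (torY N v τ) := by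
  have hQ := norm_qParam_lt_one (N := N) τ
  have h1 := (hasSum_torCoeff 2 (v 0 : ZMod N) (v 1 : ZMod N) hQ).summable.hasSum
  convert! (hasSum_ite_eq 0 (constY N v)).add h1 using 1
  · funext m
    rw [yCoeff, add_mul]
    rcases eq_or_ne m 0 with rfl | hm <;> simp [*]
  · rw [torY_eq_tsum hv, constY]

theorem intC_torCoeff (e : ℕ) (a b : ZMod N) (m : ℕ) :
    intC (torCoeff (zInt N) e a b m) = torCoeff (zetaC N) e a b m := by
  rw [map_torCoeff, intC_zInt]

omit [NeZero N] in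
/-- A series divisible by an `N`-unit whose leading coefficient is exactly that unit up to units. -/
theorem leadSeries_of_dvd {F : ℍ → ℂ} (u : Zb) (hu : NUnit N (u : Qb)) (T : ℕ → Zb) (r : ℕ) (x : Zb)
    (hx : IsUnit x) (hdvd : ∀ m, u ∣ T m) (hr : T r = u * x) (hlt : ∀ m < r, T m = 0)
    (hs : ∀ τ : ℍ, HasSum (fun m => intC (T m) * 𝕢 (N : ℝ) τ ^ m) (F τ)) : LeadSeries N F := by
  choose E hE using hdvd
  have hu0 : u ≠ 0 := fun h => hu.1 (by rw [h]; rfl)
  refine ⟨(u : Qb), E, r, hu, ?_, fun m hm => ?_, fun τ => ?_⟩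
  · rwa [show E r = x from mul_left_cancel₀ hu0 (by rw [← hE, hr])]
  · exact mul_left_cancel₀ hu0 (by rw [← hE, hlt m hm, mul_zero])
  · convert! hs τ using 2 with m
    rw [hE m, map_mul]
    rfl

/-- A series with a constant term absorbing the denominators. -/
theorem leadSeries_of_const {F : ℍ → ℂ} (c : Qb) (hc : NUnit N c) (T : ℕ → Zb) (h0 : T 0 = 0)
    (hint : ∀ m, ∃ E : Zb, c * (E : Qb) = (T m : Qb))
    (hs : ∀ τ : ℍ, HasSum (fun m => ((if m = 0 then iota c else 0) + intC (T m)) *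
      𝕢 (N : ℝ) τ ^ m) (F τ)) : LeadSeries N F := by
  choose E hE using hint
  refine ⟨c, fun m => if m = 0 then 1 else E m, 0, hc, by simp, fun m hm => absurd hm (by omega),
    fun τ => ?_⟩
  convert! hs τ using 2 with m
  rcases eq_or_ne m 0 with rfl | hm
  · simp [h0, intC]
  · simp only [if_neg hm, zero_add]
    show iota c * iota (E m : Qb) * _ = iota (T m : Qb) * _
    rw [← map_mul, hE]

omit [NeZero N] in
theorem torCoeff_zero {R : Type*} [CommRing R] (z : R) (e : ℕ) (a b : ZMod N) :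
    torCoeff z e a b 0 = 0 := by
  simp [torCoeff]

theorem lt_val_ne {a : ZMod N} (ha : 2 * a.val ≤ N) (j : ℕ) (h0 : 0 < j) (hj : j < a.val) :
    (j : ZMod N) ≠ a ∧ (j : ZMod N) ≠ -a := by
  have hv : ((j : ZMod N)).val = j := ZMod.val_natCast_of_lt (lt_trans hj a.val_lt)
  constructor
  · intro h
    rw [← h, hv] at hj
    omega
  · intro h
    have hne : a ≠ 0 := fun h0' => by simp [h0'] at hj
    haveI : NeZero a := ⟨hne⟩
    have := congrArg ZMod.val h
    rw [hv, ZMod.val_neg_of_ne_zero] at this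
    omega

theorem two_mul_val_of_eq_neg {a : ZMod N} (h0 : a ≠ 0) (h : a = -a) : 2 * a.val = N := by
  haveI : NeZero a := ⟨h0⟩
  have := congrArg ZMod.val h
  rw [ZMod.val_neg_of_ne_zero] at this
  have := a.val_lt
  omega

theorem diffCoeff_of_ne_zero (hv : (v 0 : ZMod N) ≠ 0) (hw : (w 0 : ZMod N) ≠ 0) (m : ℕ) :
    diffCoeff N v w m = intC (torCoeff (zInt N) 1 (v 0 : ZMod N) (v 1 : ZMod N) m -
      torCoeff (zInt N) 1 (w 0 : ZMod N) (w 1 : ZMod N) m) := by
  rw [map_sub, intC_torCoeff, intC_torCoeff, diffCoeff, constX, constX, if_neg hv, if_neg hw]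
  simp

/-- Both classes off the cusp, the first one nearer. -/
theorem leadSeries_diff_lt (hv : VecNondeg N v) (hw : VecNondeg N w)
    (h0 : (v 0 : ZMod N) ≠ 0) (ha : 2 * (v 0 : ZMod N).val ≤ N)
    (hb : 2 * (w 0 : ZMod N).val ≤ N) (hlt : (v 0 : ZMod N).val < (w 0 : ZMod N).val) :
    LeadSeries N (fun τ => torX N v τ - torX N w τ) := by
  set a := (v 0 : ZMod N)
  set b := (v 1 : ZMod N)
  have hapos : 0 < a.val := Nat.pos_of_ne_zero (fun h => h0 ((ZMod.val_eq_zero a).mp h))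
  have hw0 : (w 0 : ZMod N) ≠ 0 := fun h => by simp [h] at hlt
  have hne : a ≠ -a := fun h => by have := two_mul_val_of_eq_neg h0 h; omega
  refine leadSeries_of_dvd 1 (NUnit.of_isUnit isUnit_one)
    (fun m => torCoeff (zInt N) 1 a b m - torCoeff (zInt N) 1 (w 0 : ZMod N) (w 1 : ZMod N) m)
    a.val (zr b) (isUnit_zr b) (fun m => one_dvd _) ?_ (fun m hm => ?_) (fun τ => ?_)
  · rw [torCoeff_of_le _ 1 a b (lt_val_ne ha) le_rfl,
      torCoeff_of_le _ 1 (w 0 : ZMod N) _ (lt_val_ne hb) hlt.le, if_pos (show a.val = a.val ∧ 0 < a.val from ⟨rfl, hapos⟩),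
      if_neg (show ¬ (a.val = (w 0 : ZMod N).val ∧ 0 < (w 0 : ZMod N).val) from fun h => by omega),
      sub_zero, ZMod.natCast_zmod_val, if_pos rfl, if_neg hne]
    simp [zr]
  · rw [torCoeff_of_le _ 1 a b (lt_val_ne ha) hm.le,
      torCoeff_of_le _ 1 (w 0 : ZMod N) _ (lt_val_ne hb) (by omega), if_neg (fun h => by omega),
      if_neg (fun h => by omega), sub_zero]
  · convert! hasSum_diff hv hw τ using 2 with m
    rw [diffCoeff_of_ne_zero h0 hw0]

/-- Both classes off the cusp, at the same distance. -/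
theorem leadSeries_diff_eq (hv : VecNondeg N v) (hw : VecNondeg N w) (hne : ¬ VecEq N v w)
    (h0 : (v 0 : ZMod N) ≠ 0) (ha : 2 * (v 0 : ZMod N).val ≤ N)
    (heq : (w 0 : ZMod N) = (v 0 : ZMod N)) :
    LeadSeries N (fun τ => torX N v τ - torX N w τ) := by
  set a := (v 0 : ZMod N) with hadef
  set b := (v 1 : ZMod N) with hbdef
  set b' := (w 1 : ZMod N) with hbdef'
  have hapos : 0 < a.val := Nat.pos_of_ne_zero (fun h => h0 ((ZMod.val_eq_zero a).mp h))
  have hbb : b ≠ b' := fun h => hne (Or.inl fun i => by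
    fin_cases i
    · exact (ZMod.intCast_eq_intCast_iff_dvd_sub _ _ _).mp (hadef.symm.trans heq.symm).symm
    · exact (ZMod.intCast_eq_intCast_iff_dvd_sub _ _ _).mp h.symm)
  have hs : ∀ τ : ℍ, HasSum (fun m => intC (torCoeff (zInt N) 1 a b m -
      torCoeff (zInt N) 1 a b' m) * 𝕢 (N : ℝ) τ ^ m) (torX N v τ - torX N w τ) := fun τ => by
    convert! hasSum_diff hv hw τ using 2 with m
    rw [diffCoeff_of_ne_zero h0 (by rw [heq]; exact h0), heq]
  by_cases hsym : a = -a
  · have hbb' : b + b' ≠ 0 := fun h => hne (Or.inr fun i => by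
      fin_cases i
      · refine (ZMod.intCast_zmod_eq_zero_iff_dvd _ _).mp ?_
        push_cast
        show a + (w 0 : ZMod N) = 0
        rw [heq, eq_neg_iff_add_eq_zero.mp hsym]
      · exact (ZMod.intCast_zmod_eq_zero_iff_dvd _ _).mp (by push_cast; exact h))
    refine leadSeries_of_dvd ((zr b - zr b') * (1 - zr (-b) * zr (-b'))) ?_ _ a.val 1 isUnit_one
      (fun m => dvd_torCoeff_sub_symm zInt_pow a hsym b b' m) ?_ (fun m hm => ?_) hs
    · push_cast
      refine (NUnit.zr_sub_zr hbb).mul ?_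
      rw [show (zr (-b) : Qb) * zr (-b') = (zr (-b + -b') : Qb) by rw [zr_add]; rfl]
      exact NUnit.one_sub_zr (by rw [← neg_add, ne_eq, neg_eq_zero]; exact hbb')
    · rw [torCoeff_of_le _ 1 a b (lt_val_ne ha) le_rfl,
        torCoeff_of_le _ 1 a b' (lt_val_ne ha) le_rfl, if_pos (show a.val = a.val ∧ 0 < a.val from ⟨rfl, hapos⟩), if_pos (show a.val = a.val ∧ 0 < a.val from ⟨rfl, hapos⟩),
        ZMod.natCast_zmod_val, if_pos rfl, if_pos rfl, if_pos hsym, if_pos hsym]
      simp only [show ∀ x : ZMod N, zpowMod (zInt N) x = zr x from fun _ => rfl]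
      linear_combination (zr (-b')) * zr_mul_neg b - (zr (-b)) * zr_mul_neg b'
    · rw [torCoeff_of_le _ 1 a b (lt_val_ne ha) hm.le,
        torCoeff_of_le _ 1 a b' (lt_val_ne ha) hm.le, if_neg (fun h => by omega),
        if_neg (fun h => by omega), sub_zero]
  · refine leadSeries_of_dvd (zr b - zr b') ?_ _ a.val 1 isUnit_one
      (fun m => dvd_torCoeff_sub zInt_pow 1 a b b' m) ?_ (fun m hm => ?_) hs
    · push_cast
      exact NUnit.zr_sub_zr hbb
    · rw [torCoeff_of_le _ 1 a b (lt_val_ne ha) le_rfl,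
        torCoeff_of_le _ 1 a b' (lt_val_ne ha) le_rfl, if_pos (show a.val = a.val ∧ 0 < a.val from ⟨rfl, hapos⟩), if_pos (show a.val = a.val ∧ 0 < a.val from ⟨rfl, hapos⟩),
        ZMod.natCast_zmod_val, if_pos rfl, if_pos rfl, if_neg hsym, if_neg hsym]
      simp [zr]
    · rw [torCoeff_of_le _ 1 a b (lt_val_ne ha) hm.le,
        torCoeff_of_le _ 1 a b' (lt_val_ne ha) hm.le, if_neg (fun h => by omega),
        if_neg (fun h => by omega), sub_zero]

theorem iota_zr (x : ZMod N) : iota (zr x : Qb) = zpowMod (zetaC N) x := intC_zr x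

theorem one_sub_zr_ne {x : ZMod N} (hx : x ≠ 0) : (1 : Qb) - zr x ≠ 0 := (NUnit.one_sub_zr hx).1

theorem iota_rowF {x : ZMod N} :
    iota ((zr x : Qb) / (1 - zr x) ^ 2) = rowF (zpowMod (zetaC N) x) := by
  rw [map_div₀, map_pow, map_sub, map_one, iota_zr, rowF]

theorem snd_ne_zero (hv : VecNondeg N v) (ha : (v 0 : ZMod N) = 0) : (v 1 : ZMod N) ≠ 0 := by
  intro hb
  refine hv fun i => ?_
  fin_cases i
  · exact (ZMod.intCast_zmod_eq_zero_iff_dvd _ _).mp ha
  · exact (ZMod.intCast_zmod_eq_zero_iff_dvd _ _).mp hb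

/-- One class at the cusp. -/
theorem leadSeries_diff_cusp (hv : VecNondeg N v) (hw : VecNondeg N w)
    (ha : (v 0 : ZMod N) = 0) (hw0 : (w 0 : ZMod N) ≠ 0) :
    LeadSeries N (fun τ => torX N v τ - torX N w τ) := by
  set b := (v 1 : ZMod N) with hbdef
  have hb := snd_ne_zero hv ha
  have hc : NUnit N ((zr b : Qb) / (1 - zr b) ^ 2) :=
    (NUnit.of_isUnit (isUnit_zr b)).div ((NUnit.one_sub_zr hb).pow 2)
  refine leadSeries_of_const _ hc (fun m => torCoeff (zInt N) 1 (v 0 : ZMod N) b m -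
    torCoeff (zInt N) 1 (w 0 : ZMod N) (w 1 : ZMod N) m) ?_ (fun m => ?_) (fun τ => ?_)
  · simp [torCoeff_zero]
  · refine ⟨(1 - zr b) ^ 2 * zr (-b) * (torCoeff (zInt N) 1 (v 0 : ZMod N) b m -
      torCoeff (zInt N) 1 (w 0 : ZMod N) (w 1 : ZMod N) m), ?_⟩
    push_cast
    have h1 : (zr b : Qb) * zr (-b) = 1 := congrArg Subtype.val (zr_mul_neg b)
    have h2 : (1 : Qb) - zr b ≠ 0 := one_sub_zr_ne hb
    rw [div_mul_eq_mul_div, div_eq_iff (pow_ne_zero 2 h2)]
    linear_combination (1 - (zr b : Qb)) ^ 2 *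
      (((torCoeff (zInt N) 1 (v 0 : ZMod N) b m : Zb) : Qb) -
        ((torCoeff (zInt N) 1 (w 0 : ZMod N) (w 1 : ZMod N) m : Zb) : Qb)) * h1
  · convert! hasSum_diff hv hw τ using 2 with m
    rw [diffCoeff, constX, constX, if_pos ha, if_neg hw0, sub_zero, iota_rowF, map_sub,
      intC_torCoeff, intC_torCoeff]

/-- Both classes at the cusp. -/
theorem leadSeries_diff_both (hv : VecNondeg N v) (hw : VecNondeg N w) (hne : ¬ VecEq N v w)
    (ha : (v 0 : ZMod N) = 0) (ha' : (w 0 : ZMod N) = 0) :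
    LeadSeries N (fun τ => torX N v τ - torX N w τ) := by
  set b := (v 1 : ZMod N) with hbdef
  set b' := (w 1 : ZMod N) with hbdef'
  have hb := snd_ne_zero hv ha
  have hb' := snd_ne_zero hw ha'
  have hbb : b ≠ b' := fun h => hne (Or.inl fun i => by
    fin_cases i
    · exact (ZMod.intCast_eq_intCast_iff_dvd_sub _ _ _).mp (ha'.trans ha.symm)
    · exact (ZMod.intCast_eq_intCast_iff_dvd_sub _ _ _).mp h.symm)
  have hbb' : b + b' ≠ 0 := fun h => hne (Or.inr fun i => by
    fin_cases i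
    · refine (ZMod.intCast_zmod_eq_zero_iff_dvd _ _).mp ?_
      push_cast
      show (v 0 : ZMod N) + (w 0 : ZMod N) = 0
      rw [ha, ha', add_zero]
    · exact (ZMod.intCast_zmod_eq_zero_iff_dvd _ _).mp (by push_cast; exact h))
  set c : Qb := (zr b : Qb) / (1 - zr b) ^ 2 - (zr b' : Qb) / (1 - zr b') ^ 2 with hcdef
  have h1 : (1 : Qb) - zr b ≠ 0 := one_sub_zr_ne hb
  have h1' : (1 : Qb) - zr b' ≠ 0 := one_sub_zr_ne hb'
  have hcval : c = ((zr b : Qb) - zr b') * (1 - (zr (b + b') : Qb)) /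
      ((1 - zr b) ^ 2 * (1 - zr b') ^ 2) := by
    rw [hcdef, zr_add]
    push_cast
    field_simp
    ring
  have hc : NUnit N c := by
    rw [hcval]
    exact ((NUnit.zr_sub_zr hbb).mul (NUnit.one_sub_zr hbb')).div
      (((NUnit.one_sub_zr hb).pow 2).mul ((NUnit.one_sub_zr hb').pow 2))
  refine leadSeries_of_const c hc (fun m => torCoeff (zInt N) 1 (0 : ZMod N) b m -
    torCoeff (zInt N) 1 (0 : ZMod N) b' m) ?_ (fun m => ?_) (fun τ => ?_)
  · simp [torCoeff_zero]
  · obtain ⟨E, hE⟩ := dvd_torCoeff_sub_symm zInt_pow (0 : ZMod N) (by simp) b b' m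
    simp only [hE]
    refine ⟨-((1 - zr b) ^ 2 * (1 - zr b') ^ 2 * (zr (-b) * zr (-b')) * E), ?_⟩
    have hm1 : (zr b : Qb) * zr (-b) = 1 := congrArg Subtype.val (zr_mul_neg b)
    have hm2 : (zr b' : Qb) * zr (-b') = 1 := congrArg Subtype.val (zr_mul_neg b')
    rw [hcval, zr_add]
    push_cast
    simp only [show (zpowMod (zInt N) b : Zb) = zr b from rfl,
      show (zpowMod (zInt N) b' : Zb) = zr b' from rfl,
      show (zpowMod (zInt N) (-b) : Zb) = zr (-b) from rfl,
      show (zpowMod (zInt N) (-b') : Zb) = zr (-b') from rfl]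
    rw [div_mul_eq_mul_div, div_eq_iff (mul_ne_zero (pow_ne_zero 2 h1) (pow_ne_zero 2 h1'))]
    linear_combination ((zr b : Qb) - zr b') * ((1 - (zr b : Qb)) ^ 2 * (1 - (zr b' : Qb)) ^ 2) *
      (E : Qb) * (((zr b' : Qb) * zr (-b')) * hm1 + hm2)
  · convert! hasSum_diff hv hw τ using 2 with m
    rw [diffCoeff, constX, constX, if_pos ha, if_pos ha', hcdef, map_sub, map_sub, iota_rowF,
      iota_rowF, intC_torCoeff, intC_torCoeff, ha, ha']

theorem exists_normal (hv : VecNondeg N v) : ∃ v', VecEq N v v' ∧ VecNondeg N v' ∧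
    2 * (v' 0 : ZMod N).val ≤ N := by
  rcases le_total (2 * (v 0 : ZMod N).val) N with h | h
  · exact ⟨v, Or.inl (fun i => by simp), hv, h⟩
  · refine ⟨-v, Or.inr (fun i => by simp), fun h' => hv (fun i => by simpa using h' i), ?_⟩
    have h0 : (v 0 : ZMod N) ≠ 0 := fun h0 => by simp [h0, NeZero.ne N] at h
    haveI : NeZero ((v 0 : ZMod N)) := ⟨h0⟩
    simp only [Pi.neg_apply, Int.cast_neg, ZMod.val_neg_of_ne_zero]
    omega

omit [NeZero N] in
theorem VecEq.symm {a b : Fin 2 → ℤ} (h : VecEq N a b) : VecEq N b a :=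
  h.imp (fun h i => by have := (h i).neg_right; rwa [neg_sub] at this)
    (fun h i => by rw [add_comm]; exact h i)

omit [NeZero N] in
theorem VecEq.trans {a b c : Fin 2 → ℤ} (h : VecEq N a b) (h' : VecEq N b c) : VecEq N a c := by
  rcases h with h | h <;> rcases h' with h' | h'
  · exact Or.inl fun i => by simpa using dvd_add (h i) (h' i)
  · exact Or.inr fun i => by convert! dvd_add (h i) (h' i) using 1; ring
  · exact Or.inr fun i => by convert! dvd_sub (h i) (h' i) using 1; ring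
  · exact Or.inl fun i => by convert! dvd_sub (h i) (h' i) using 1; ring

theorem leadSeries_diff (hv : VecNondeg N v) (hw : VecNondeg N w) (hne : ¬ VecEq N v w) :
    LeadSeries N (fun τ => torX N v τ - torX N w τ) := by
  obtain ⟨v', hvv, hv', ha⟩ := exists_normal hv
  obtain ⟨w', hww, hw', hb⟩ := exists_normal hw
  rw [torX_of_vecEq hvv, torX_of_vecEq hww]
  have hne' : ¬ VecEq N v' w' := fun h => hne ((hvv.trans h).trans hww.symm)
  have hneg : (fun τ => torX N v' τ - torX N w' τ) = -fun τ => torX N w' τ - torX N v' τ := by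
    funext τ; simp
  by_cases h0 : (v' 0 : ZMod N) = 0 <;> by_cases h0' : (w' 0 : ZMod N) = 0
  · exact leadSeries_diff_both hv' hw' hne' h0 h0'
  · exact leadSeries_diff_cusp hv' hw' h0 h0'
  · rw [hneg]; exact (leadSeries_diff_cusp hw' hv' h0' h0).neg
  · rcases lt_trichotomy (v' 0 : ZMod N).val (w' 0 : ZMod N).val with hlt | heq | hlt
    · exact leadSeries_diff_lt hv' hw' h0 ha hb hlt
    · exact leadSeries_diff_eq hv' hw' hne' h0 ha (ZMod.val_injective N heq.symm)
    · rw [hneg]; exact (leadSeries_diff_lt hw' hv' h0' hb ha hlt).neg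

/-- `y_v`, normalised. -/
theorem leadSeries_torY_aux (hv : VecNondeg N v) (hv2 : VecNondeg N (2 • v))
    (ha : 2 * (v 0 : ZMod N).val ≤ N) : LeadSeries N (torY N v) := by
  set a := (v 0 : ZMod N) with hadef
  set b := (v 1 : ZMod N) with hbdef
  have h2 : a = -a → b ≠ -b := fun hsym hb => hv2 fun i => by
    refine (ZMod.intCast_zmod_eq_zero_iff_dvd _ _).mp ?_
    fin_cases i <;> simp [two_mul]
    · exact eq_neg_iff_add_eq_zero.mp hsym
    · exact eq_neg_iff_add_eq_zero.mp hb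
  have hsum : a ≠ 0 → ∀ τ : ℍ, HasSum (fun m => intC (torCoeff (zInt N) 2 a b m) *
      𝕢 (N : ℝ) τ ^ m) (torY N v τ) := fun h0 τ => by
    convert! hasSum_torY hv τ using 2 with m
    rw [intC_torCoeff, yCoeff, constY, if_neg h0]
    simp [hadef, hbdef]
  by_cases h0 : a = 0
  · have hb := snd_ne_zero hv h0
    have h2b : 2 * b ≠ 0 := fun h => h2 (by rw [h0, neg_zero])
      (eq_neg_iff_add_eq_zero.mpr (by rw [← two_mul]; exact h))
    have h1 : (1 : Qb) - zr b ≠ 0 := one_sub_zr_ne hb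
    have hc : NUnit N ((zr b : Qb) * (1 + zr b) / (1 - zr b) ^ 3) :=
      ((NUnit.of_isUnit (isUnit_zr b)).mul (NUnit.one_add_zr hb h2b)).div
        ((NUnit.one_sub_zr hb).pow 3)
    refine leadSeries_of_const _ hc (fun m => torCoeff (zInt N) 2 a b m) ?_ (fun m => ?_)
      (fun τ => ?_)
    · simp [torCoeff_zero]
    · obtain ⟨E, hE⟩ := dvd_torCoeff_two zInt_pow a (by rw [h0, neg_zero]) b m
      simp only [hE]
      refine ⟨-((1 - zr b) ^ 4 * zr (-b) ^ 2 * E), ?_⟩
      have hm : (zr b : Qb) * zr (-b) = 1 := congrArg Subtype.val (zr_mul_neg b)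
      push_cast
      simp only [show (zpowMod (zInt N) b : Zb) = zr b from rfl,
        show (zpowMod (zInt N) (-b) : Zb) = zr (-b) from rfl]
      rw [div_mul_eq_mul_div, div_eq_iff (pow_ne_zero 3 h1)]
      linear_combination ((1 - (zr b : Qb)) ^ 3 * (E : Qb) *
        (-(zr (-b) : Qb) + zr b * ((zr b : Qb) * zr (-b) + 1))) * hm
    · convert! hasSum_torY hv τ using 2 with m
      rw [yCoeff, constY, if_pos h0, intC_torCoeff, map_div₀, map_pow, map_sub, map_mul, map_add,
        map_one, iota_zr, rowG]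
  · have hapos : 0 < a.val := Nat.pos_of_ne_zero (fun h => h0 ((ZMod.val_eq_zero a).mp h))
    by_cases hsym : a = -a
    · refine leadSeries_of_dvd (zr b - zr (-b)) ?_ _ a.val 1 isUnit_one
        (fun m => dvd_torCoeff_two zInt_pow a hsym b m) ?_ (fun m hm => ?_) (hsum h0)
      · push_cast
        exact NUnit.zr_sub_zr (h2 hsym)
      · rw [torCoeff_of_le _ 2 a b (lt_val_ne ha) le_rfl, if_pos (show a.val = a.val ∧ 0 < a.val from ⟨rfl, hapos⟩),
          ZMod.natCast_zmod_val, if_pos rfl, if_pos hsym]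
        simp only [show ∀ x : ZMod N, zpowMod (zInt N) x = zr x from fun _ => rfl]
        ring
      · rw [torCoeff_of_le _ 2 a b (lt_val_ne ha) hm.le, if_neg (fun h => by omega)]
    · refine leadSeries_of_dvd 1 (NUnit.of_isUnit isUnit_one) _ a.val (zr b) (isUnit_zr b)
        (fun m => one_dvd _) ?_ (fun m hm => ?_) (hsum h0)
      · rw [torCoeff_of_le _ 2 a b (lt_val_ne ha) le_rfl, if_pos (show a.val = a.val ∧ 0 < a.val from ⟨rfl, hapos⟩),
          ZMod.natCast_zmod_val, if_pos rfl, if_neg hsym]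
        simp [zr]
      · rw [torCoeff_of_le _ 2 a b (lt_val_ne ha) hm.le, if_neg (fun h => by omega)]

theorem leadSeries_torY (hv : VecNondeg N v) (hv2 : VecNondeg N (2 • v)) :
    LeadSeries N (torY N v) := by
  by_cases ha : 2 * (v 0 : ZMod N).val ≤ N
  · exact leadSeries_torY_aux hv hv2 ha
  · have h0 : (v 0 : ZMod N) ≠ 0 := fun h0 => by simp [h0] at ha
    haveI : NeZero ((v 0 : ZMod N)) := ⟨h0⟩
    have h := leadSeries_torY_aux (v := -v) (fun h => hv fun i => by simpa using h i)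
      (fun h => hv2 fun i => by simpa using h i) (by
        simp only [Pi.neg_apply, Int.cast_neg, ZMod.val_neg_of_ne_zero]
        omega)
    convert! h.neg using 1
    funext τ
    simp [torY_neg]

end FLTA.DeligneSerre
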