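import Mathlib.NumberTheory.ModularForms.EisensteinSeries.QExpansion
import Mathlib.Analysis.Normed.Group.FunctionSeries
import Mathlib.Analysis.SpecificLimits.Normed

/-!
# The sums `∑ 1 / (w + n) ^ k` over the integers, for `k = 2, 3`

Their closed forms in `u = exp (2 π i w)`, valid for every non-integral complex `w`.
-/

set_option autoImplicit false

noncomputable section

open Complex Filter Topology
open scoped Real

namespace FLTA.DeligneSerre

/-- `u / (1 - u) ^ 2 = ∑ d u ^ d`. -/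
def rowF (u : ℂ) : ℂ := u / (1 - u) ^ 2

/-- `u (1 + u) / (1 - u) ^ 3 = ∑ d ^ 2 u ^ d`. -/
def rowG (u : ℂ) : ℂ := u * (1 + u) / (1 - u) ^ 3

/-- `∑ 1 / (w + n) ^ k`. -/
def rowSum (k : ℕ) (w : ℂ) : ℂ := ∑' n : ℤ, 1 / (w + n) ^ k

/-- `exp (2 π i w)`. -/
def expTwo (w : ℂ) : ℂ := Complex.exp (2 * π * Complex.I * w)

theorem expTwo_eq_one_iff {w : ℂ} : expTwo w = 1 ↔ ∃ n : ℤ, (n : ℂ) = w := by
  rw [expTwo, Complex.exp_eq_one_iff]
  have h : (2 * π * Complex.I : ℂ) ≠ 0 := two_pi_I_ne_zero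
  constructor
  · rintro ⟨n, hn⟩
    exact ⟨n, mul_left_cancel₀ h (by linear_combination -hn)⟩
  · rintro ⟨n, rfl⟩
    exact ⟨n, by ring⟩

theorem norm_expTwo_lt_one {w : ℂ} (hw : 0 < w.im) : ‖expTwo w‖ < 1 := by
  rw [expTwo, Complex.norm_exp, Real.exp_lt_one_iff]
  simp [Complex.mul_re]
  positivity

theorem rowF_inv (u : ℂ) : rowF u⁻¹ = rowF u := by
  rcases eq_or_ne u 0 with rfl | hu
  · simp
  rcases eq_or_ne u 1 with rfl | hu1
  · simp
  have : 1 - u ≠ 0 := sub_ne_zero.mpr (Ne.symm hu1)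
  simp only [rowF]
  field_simp
  ring

theorem rowG_inv (u : ℂ) : rowG u⁻¹ = -rowG u := by
  rcases eq_or_ne u 0 with rfl | hu
  · simp [rowG]
  rcases eq_or_ne u 1 with rfl | hu1
  · simp [rowG]
  have h1 : 1 - u ≠ 0 := sub_ne_zero.mpr (Ne.symm hu1)
  have h2 : u - 1 ≠ 0 := sub_ne_zero.mpr hu1
  simp only [rowG]
  rw [show 1 - u⁻¹ = -(1 - u) / u by field_simp; ring]
  field_simp
  ring

theorem hasSum_rowF {u : ℂ} (hu : ‖u‖ < 1) :
    HasSum (fun d : ℕ => (d : ℂ) ^ 1 * u ^ d) (rowF u) := by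
  simpa using! hasSum_coe_mul_geometric_of_norm_lt_one hu

theorem hasSum_rowG {u : ℂ} (hu : ‖u‖ < 1) :
    HasSum (fun d : ℕ => (d : ℂ) ^ 2 * u ^ d) (rowG u) := by
  have h0 := hasSum_geometric_of_norm_lt_one hu
  have h1 := hasSum_choose_mul_geometric_of_norm_lt_one 1 hu
  have h2 := hasSum_choose_mul_geometric_of_norm_lt_one 2 hu
  have h := ((h2.mul_left 2).sub (h1.mul_left 3)).add h0
  have hne : 1 - u ≠ 0 := sub_ne_zero.mpr (fun h' => by simp [← h'] at hu)
  convert! h using 1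
  · funext d
    rw [Nat.choose_one_right, Nat.cast_choose_two]
    push_cast
    ring
  · simp only [rowG]
    field_simp
    ring

theorem rowSum_neg (k : ℕ) (w : ℂ) : rowSum k (-w) = (-1) ^ k * rowSum k w := by
  rw [rowSum, rowSum, ← (Equiv.neg ℤ).tsum_eq (fun n : ℤ => 1 / (-w + n) ^ k), ← tsum_mul_left]
  refine tsum_congr fun n => ?_
  rw [Equiv.neg_apply, Int.cast_neg, show -w + -(n : ℂ) = -1 * (w + n) by ring, mul_pow,
    one_div, one_div, mul_inv, ← inv_pow, show ((-1 : ℂ))⁻¹ = -1 by norm_num]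

theorem summable_row {k : ℕ} (hk : 2 ≤ k) (w : ℂ) :
    Summable fun n : ℤ => 1 / (w + n) ^ k := by
  refine (EisensteinSeries.linear_right_summable w 1 (k := (k : ℤ)) (by omega)).congr fun n => ?_
  simp

theorem hasSum_row {k : ℕ} (hk : 2 ≤ k) (w : ℂ) :
    HasSum (fun n : ℤ => 1 / (w + n) ^ k) (rowSum k w) :=
  (summable_row hk w).hasSum

theorem continuousAt_rowSum {k : ℕ} (hk : 2 ≤ k) {w : ℂ} (hw : ¬ ∃ n : ℤ, (n : ℂ) = w) :
    ContinuousAt (rowSum k) w := by
  obtain ⟨δ, hδ, hball⟩ : ∃ δ > 0, ∀ n : ℤ, δ ≤ ‖w + n‖ := by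
    have hcl : IsClosed (Set.range ((↑) : ℤ → ℂ)) := Complex.isClosed_range_intCast
    have hmem : -w ∈ (Set.range ((↑) : ℤ → ℂ))ᶜ := by
      rintro ⟨n, hn⟩
      exact hw ⟨-n, by push_cast; rw [hn]; ring⟩
    obtain ⟨δ, hδ, hsub⟩ := Metric.isOpen_iff.mp hcl.isOpen_compl _ hmem
    refine ⟨δ, hδ, fun n => not_lt.mp fun hlt => hsub ?_ ⟨n, rfl⟩⟩
    rw [Metric.mem_ball, dist_eq_norm, show (n : ℂ) - -w = w + n by ring]
    exact hlt
  have hs : ∀ n : ℤ, ∀ z ∈ Metric.closedBall w (δ / 2), ‖w + n‖ / 2 ≤ ‖z + n‖ := by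
    intro n z hz
    rw [Metric.mem_closedBall, dist_eq_norm] at hz
    have h1 : ‖w + n‖ ≤ ‖z + n‖ + ‖z - w‖ := by
      calc ‖w + n‖ = ‖(z + n) - (z - w)‖ := by congr 1; ring
        _ ≤ _ := norm_sub_le _ _
    linarith [hball n]
  have hc : ContinuousOn (rowSum k) (Metric.closedBall w (δ / 2)) := by
    refine continuousOn_tsum (u := fun n : ℤ => 2 ^ k * ‖1 / (w + n) ^ k‖) (fun n => ?_)
      ((summable_row hk w).norm.mul_left _) (fun n z hz => ?_)
    · refine ContinuousOn.div continuousOn_const (by fun_prop) (fun z hz => ?_)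
      have := hs n z hz
      have := hball n
      exact pow_ne_zero _ (norm_pos_iff.mp (by linarith))
    · have h2 := hs n z hz
      have h3 := hball n
      simp only [norm_div, norm_one, norm_pow]
      rw [mul_one_div, div_le_div_iff₀ (pow_pos (by linarith) _) (pow_pos (by linarith) _),
        one_mul, ← mul_pow]
      exact pow_le_pow_left₀ (norm_nonneg _) (by linarith) _
  exact hc.continuousAt (Metric.closedBall_mem_nhds _ (by linarith))

/-- Extending an identity between a row sum and a function of `exp (2 π i w)` from `ℍ`. -/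
theorem rowSum_eq_of_upper {k : ℕ} (hk : 2 ≤ k) (f : ℂ → ℂ) (c : ℂ)
    (hf : ∀ u, u ≠ 1 → ContinuousAt f u) (hinv : ∀ u, f u⁻¹ = (-1) ^ k * f u)
    (hup : ∀ w : ℂ, 0 < w.im → rowSum k w = c * f (expTwo w))
    {w : ℂ} (hw : ¬ ∃ n : ℤ, (n : ℂ) = w) : rowSum k w = c * f (expTwo w) := by
  have hneg : ∀ v : ℂ, expTwo (-v) = (expTwo v)⁻¹ := fun v => by
    simp [expTwo, Complex.exp_neg]
  rcases lt_trichotomy 0 w.im with him | him | him
  · exact hup w him
  · set γ : ℝ → ℂ := fun t => w + t * Complex.I with hγ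
    have hγc : Tendsto γ (𝓝[>] 0) (𝓝 w) := by
      have : Continuous γ := by fun_prop
      simpa [hγ] using (this.tendsto 0).mono_left nhdsWithin_le_nhds
    have h1 := (continuousAt_rowSum hk hw).tendsto.comp hγc
    have h2 : ContinuousAt (fun v => c * f (expTwo v)) w := by
      refine continuousAt_const.mul ?_
      exact ContinuousAt.comp (hf _ (fun h => hw (expTwo_eq_one_iff.mp h)))
        (by unfold expTwo; fun_prop)
    refine tendsto_nhds_unique (h1.congr' ?_) (h2.tendsto.comp hγc)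
    filter_upwards [self_mem_nhdsWithin] with t ht
    exact hup _ (by simpa [hγ, ← him] using ht)
  · have h := hup (-w) (by simpa using him)
    rw [rowSum_neg, hneg, hinv] at h
    have h1 : ((-1 : ℂ) ^ k) ≠ 0 := pow_ne_zero _ (by norm_num)
    exact mul_left_cancel₀ h1 (by linear_combination h)

theorem rowSum_two {w : ℂ} (hw : ¬ ∃ n : ℤ, (n : ℂ) = w) :
    rowSum 2 w = (2 * π * Complex.I) ^ 2 * rowF (expTwo w) := by
  refine rowSum_eq_of_upper le_rfl rowF _ (fun u hu => ?_) (fun u => by simp [rowF_inv]) ?_ hw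
  · exact continuousAt_id.div (by fun_prop) (pow_ne_zero _ (sub_ne_zero.mpr (Ne.symm hu)))
  · intro w hw
    have h := EisensteinSeries.qExpansion_identity le_rfl ⟨w, hw⟩
    simp only [rowSum, Nat.reduceAdd] at h ⊢
    rw [h, ← expTwo, (hasSum_rowF (norm_expTwo_lt_one hw)).tsum_eq]
    simp

theorem rowSum_three {w : ℂ} (hw : ¬ ∃ n : ℤ, (n : ℂ) = w) :
    rowSum 3 w = -(2 * π * Complex.I) ^ 3 / 2 * rowG (expTwo w) := by
  refine rowSum_eq_of_upper (by norm_num) rowG _ (fun u hu => ?_)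
    (fun u => by rw [rowG_inv]; ring) ?_ hw
  · exact ContinuousAt.div (by fun_prop) (by fun_prop)
      (pow_ne_zero _ (sub_ne_zero.mpr (Ne.symm hu)))
  · intro w hw
    have h := EisensteinSeries.qExpansion_identity (k := 2) (by norm_num) ⟨w, hw⟩
    simp only [rowSum, Nat.reduceAdd] at h ⊢
    rw [h, ← expTwo, (hasSum_rowG (norm_expTwo_lt_one hw)).tsum_eq]
    simp [Nat.factorial]
    left; ring

/-- The row through the origin. -/
theorem rowSum_two_zero : rowSum 2 0 = (π : ℂ) ^ 2 / 3 := by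
  have h : HasSum (fun n : ℕ => 1 / ((n : ℂ)) ^ 2) ((π : ℂ) ^ 2 / 6) := by
    have := Complex.hasSum_ofReal.mpr hasSum_zeta_two
    simpa using this
  have h' : HasSum (fun n : ℕ => 1 / ((n : ℂ) + 1) ^ 2) ((π : ℂ) ^ 2 / 6) := by
    have := (hasSum_nat_add_iff' 1).mpr h
    simpa using this
  refine HasSum.tsum_eq ?_
  have e : (π : ℂ) ^ 2 / 3 = π ^ 2 / 6 + π ^ 2 / 6 := by ring
  rw [e]
  refine HasSum.of_nat_of_neg_add_one ?_ ?_
  · simpa using! h
  · convert! h' using 1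
    funext n
    push_cast
    ring

end FLTA.DeligneSerre
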