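import Fermat.Agent.DeligneSerre.Level.TorsionDefs
import Fermat.Agent.DeligneSerre.Level.TorsionRow
import Mathlib.NumberTheory.TsumDivisorsAntidiagonal
import Mathlib.Data.ZMod.Basic

/-!
# The `q`-series of `℘` and `℘'` at `N`-division points

With `ζ = exp (2 π i / N)` and `Q = exp (2 π i τ / N)`.
-/

set_option autoImplicit false

noncomputable section

open scoped Real
open UpperHalfPlane Complex Filter

namespace FLTA.DeligneSerre

/-- `exp (2 π i / N)`. -/
def zetaC (N : ℕ) : ℂ := Complex.exp (2 * π * Complex.I / N)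

/-- `z` to a power given modulo `N`. -/
def zpowMod {R : Type*} [Monoid R] {N : ℕ} (z : R) (x : ZMod N) : R := z ^ x.val

/-- One half of the summand. -/
def torHalf {R : Type*} [CommRing R] {N : ℕ} (z : R) (e : ℕ) (a b : ZMod N) (j d : ℕ) : R :=
  if (j : ZMod N) = a then (d : R) ^ e * zpowMod z (b * (d : ZMod N)) else 0

/-- The coefficient of `Q ^ n` in `∑ j, d` of `d ^ e ζ ^ (± b d) Q ^ (j d)` over `j ≡ ± a`, with the
sign `(-1) ^ (e + 1)` on the second half. -/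
def torCoeff {R : Type*} [CommRing R] {N : ℕ} (z : R) (e : ℕ) (a b : ZMod N) (n : ℕ) : R :=
  ∑ x ∈ n.divisorsAntidiagonal,
    (torHalf z e a b x.1 x.2 + (-1) ^ (e + 1) * torHalf z e (-a) (-b) x.1 x.2)

variable {N : ℕ} [NeZero N]

theorem zetaC_zpow (x : ℤ) : zetaC N ^ x = expTwo ((x : ℂ) / N) := by
  rw [zetaC, expTwo, ← Complex.exp_int_mul]
  congr 1; ring

theorem zpowMod_zetaC (x : ℤ) : zpowMod (zetaC N) (x : ZMod N) = expTwo ((x : ℂ) / N) := by
  have hN : (N : ℂ) ≠ 0 := NeZero.ne _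
  rw [zpowMod, ← zpow_natCast, zetaC_zpow, ZMod.val_intCast, expTwo, expTwo,
    Complex.exp_eq_exp_iff_exists_int]
  refine ⟨-(x / N), ?_⟩
  have hdm : ((x % N : ℤ) : ℂ) + (N : ℂ) * ((x / N : ℤ) : ℂ) = x := by
    exact_mod_cast Int.emod_add_mul_ediv x N
  push_cast
  field_simp
  linear_combination hdm

theorem norm_zpowMod_zetaC (x : ZMod N) : ‖zpowMod (zetaC N) x‖ = 1 := by
  obtain ⟨y, rfl⟩ := ZMod.intCast_surjective x
  rw [zpowMod_zetaC, expTwo, Complex.norm_exp]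
  simp [Complex.mul_re, Complex.div_natCast_im, Complex.div_natCast_re]

theorem zpowMod_mul (b : ZMod N) (d : ℕ) :
    zpowMod (zetaC N) (b * (d : ZMod N)) = zpowMod (zetaC N) b ^ d := by
  obtain ⟨y, rfl⟩ := ZMod.intCast_surjective b
  rw [show (y : ZMod N) * (d : ZMod N) = ((y * d : ℤ) : ZMod N) by push_cast; rfl, zpowMod_zetaC,
    zpowMod_zetaC, expTwo, expTwo, ← Complex.exp_nat_mul]
  congr 1; push_cast; ring

theorem zpowMod_neg (b : ZMod N) :
    zpowMod (zetaC N) (-b) = (zpowMod (zetaC N) b)⁻¹ := by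
  obtain ⟨y, rfl⟩ := ZMod.intCast_surjective b
  rw [show -(y : ZMod N) = ((-y : ℤ) : ZMod N) by push_cast; rfl, zpowMod_zetaC, zpowMod_zetaC,
    expTwo, expTwo, ← Complex.exp_neg]
  congr 1; push_cast; ring

/-- The summand of row `i` in the reindexed row sum. -/
def torG (F : ℂ → ℂ) (a b : ZMod N) (Q : ℂ) (i : ℤ) : ℂ :=
  if (i : ZMod N) = a then F (zpowMod (zetaC N) b * Q ^ i) else 0

theorem summable_torHalf (e : ℕ) (a b : ZMod N) {Q : ℂ} (hQ : ‖Q‖ < 1) :
    Summable fun p : ℕ+ × ℕ+ =>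
      torHalf (zetaC N) e a b p.1 p.2 * Q ^ ((p.1 : ℕ) * p.2) := by
  refine Summable.of_norm_bounded (summable_prod_mul_pow e hQ).norm fun p => ?_
  rw [norm_mul, norm_mul, torHalf]
  split_ifs
  · rw [norm_mul, norm_zpowMod_zetaC, mul_one]
  · rw [norm_zero, zero_mul]; positivity

theorem hasSum_torCoeff (e : ℕ) (a b : ZMod N) {Q : ℂ} (hQ : ‖Q‖ < 1) :
    HasSum (fun n : ℕ => torCoeff (zetaC N) e a b n * Q ^ n)
      ((∑' p : ℕ+ × ℕ+, torHalf (zetaC N) e a b p.1 p.2 * Q ^ ((p.1 : ℕ) * p.2)) +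
        (-1) ^ (e + 1) *
          ∑' p : ℕ+ × ℕ+, torHalf (zetaC N) e (-a) (-b) p.1 p.2 * Q ^ ((p.1 : ℕ) * p.2)) := by
  have h := (summable_torHalf e a b hQ).hasSum.add
    ((summable_torHalf e (-a) (-b) hQ).hasSum.mul_left ((-1 : ℂ) ^ (e + 1)))
  rw [← sigmaAntidiagonalEquivProd.hasSum_iff] at h
  have h' := h.sigma (fun n => hasSum_fintype _)
  rw [← PNat.coe_injective.hasSum_iff (f := fun n : ℕ => torCoeff (zetaC N) e a b n * Q ^ n)]
  · convert! h' using 1
    funext n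
    simp only [Function.comp_apply, torCoeff, Finset.sum_mul, Finset.univ_eq_attach]
    rw [← Finset.sum_attach]
    refine Finset.sum_congr rfl fun x _ => ?_
    have hx : (x.1.1 : ℕ) * x.1.2 = n := (Nat.mem_divisorsAntidiagonal.mp x.2).1
    simp only [sigmaAntidiagonalEquivProd, Equiv.coe_fn_mk, divisorsAntidiagonalFactors,
      PNat.mk_coe, hx]
    ring
  · intro n hn
    rcases Nat.eq_zero_or_pos n with rfl | hpos
    · simp [torCoeff]
    · exact absurd ⟨⟨n, hpos⟩, rfl⟩ hn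

theorem hasSum_torG (F : ℂ → ℂ) (e : ℕ) (he : e ≠ 0)
    (hF : ∀ {u : ℂ}, ‖u‖ < 1 → HasSum (fun d : ℕ => (d : ℂ) ^ e * u ^ d) (F u))
    (hinv : ∀ u, F u⁻¹ = (-1) ^ (e + 1) * F u) (a b : ZMod N) {Q : ℂ} (hQ : ‖Q‖ < 1) :
    HasSum (torG F a b Q) ((if a = 0 then F (zpowMod (zetaC N) b) else 0) +
      ∑' n : ℕ, torCoeff (zetaC N) e a b n * Q ^ n) := by
  have hpos : ∀ a b : ZMod N, HasSum (fun j : ℕ+ => torG F a b Q (j : ℕ))
      (∑' p : ℕ+ × ℕ+, torHalf (zetaC N) e a b p.1 p.2 * Q ^ ((p.1 : ℕ) * p.2)) := by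
    intro a b
    refine (summable_torHalf e a b hQ).hasSum.prod_fiberwise fun j => ?_
    simp only [torG, Int.cast_natCast, zpow_natCast]
    by_cases hj : ((j : ℕ) : ZMod N) = a
    · rw [if_pos hj]
      have hu : ‖zpowMod (zetaC N) b * Q ^ (j : ℕ)‖ < 1 := by
        rw [norm_mul, norm_zpowMod_zetaC, one_mul, norm_pow]
        exact pow_lt_one₀ (norm_nonneg _) hQ j.ne_zero
      have h := (PNat.coe_injective.hasSum_iff (f := fun d : ℕ => (d : ℂ) ^ e *
        (zpowMod (zetaC N) b * Q ^ (j : ℕ)) ^ d) (fun n hn => by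
          rcases Nat.eq_zero_or_pos n with rfl | hn0
          · simp [he]
          · exact absurd ⟨⟨n, hn0⟩, rfl⟩ hn)).mpr (hF hu)
      convert! h using 1
      funext d
      simp only [Function.comp_apply, torHalf, if_pos hj, zpowMod_mul, mul_pow, ← pow_mul]
      ring
    · rw [if_neg hj]
      simpa [torHalf, hj] using hasSum_zero (α := ℂ) (β := ℕ+)
  have hneg : HasSum (fun j : ℕ+ => torG F a b Q (-((j : ℕ) : ℤ)))
      ((-1) ^ (e + 1) *
        ∑' p : ℕ+ × ℕ+, torHalf (zetaC N) e (-a) (-b) p.1 p.2 * Q ^ ((p.1 : ℕ) * p.2)) := by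
    convert! (hpos (-a) (-b)).mul_left ((-1 : ℂ) ^ (e + 1)) using 1
    funext j
    simp only [torG, Int.cast_neg, Int.cast_natCast, neg_eq_iff_eq_neg, zpow_neg, zpow_natCast,
      zpowMod_neg]
    split_ifs
    · rw [← hinv, mul_inv, inv_inv]
    · ring
  rw [(hasSum_torCoeff e a b hQ).tsum_eq]
  set A := ∑' p : ℕ+ × ℕ+, torHalf (zetaC N) e a b p.1 p.2 * Q ^ ((p.1 : ℕ) * p.2)
  set B := (-1 : ℂ) ^ (e + 1) *
    ∑' p : ℕ+ × ℕ+, torHalf (zetaC N) e (-a) (-b) p.1 p.2 * Q ^ ((p.1 : ℕ) * p.2)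
  rw [← Equiv.pnatEquivNat.symm.hasSum_iff] at hneg
  have hp := Equiv.pnatEquivNat.symm.hasSum_iff.mpr (hpos a b)
  have h1 : HasSum (fun n : ℕ => torG F a b Q n)
      (A + (if a = 0 then F (zpowMod (zetaC N) b) else 0)) := by
    have h := (hasSum_nat_add_iff (f := fun n : ℕ => torG F a b Q n) (g := A) 1).mp (by
      convert! hp using 1)
    rw [Finset.sum_range_one] at h
    convert! h using 2
    simp [torG, eq_comm]
  have h2 : HasSum (fun n : ℕ => torG F a b Q (-((n : ℤ) + 1))) B := by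
    convert! hneg using 1
  convert! h1.of_nat_of_neg_add_one h2 using 1
  ring

theorem norm_qParam_lt_one (τ : ℍ) : ‖Function.Periodic.qParam (N : ℝ) τ‖ < 1 :=
  τ.norm_qParam_lt_one N

/-- The sum over the rows of a division point. -/
theorem hasSum_rows (F : ℂ → ℂ) (e : ℕ) (he : e ≠ 0)
    (hF : ∀ {u : ℂ}, ‖u‖ < 1 → HasSum (fun d : ℕ => (d : ℂ) ^ e * u ^ d) (F u))
    (hinv : ∀ u, F u⁻¹ = (-1) ^ (e + 1) * F u) (v : Fin 2 → ℤ) (τ : ℍ) :
    HasSum (fun m : ℤ => F (expTwo (((v 0 : ℂ) * τ + v 1) / N + m * τ)))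
      ((if (v 0 : ZMod N) = 0 then F (zpowMod (zetaC N) (v 1 : ZMod N)) else 0) +
        ∑' n : ℕ, torCoeff (zetaC N) e (v 0 : ZMod N) (v 1 : ZMod N) n *
          Function.Periodic.qParam (N : ℝ) τ ^ n) := by
  have hinj : Function.Injective (fun m : ℤ => v 0 + m * N) := fun m m' h => by
    simpa [NeZero.ne N] using h
  have h := (hinj.hasSum_iff (f := torG F (v 0 : ZMod N) (v 1 : ZMod N)
    (Function.Periodic.qParam (N : ℝ) τ)) (fun i hi => ?_)).mpr
    (hasSum_torG F e he hF hinv _ _ (norm_qParam_lt_one τ))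
  · convert! h using 1
    funext m
    simp only [Function.comp_apply, torG, Int.cast_add, Int.cast_mul, Int.cast_natCast,
      ZMod.natCast_self, mul_zero, add_zero, if_true, zpowMod_zetaC]
    congr 1
    rw [Function.Periodic.qParam, expTwo, expTwo, ← Complex.exp_int_mul, ← Complex.exp_add]
    congr 1
    have hN : (N : ℂ) ≠ 0 := NeZero.ne _
    push_cast
    field_simp
    ring
  · rw [torG, if_neg]
    intro hc
    refine hi ⟨(i - v 0) / N, ?_⟩
    have hd : (N : ℤ) ∣ i - v 0 := (ZMod.intCast_eq_intCast_iff_dvd_sub _ _ _).mp hc.symm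
    simp only [Int.ediv_mul_cancel hd]
    ring

/-- The point `(v₀ τ + v₁) / N` avoids every row unless `v ≡ 0`. -/
theorem row_ne_int {v : Fin 2 → ℤ} (hv : VecNondeg N v) (τ : ℍ) (m : ℤ) :
    ¬ ∃ n : ℤ, (n : ℂ) = ((v 0 : ℂ) * τ + v 1) / N + m * τ := by
  rintro ⟨n, hn⟩
  have hN : (N : ℂ) ≠ 0 := NeZero.ne _
  field_simp at hn
  have him := congrArg Complex.im hn
  simp at him
  have h0 : ((v 0 : ℝ) + m * N) = 0 := by
    have : ((v 0 : ℝ) + m * N) * τ.im = 0 := by linear_combination -him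
    exact (mul_eq_zero.mp this).resolve_right τ.im_pos.ne'
  have h0' : v 0 + m * N = 0 := by exact_mod_cast h0
  refine hv (fun i => ?_)
  fin_cases i
  · exact ⟨-m, by simp only [Fin.zero_eta, Fin.isValue]; linarith⟩
  · refine ⟨n, ?_⟩
    have hc : ((v 0 : ℂ) + m * N) = 0 := by exact_mod_cast h0'
    have : (v 1 : ℂ) = (N : ℂ) * n := by linear_combination -hn - (τ : ℂ) * hc
    exact_mod_cast this

theorem hasSum_lattice_prod (τ : ℍ) {f : ℂ → ℂ} {S : ℂ}
    (h : HasSum (fun l : (periodsTau τ).lattice => f l) S) :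
    HasSum (fun p : ℤ × ℤ => f (-((p.1 : ℂ) * τ + p.2))) S := by
  have h1 := (periodsTau τ).latticeEquivProd.symm.toEquiv.hasSum_iff.mpr h
  have h2 := ((Equiv.prodComm ℤ ℤ).trans ((Equiv.neg ℤ).prodCongr (Equiv.neg ℤ))).hasSum_iff.mpr h1
  convert! h2 using 1
  funext p
  have := (periodsTau τ).latticeEquiv_symm_apply (-p.2, -p.1)
  simp only [Function.comp_apply, Equiv.trans_apply, Equiv.prodComm_apply, Prod.swap,
    Equiv.prodCongr_apply, Prod.map_apply, Equiv.neg_apply, LinearEquiv.coe_toEquiv, this]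
  simp only [periodsTau]
  congr 1
  push_cast
  ring

/-- The `q`-series of `℘'`. -/
theorem torY_eq_tsum {v : Fin 2 → ℤ} (hv : VecNondeg N v) (τ : ℍ) :
    torY N v τ = (if (v 0 : ZMod N) = 0 then rowG (zpowMod (zetaC N) (v 1 : ZMod N)) else 0) +
      ∑' n : ℕ, torCoeff (zetaC N) 2 (v 0 : ZMod N) (v 1 : ZMod N) n *
        Function.Periodic.qParam (N : ℝ) τ ^ n := by
  set z : ℂ := ((v 0 : ℂ) * τ + v 1) / N with hz
  have h := hasSum_lattice_prod τ (f := fun l => -2 / (z - l) ^ 3)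
    ((periodsTau τ).hasSum_derivWeierstrassP z)
  have hrow := h.prod_fiberwise (g := fun m : ℤ => -2 * rowSum 3 (z + m * τ)) fun m => by
    convert! (hasSum_row (by norm_num : 2 ≤ 3) (z + m * τ)).mul_left (-2) using 1
    funext n
    rw [mul_one_div]
    congr 2
    ring
  have hG := hasSum_rows rowG 2 two_ne_zero (fun hu => hasSum_rowG hu)
    (fun u => by rw [rowG_inv]; ring) v τ (N := N)
  have huniq := hrow.unique (by
    convert! hG.mul_left ((2 * π * Complex.I) ^ 3) using 1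
    funext m
    rw [rowSum_three (row_ne_int hv τ m)]
    ring)
  rw [torY, ← hz, huniq, mul_div_cancel_left₀ _ (pow_ne_zero _ two_pi_I_ne_zero)]

/-- The `q`-series of `℘`. -/
theorem torX_eq_tsum {v : Fin 2 → ℤ} (hv : VecNondeg N v) (τ : ℍ) :
    torX N v τ = ((if (v 0 : ZMod N) = 0 then rowF (zpowMod (zetaC N) (v 1 : ZMod N)) else 0) +
      ∑' n : ℕ, torCoeff (zetaC N) 1 (v 0 : ZMod N) (v 1 : ZMod N) n *
        Function.Periodic.qParam (N : ℝ) τ ^ n) -
      (∑' n : ℕ, torCoeff (zetaC N) 1 (0 : ZMod N) (0 : ZMod N) n *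
        Function.Periodic.qParam (N : ℝ) τ ^ n) + 1 / 12 := by
  have hT : (2 * π * Complex.I : ℂ) ≠ 0 := two_pi_I_ne_zero
  set z : ℂ := ((v 0 : ℂ) * τ + v 1) / N with hz
  have h := hasSum_lattice_prod τ (f := fun l => 1 / (z - l) ^ 2 - 1 / l ^ 2)
    ((periodsTau τ).hasSum_weierstrassP z)
  have hrow := h.prod_fiberwise
    (g := fun m : ℤ => rowSum 2 (z + m * τ) - rowSum 2 (m * τ)) fun m => by
    convert! (hasSum_row le_rfl (z + m * τ)).sub (hasSum_row le_rfl ((m : ℂ) * τ)) using 1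
    funext n
    congr 1
    · congr 2; ring
    · rw [neg_sq]
  have hF := hasSum_rows rowF 1 one_ne_zero (fun hu => hasSum_rowF hu)
    (fun u => by simp [rowF_inv]) v τ (N := N)
  have h0 := hasSum_rows rowF 1 one_ne_zero (fun hu => hasSum_rowF hu)
    (fun u => by simp [rowF_inv]) (0 : Fin 2 → ℤ) (N := N) τ
  simp only [Pi.zero_apply, Int.cast_zero, zero_mul, add_zero, zero_div, zero_add, if_true,
    zpowMod, ZMod.val_zero, pow_zero] at h0
  have hrowF1 : rowF 1 = 0 := by simp [rowF]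
  rw [hrowF1, zero_add] at h0
  set A := (if (v 0 : ZMod N) = 0 then rowF (zpowMod (zetaC N) (v 1 : ZMod N)) else 0) +
    ∑' n : ℕ, torCoeff (zetaC N) 1 (v 0 : ZMod N) (v 1 : ZMod N) n *
      Function.Periodic.qParam (N : ℝ) τ ^ n
  set B := ∑' n : ℕ, torCoeff (zetaC N) 1 (0 : ZMod N) (0 : ZMod N) n *
      Function.Periodic.qParam (N : ℝ) τ ^ n
  have hdelta : HasSum (fun m : ℤ => if m = 0 then (π : ℂ) ^ 2 / 3 else 0) ((π : ℂ) ^ 2 / 3) :=
    hasSum_ite_eq 0 _
  have huniq := hrow.unique (by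
    convert! ((hF.sub h0).mul_left ((2 * π * Complex.I) ^ 2)).sub hdelta using 1
    funext m
    rw [rowSum_two (row_ne_int hv τ m)]
    rcases eq_or_ne m 0 with rfl | hm
    · rw [if_pos rfl]
      simp [rowSum_two_zero, expTwo, hrowF1]
    · rw [if_neg hm, rowSum_two]
      · ring
      · rintro ⟨n, hn⟩
        have := congrArg Complex.im hn
        simp [hm, τ.im_pos.ne'] at this)
  rw [torX, ← hz, huniq]
  rw [div_eq_iff (pow_ne_zero 2 hT)]
  have hI : Complex.I ^ 2 = -1 := Complex.I_sq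
  linear_combination (-(π : ℂ) ^ 2 / 3) * hI

end FLTA.DeligneSerre
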