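import Fermat.Agent.DeligneSerre.Level.TorsionLead
import Fermat.Agent.DeligneSerre.Level.Series

/-!
# Expansions which are an `N`-unit times a series with unit leading coefficient
-/

set_option autoImplicit false

noncomputable section

open scoped MatrixGroups
open UpperHalfPlane

namespace FLTA.DeligneSerre

open FLTA.Bridge (HolInfty expansion)
open ModularCurve (coeffMap)

local notation "Qb" => AlgebraicClosure ℚ
local notation "Zb" => integralClosure ℤ (AlgebraicClosure ℚ)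

/-- An `N`-unit times an integral Laurent series with unit leading coefficient. -/
def UnitExp (N : ℕ) (X : LaurentSeries ℂ) : Prop :=
  ∃ (c : Qb) (T : LaurentSeries Zb), NUnit N c ∧ IsUnit T ∧
    X = HahnSeries.C (iota c) * coeffMap intC T

theorem intC_injective : Function.Injective intC :=
  iota.injective.comp Subtype.val_injective

theorem UnitExp.ne_zero {N : ℕ} {X : LaurentSeries ℂ} (h : UnitExp N X) : X ≠ 0 := by
  obtain ⟨c, T, hc, hT, rfl⟩ := h
  refine mul_ne_zero ?_ ((hT.map (coeffMap intC)).ne_zero)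
  exact HahnSeries.C_ne_zero ((map_ne_zero iota).mpr hc.1)

theorem UnitExp.mul {N : ℕ} {X Y : LaurentSeries ℂ} (hX : UnitExp N X) (hY : UnitExp N Y) :
    UnitExp N (X * Y) := by
  obtain ⟨c, T, hc, hT, rfl⟩ := hX
  obtain ⟨d, U, hd, hU, rfl⟩ := hY
  exact ⟨c * d, T * U, hc.mul hd, hT.mul hU, by rw [map_mul iota, map_mul, map_mul]; ring⟩

theorem UnitExp.inv {N : ℕ} {X : LaurentSeries ℂ} (hX : UnitExp N X) : UnitExp N X⁻¹ := by
  obtain ⟨c, T, hc, hT, rfl⟩ := hX
  obtain ⟨U, hU⟩ := hT.exists_right_inv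
  refine ⟨c⁻¹, U, hc.inv, IsUnit.of_mul_eq_one T (by rw [mul_comm]; exact hU), ?_⟩
  refine inv_eq_of_mul_eq_one_right ?_
  rw [mul_mul_mul_comm, ← map_mul HahnSeries.C, ← map_mul iota, mul_inv_cancel₀ hc.1, map_one,
    map_one, one_mul, ← map_mul, hU, map_one]

theorem UnitExp.div {N : ℕ} {X Y : LaurentSeries ℂ} (hX : UnitExp N X) (hY : UnitExp N Y) :
    UnitExp N (X / Y) := by
  rw [div_eq_mul_inv]; exact hX.mul hY.inv

theorem coeff_C_mul (z : ℂ) (X : LaurentSeries ℂ) (k : ℤ) :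
    (HahnSeries.C z * X).coeff k = z * X.coeff k := by
  simp [HahnSeries.C_mul_eq_smul]

/-- The coefficient of the expansion in terms of the integral series. -/
theorem coeff_unitExp (c : Qb) (T : LaurentSeries Zb) (k : ℤ) :
    (HahnSeries.C (iota c) * coeffMap intC T).coeff k = iota (c * (T.coeff k : Qb)) := by
  rw [coeff_C_mul, ModularCurve.coeffMap_coeff, map_mul]
  rfl

theorem order_unitExp {c : Qb} (hc : c ≠ 0) {T : LaurentSeries Zb} (hT : IsUnit T) :
    (HahnSeries.C (iota c) * coeffMap intC T).order = T.order := by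
  have hne : ∀ k, (HahnSeries.C (iota c) * coeffMap intC T).coeff k = 0 ↔ T.coeff k = 0 := fun k => by
    rw [coeff_unitExp, map_eq_zero, mul_eq_zero, or_iff_right hc, ZeroMemClass.coe_eq_zero]
  have hT0 : T ≠ 0 := hT.ne_zero
  have h0 : T.coeff T.order ≠ 0 := fun h => hT0 (HahnSeries.coeff_order_eq_zero.mp h)
  refine le_antisymm (HahnSeries.order_le_of_coeff_ne_zero (fun h => h0 ((hne _).mp h))) ?_
  have hX : HahnSeries.C (iota c) * coeffMap intC T ≠ 0 := fun h => h0 ((hne _).mp (by rw [h]; rfl))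
  refine HahnSeries.order_le_of_coeff_ne_zero (fun h => ?_)
  exact hX (HahnSeries.coeff_order_eq_zero.mp ((hne _).mpr h))

theorem isUnit_coeff_order {T : LaurentSeries Zb} (hT : IsUnit T) : IsUnit (T.coeff T.order) := by
  have h := HahnSeries.isUnit_iff.mp hT
  rwa [HahnSeries.leadingCoeff_eq] at h

theorem UnitExp.unitSeries {N : ℕ} {X : LaurentSeries ℂ} (h : UnitExp N X) : UnitSeries X := by
  obtain ⟨c, T, hc, hT, rfl⟩ := h
  refine ⟨c, hc.1, fun k => ⟨_, (T.coeff k).2, (coeff_unitExp c T k).symm⟩, ?_⟩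
  rw [order_unitExp hc.1 hT, coeff_unitExp]
  obtain ⟨b, hb⟩ := (isUnit_coeff_order hT).exists_right_inv
  exact ⟨_, (b : Qb), (T.coeff T.order).2, b.2, congrArg Subtype.val hb, rfl⟩

section AtPlace

variable {N : ℕ} [NeZero N] {l : ℕ} {A : ValuationSubring Qb} {F : ℍ → ℂ} {g : SL(2, ℤ)}

omit [NeZero N] in
theorem UnitExp.integral (h : UnitExp N (cexp N F g)) (hl : l.Prime) (hlN : ¬ l ∣ N)
    (hA : A.LiesOverPrime l) (k : ℤ) : ∃ a : A, iota (a : Qb) = (cexp N F g).coeff k := by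
  obtain ⟨c, T, hc, -, hX⟩ := h
  exact ⟨⟨_, mul_mem (hc.2 l hl hlN A hA).1 (Galois.mem_of_isIntegral (T.coeff k).2)⟩,
    by rw [hX, coeff_unitExp]⟩

omit [NeZero N] in
theorem UnitExp.order_redExp (h : UnitExp N (cexp N F g)) (hl : l.Prime) (hlN : ¬ l ∣ N)
    (hA : A.LiesOverPrime l) :
    redExp A N F g ≠ 0 ∧ (redExp A N F g).order = (cexp N F g).order := by
  obtain ⟨c, T, hc, hT, hX⟩ := h
  have hmem : ∀ k : ℤ, c * (T.coeff k : Qb) ∈ A := fun k =>
    mul_mem (hc.2 l hl hlN A hA).1 (Galois.mem_of_isIntegral (T.coeff k).2)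
  have hcoeff : ∀ k : ℤ, (redExp A N F g).coeff k = IsLocalRing.residue A ⟨_, hmem k⟩ := fun k => by
    show redC A ((cexp N F g).coeff k) = _
    rw [hX, coeff_unitExp]
    exact redC_iota A ⟨_, hmem k⟩
  have hu : IsUnit (⟨_, hmem T.order⟩ : A) := by
    obtain ⟨b, hb⟩ := (isUnit_coeff_order hT).exists_right_inv
    have hb' : (T.coeff T.order : Qb) * b = 1 := congrArg Subtype.val hb
    refine IsUnit.of_mul_eq_one ⟨c⁻¹ * (b : Qb),
      mul_mem (hc.2 l hl hlN A hA).2 (Galois.mem_of_isIntegral b.2)⟩ (Subtype.ext ?_)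
    show c * (T.coeff T.order : Qb) * (c⁻¹ * b) = 1
    rw [mul_mul_mul_comm, mul_inv_cancel₀ hc.1, hb', one_mul]
  have hne : (redExp A N F g).coeff T.order ≠ 0 := by
    rw [hcoeff]; exact (hu.map _).ne_zero
  have hR : redExp A N F g ≠ 0 := fun h => hne (by rw [h]; rfl)
  refine ⟨hR, ?_⟩
  rw [hX, order_unitExp hc.1 hT]
  refine le_antisymm (HahnSeries.order_le_of_coeff_ne_zero hne) ?_
  by_contra hlt
  rw [not_le] at hlt
  refine hR (HahnSeries.coeff_order_eq_zero.mp ?_)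
  rw [hcoeff]
  refine (congrArg (IsLocalRing.residue A) (Subtype.ext ?_)).trans (map_zero _)
  show c * (T.coeff _ : Qb) = 0
  rw [HahnSeries.coeff_eq_zero_of_lt_order hlt]
  simp

end AtPlace

theorem coeffMap_ofPowerSeries {R S : Type*} [CommRing R] [CommRing S] (f : R →+* S) (c : ℕ → R) :
    coeffMap f (HahnSeries.ofPowerSeries ℤ R (PowerSeries.mk c)) =
      HahnSeries.ofPowerSeries ℤ S (PowerSeries.mk (fun m => f (c m))) := by
  ext k
  rw [ModularCurve.coeffMap_coeff]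
  by_cases hk : k < 0
  · rw [ModularCurve.ofPowerSeries_coeff_of_neg _ hk, ModularCurve.ofPowerSeries_coeff_of_neg _ hk,
      map_zero]
  · obtain ⟨m, rfl⟩ := Int.eq_ofNat_of_zero_le (not_lt.mp hk)
    simp [HahnSeries.ofPowerSeries_apply_coeff]

variable {N : ℕ} [NeZero N] {F : ℍ → ℂ}

theorem LeadSeries.mem_holInfty (h : LeadSeries N F) : F ∈ HolInfty N := by
  obtain ⟨c, S, r, -, -, -, hs⟩ := h
  exact (mem_holInfty_of_hasSum hs).1

theorem LeadSeries.inv_mem_holInfty (h : LeadSeries N F) (hF : ∀ τ, F τ ≠ 0) :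
    (fun τ => (F τ)⁻¹) ∈ HolInfty N := by
  obtain ⟨c, S, r, hc, hr, hlt, hs⟩ := h
  exact FLTA.DeligneSerre.inv_mem_holInfty hs hF
    (mul_ne_zero ((map_ne_zero iota).mpr hc.1) ((map_ne_zero_iff _ intC_injective).mpr hr.ne_zero))
    (fun m hm => by simp [hlt m hm])

theorem LeadSeries.unitExp (h : LeadSeries N F) :
    UnitExp N (expansion N ⟨F, h.mem_holInfty⟩) := by
  obtain ⟨c, S, r, hc, hr, hlt, hs⟩ := h
  set T : LaurentSeries Zb := HahnSeries.ofPowerSeries ℤ Zb (PowerSeries.mk S) with hT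
  have hcoeff : ∀ m : ℕ, T.coeff m = S m := fun m => by
    simp [hT, HahnSeries.ofPowerSeries_apply_coeff]
  have hne : T.coeff (r : ℤ) ≠ 0 := by rw [hcoeff]; exact hr.ne_zero
  have hord : T.order = r := by
    refine le_antisymm (HahnSeries.order_le_of_coeff_ne_zero hne) (not_lt.mp fun hlt' => ?_)
    have hT0 : T ≠ 0 := fun h => hne (by rw [h]; rfl)
    refine hT0 (HahnSeries.coeff_order_eq_zero.mp ?_)
    by_cases hk : T.order < 0
    · exact ModularCurve.ofPowerSeries_coeff_of_neg _ hk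
    · obtain ⟨m, hm⟩ := Int.eq_ofNat_of_zero_le (not_lt.mp hk)
      rw [hm, hcoeff, hlt m (by omega)]
  refine ⟨c, T, hc, ?_, ?_⟩
  · rw [HahnSeries.isUnit_iff, HahnSeries.leadingCoeff_eq, hord, hcoeff]
    exact hr
  · rw [expansion_of_hasSum hs, hT, coeffMap_ofPowerSeries]
    ext k
    rw [coeff_C_mul]
    by_cases hk : k < 0
    · rw [ModularCurve.ofPowerSeries_coeff_of_neg _ hk,
        ModularCurve.ofPowerSeries_coeff_of_neg _ hk, mul_zero]
    · obtain ⟨m, rfl⟩ := Int.eq_ofNat_of_zero_le (not_lt.mp hk)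
      simp [HahnSeries.ofPowerSeries_apply_coeff]

end FLTA.DeligneSerre
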