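import Fermat.Agent.DeligneSerre.Level.Torsion
import Mathlib.NumberTheory.ModularForms.SlashActions

/-!
# A weight one form without zeros on `ℍ`

`℘'(a) / (℘(a) - ℘(b))` at division points.
-/

set_option autoImplicit false

noncomputable section

open scoped MatrixGroups Real ModularForm
open UpperHalfPlane CongruenceSubgroup

namespace FLTA.DeligneSerre

open FLTA.Bridge (HolInfty expansion)
open ModularCurve (coeffMap)

/-- `y_v / (x_v - x_w)`, of weight one. -/
def torU (N : ℕ) (v w : Fin 2 → ℤ) (τ : ℍ) : ℂ := torY N v τ / (torX N v τ - torX N w τ)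

variable {N : ℕ} [NeZero N] {v w : Fin 2 → ℤ}

omit [NeZero N] in
theorem torU_slash (g : SL(2, ℤ)) :
    torU N v w ∣[(1 : ℤ)] g = torU N (vecAct v g) (vecAct w g) := by
  funext τ
  have hden : denom (g : GL (Fin 2) ℝ) τ = (g 1 0 : ℂ) * τ + g 1 1 :=
    ModularGroup.denom_apply g τ
  rw [ModularForm.SL_slash_apply, hden, torU, (tor_smul (N := N) v g τ).1,
    (tor_smul (N := N) v g τ).2, (tor_smul (N := N) w g τ).1, torU, zpow_neg, zpow_one]
  have hD : ((g 1 0 : ℂ) * τ + g 1 1) ≠ 0 := hden ▸ denom_ne_zero _ τ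
  rw [← mul_sub]
  by_cases h : torX N (vecAct v g) τ - torX N (vecAct w g) τ = 0
  · simp [h]
  · field_simp

theorem torU_congr {v' w' : Fin 2 → ℤ} (hv : ∀ i, (N : ℤ) ∣ v i - v' i) (hw : VecEq N w w') :
    torU N v w = torU N v' w' := by
  funext τ
  simp [torU, torY_periodic hv, torX_periodic hv, torX_congr hw]

theorem torU_ne_zero (hv : VecNondeg N v) (hv2 : VecNondeg N (2 • v)) (hw : VecNondeg N w)
    (h : ¬ VecEq N v w) (τ : ℍ) : torU N v w τ ≠ 0 :=
  div_ne_zero (torY_ne_zero hv hv2 τ) (sub_ne_zero.mpr (torX_ne hv hw h τ))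

theorem torY_mem_holInfty (hv : VecNondeg N v) : torY N v ∈ HolInfty N :=
  (mem_holInfty_of_hasSum (hasSum_torY hv)).1

theorem expansion_torY (hv : VecNondeg N v) :
    expansion N ⟨_, torY_mem_holInfty hv⟩ =
      HahnSeries.ofPowerSeries ℤ ℂ (PowerSeries.mk (yCoeff N v)) :=
  expansion_of_hasSum (hasSum_torY hv)

theorem torU_holInfty (hv : VecNondeg N v) (hw : VecNondeg N w) (h : ¬ VecEq N v w) :
    torU N v w ∈ FLTA.Bridge.Hol ∧ torU N v w ∈ FLTA.Bridge.HolInfty N := by
  have hm := mul_mem (torY_mem_holInfty hv)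
    ((leadSeries_diff hv hw h).inv_mem_holInfty fun τ => sub_ne_zero.mpr (torX_ne hv hw h τ))
  have : torU N v w ∈ HolInfty N := by convert! hm using 1
  exact ⟨this.1, this⟩

theorem cexp_torU_one (hv : VecNondeg N v) (hw : VecNondeg N w) (h : ¬ VecEq N v w) :
    cexp N (torU N v w) 1 = expansion N ⟨_, torY_mem_holInfty hv⟩ /
      expansion N ⟨_, diff_mem_holInfty hv hw⟩ := by
  have hne : expansion N ⟨_, diff_mem_holInfty hv hw⟩ ≠ 0 :=
    (leadSeries_diff hv hw h).unitExp.ne_zero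
  rw [eq_div_iff hne]
  have h1 : (fun τ : ℍ => torU N v w ((1 : SL(2, ℤ)) • τ)) ∈ HolInfty N := by
    simpa using (torU_holInfty hv hw h).2
  rw [cexp_of_mem h1, ← map_mul]
  congr 1
  refine Subtype.ext (funext fun τ => ?_)
  show torU N v w ((1 : SL(2, ℤ)) • τ) * (torX N v τ - torX N w τ) = _
  rw [one_smul, torU, div_mul_cancel₀ _ (sub_ne_zero.mpr (torX_ne hv hw h τ))]

theorem torU_unitExp (hv : VecNondeg N v) (hv2 : VecNondeg N (2 • v)) (hw : VecNondeg N w)
    (h : ¬ VecEq N v w) : UnitExp N (cexp N (torU N v w) 1) := by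
  rw [cexp_torU_one hv hw h]
  exact (leadSeries_torY hv hv2).unitExp.div (leadSeries_diff hv hw h).unitExp

theorem torU_unitSeries (hv : VecNondeg N v) (hv2 : VecNondeg N (2 • v)) (hw : VecNondeg N w)
    (h : ¬ VecEq N v w) : UnitSeries (cexp N (torU N v w) 1) :=
  (torU_unitExp hv hv2 hw h).unitSeries

theorem galois_yCoeff {σ : ℂ ≃+* ℂ} {u : ℕ}
    (hu : σ (Complex.exp (2 * π * Complex.I / N)) = Complex.exp (2 * π * Complex.I / N) ^ u)
    (v : Fin 2 → ℤ) (m : ℕ) : σ (yCoeff N v m) = yCoeff N ![v 0, u * v 1] m := by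
  simp only [yCoeff, constY, map_add, apply_ite σ, map_zero, galois_torCoeff hu,
    rowG, map_div₀, map_mul, map_pow, map_sub, map_one, galois_zpowMod hu, Matrix.cons_val_zero,
    Matrix.cons_val_one, Int.cast_mul, Int.cast_natCast, mul_comm (u : ZMod N)]

theorem torU_galois (σ : ℂ ≃+* ℂ) (u : ℕ)
    (hu : σ (Complex.exp (2 * π * Complex.I / N)) = Complex.exp (2 * π * Complex.I / N) ^ u)
    (hv : VecNondeg N v) (hw : VecNondeg N w) (h : ¬ VecEq N v w) (k : ℤ) :
    σ ((cexp N (torU N v w) 1).coeff k) =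
      (cexp N (torU N ![v 0, u * v 1] ![w 0, u * w 1]) 1).coeff k := by
  have hy : coeffMap σ.toRingHom (expansion N ⟨_, torY_mem_holInfty hv⟩) =
      expansion N ⟨_, torY_mem_holInfty (galois_vecNondeg hu hv)⟩ := by
    rw [expansion_torY hv, expansion_torY (galois_vecNondeg hu hv), coeffMap_ofPowerSeries]
    exact congrArg _ (congrArg _ (funext fun m => galois_yCoeff hu v m))
  rw [cexp_torU_one hv hw h,
    cexp_torU_one (galois_vecNondeg hu hv) (galois_vecNondeg hu hw) (galois_not_vecEq hu h),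
    ← coeffMap_expansion_diff hu hv hw, ← hy, ← map_div₀ (coeffMap σ.toRingHom)]
  rfl

end FLTA.DeligneSerre
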